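import Fermat.Agent.FlatOrd.InertiaLift
import Fermat.Agent.Lib.Cyclotomic

/-!
# The `p`-adic cyclotomic character is surjective on inertia at `p`
-/

set_option autoImplicit false
set_option linter.style.haveILetI false
set_option linter.unusedVariables false

namespace Fermat.Agent.DefCond

open Fermat.Agent.FrobExists

local notation "Qbar" => AlgebraicClosure ℚ
local notation "Γℚ" => (AlgebraicClosure ℚ ≃ₐ[ℚ] AlgebraicClosure ℚ)

/-- The mod `n` cyclotomic character is surjective. -/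
theorem exists_cyc_eq (n : ℕ) [NeZero n] (u : (ZMod n)ˣ) :
    ∃ g : Γℚ, Cyclotomic.cyc n g = u := by
  obtain ⟨ζ, hζ⟩ := Cyclotomic.exists_primitiveRoot n
  have hcop : Nat.Coprime ((u : ZMod n)).val n := ZMod.val_coe_unit_coprime u
  have h1 : minpoly ℚ (ζ ^ (u : ZMod n).val) = minpoly ℚ ζ := by
    rw [← Polynomial.cyclotomic_eq_minpoly_rat hζ (NeZero.pos n),
      ← Polynomial.cyclotomic_eq_minpoly_rat (hζ.pow_of_coprime _ hcop) (NeZero.pos n)]
  obtain ⟨g, hg⟩ := (Normal.minpoly_eq_iff_mem_orbit Qbar).mp h1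
  have hg' : g ζ = ζ ^ (u : ZMod n).val := hg
  refine ⟨g, Units.ext ?_⟩
  refine Cyclotomic.cyc_unique n g fun ξ hξ => ?_
  obtain ⟨i, -, rfl⟩ := hζ.eq_pow_of_pow_eq_one hξ
  rw [map_pow, hg', ← pow_mul, ← pow_mul, mul_comm]

section General

variable {L : Type} [Field L]

/-- `p`-power roots of unity are `1` modulo places over `p`. -/
theorem sub_one_mem_center {p : ℕ} (hp : p.Prime) (P : ValuationSubring L)
    (hP : P.LiesOverPrime p) (n : ℕ) (z : integralClosure ℤ L) (hz : z ^ p ^ n = 1) :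
    z - 1 ∈ center P := by
  have : Fact p.Prime := ⟨hp⟩
  have hpmem : (p : integralClosure ℤ L) ∈ center P := by
    rw [mem_center]
    have h1 : (((p : integralClosure ℤ L)) : L) = (p : L) := by simp
    rw [h1]
    exact hP
  have hchar : CharP (integralClosure ℤ L ⧸ center P) p := by
    refine (CharP.charP_iff_prime_eq_zero hp).mpr ?_
    rw [← map_natCast (Ideal.Quotient.mk (center P)), Ideal.Quotient.eq_zero_iff_mem]
    exact hpmem
  rw [← Ideal.Quotient.eq_zero_iff_mem]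
  have h1 : (Ideal.Quotient.mk (center P) (z - 1)) ^ p ^ n = 0 := by
    rw [map_sub, sub_pow_char_pow, ← map_pow, hz, map_one, one_pow, sub_self]
  exact (pow_eq_zero_iff (pow_ne_zero n hp.ne_zero)).mp h1

variable [Algebra ℚ L]

/-- An automorphism sending `z` to a power of `z` moves elements of `ℤ[z]` inside the centre, when
`z` is a `p`-power root of unity. -/
theorem smul_sub_mem_center {p : ℕ} (hp : p.Prime) (P : ValuationSubring L)
    (hP : P.LiesOverPrime p) (n : ℕ) (z : integralClosure ℤ L) (hz : z ^ p ^ n = 1)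
    (g : L ≃ₐ[ℚ] L) (a : ℕ) (hg : g • z = z ^ a) (y : integralClosure ℤ L)
    (hy : y ∈ Algebra.adjoin ℤ ({z} : Set (integralClosure ℤ L))) : g • y - y ∈ center P := by
  induction hy using Algebra.adjoin_induction with
  | mem x hx =>
    rw [Set.mem_singleton_iff] at hx
    subst hx
    rw [hg]
    have h1 := sub_one_mem_center hp P hP n (x ^ a) (by rw [← pow_mul, mul_comm, pow_mul, hz, one_pow])
    have h2 := sub_one_mem_center hp P hP n x hz
    have := sub_mem h1 h2
    rwa [sub_sub_sub_cancel_right] at this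
  | algebraMap r =>
    rw [smul_algebraMap, sub_self]
    exact zero_mem _
  | add x y _ _ hx hy =>
    rw [smul_add, add_sub_add_comm]
    exact add_mem hx hy
  | mul x y _ _ hx hy =>
    rw [smul_mul']
    have : g • x * g • y - x * y = (g • x - x) * (g • y) + x * (g • y - y) := by ring
    rw [this]
    exact add_mem (Ideal.mul_mem_right _ _ hx) (Ideal.mul_mem_left _ _ hy)

/-- Integral elements of `ℚ(ζ)`, `ζ` a `p`-power root of unity, are in `ℤ[ζ]`. -/
theorem mem_adjoin_of_mem_cyclotomic [CharZero L] [Algebra.IsAlgebraic ℚ L] {p : ℕ} (hp : p.Prime)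
    (n : ℕ) (z : integralClosure ℤ L) (hz : IsPrimitiveRoot (z : L) (p ^ n))
    (x : integralClosure ℤ L) (hx : (x : L) ∈ IntermediateField.adjoin ℚ {(z : L)}) :
    x ∈ Algebra.adjoin ℤ ({z} : Set (integralClosure ℤ L)) := by
  have : Fact p.Prime := ⟨hp⟩
  have : NeZero (p ^ n) := ⟨pow_ne_zero n hp.ne_zero⟩
  let K := IntermediateField.adjoin ℚ {(z : L)}
  have hcyc : IsCyclotomicExtension {p ^ n} ℚ K := by
    have h := hz.intermediateField_adjoin_isCyclotomicExtension ℚ
    have e : (DivisionRing.toRatAlgebra : Algebra ℚ K) = K.algebra' := Subsingleton.elim _ _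
    rw [e]
    exact h
  let ζ : K := IntermediateField.AdjoinSimple.gen ℚ (z : L)
  have hζ : IsPrimitiveRoot ζ (p ^ n) := IsPrimitiveRoot.coe_submonoidClass_iff.mp hz
  have hic := IsCyclotomicExtension.Rat.isIntegralClosure_adjoin_singleton_of_prime_pow (K := K) hζ
  have hxint : IsIntegral ℤ (⟨(x : L), hx⟩ : K) := by
    have := x.2
    rw [mem_integralClosure_iff] at this
    exact (isIntegral_algHom_iff ((algebraMap K L).toIntAlgHom) (algebraMap K L).injective).mp this
  obtain ⟨y, hy⟩ := hic.isIntegral_iff.mp hxint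
  have hy2 : ((y : K) : L) = x := congrArg (fun t : K => (t : L)) hy
  have h3 : (x : L) ∈ Algebra.adjoin ℤ ({(z : L)} : Set L) := by
    have h4 : ((y : K) : L) ∈ (Algebra.adjoin ℤ ({ζ} : Set K)).map ((algebraMap K L).toIntAlgHom) :=
      ⟨y, y.2, rfl⟩
    rw [AlgHom.map_adjoin_singleton] at h4
    rw [← hy2]
    exact h4
  have h5 : Algebra.adjoin ℤ ({(z : L)} : Set L) =
      (Algebra.adjoin ℤ ({z} : Set (integralClosure ℤ L))).map (integralClosure ℤ L).val := by
    rw [AlgHom.map_adjoin_singleton]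
    rfl
  rw [h5] at h3
  obtain ⟨w, hw, hwx⟩ := h3
  have : w = x := Subtype.ext hwx
  rwa [← this]

theorem exists_inertia_of_pow [IsGalois ℚ L] {p : ℕ} (hp : p.Prime)
    (P : ValuationSubring L) (hP : P.LiesOverPrime p) (n : ℕ) (ζ : L)
    (hζ : IsPrimitiveRoot ζ (p ^ n)) (g : L ≃ₐ[ℚ] L) (a : ℕ) (hg : g ζ = ζ ^ a) :
    ∃ σ ∈ P.inertiaSubgroupIn ℚ, σ ζ = g ζ := by
  have : CharZero L := algebraRat.charZero L
  have hζint : IsIntegral ℤ ζ := hζ.isIntegral (pow_pos hp.pos n)
  let z : integralClosure ℤ L := ⟨ζ, hζint⟩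
  obtain ⟨σ, hσ, h⟩ := FlatOrd.InertiaLift.exists_mul_mem_inertia_of_intermediateField
    (IntermediateField.adjoin ℚ {ζ}) P hp hP g (fun x hx =>
      smul_sub_mem_center hp P hP n z (Subtype.ext (by simpa [z] using hζ.pow_eq_one)) g a
        (Subtype.ext (by simpa [z] using hg)) x (mem_adjoin_of_mem_cyclotomic hp n z hζ x hx))
  exact ⟨σ, hσ, h ζ (IntermediateField.mem_adjoin_simple_self ℚ ζ)⟩

end General

/-- The mod `p ^ n` cyclotomic character is surjective on inertia at places over `p`. -/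
theorem exists_inertia_cyc {p : ℕ} (hp : p.Prime) (n : ℕ) [NeZero (p ^ n)]
    (P : ValuationSubring Qbar) (hP : P.LiesOverPrime p) (u : (ZMod (p ^ n))ˣ) :
    ∃ σ ∈ P.inertiaSubgroupIn ℚ, Cyclotomic.cyc (p ^ n) σ = u := by
  obtain ⟨ζ, hζ⟩ := Cyclotomic.exists_primitiveRoot (p ^ n)
  obtain ⟨g, hg⟩ := exists_cyc_eq (p ^ n) u
  have h1 := Cyclotomic.cyc_spec (p ^ n) g hζ.pow_eq_one
  obtain ⟨σ, hσ, hσζ⟩ := exists_inertia_of_pow hp P hP n ζ hζ g _ h1
  refine ⟨σ, hσ, ?_⟩
  rw [← hg]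
  refine Units.ext ?_
  refine Cyclotomic.cyc_unique (p ^ n) σ fun ξ hξ => ?_
  obtain ⟨i, -, rfl⟩ := hζ.eq_pow_of_pow_eq_one hξ
  rw [map_pow, hσζ, h1, ← pow_mul, ← pow_mul, mul_comm]

end Fermat.Agent.DefCond
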