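import Mathlib
import Fermat.Prelude.Def_GaloisRep_DeformationCondition
import Fermat.Prelude.Def_GaloisRep_LocalConditions
import Fermat.Agent.FlatOrd.Glue

/-!
# Deformation conditions: generalities

* API for `GaloisRepAdic.baseChangeAlong`;
* `Good`: a convenient sufficient criterion for `GaloisRep.IsDeformationCondition`;
* conjunctions.
-/

set_option autoImplicit false
set_option linter.style.haveILetI false
set_option linter.unusedVariables false

open IsLocalRing GaloisRep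
open scoped TensorProduct

namespace Fermat.Agent.DefCond

local notation "Γℚ" => (AlgebraicClosure ℚ ≃ₐ[ℚ] AlgebraicClosure ℚ)

section BaseChange

variable {A B : Type} [CommRing A] [IsLocalRing A] [CommRing B] [IsLocalRing B]
  (φ : A →+* B) (hφ : IsLocalHom φ) (ρ : GaloisRepAdic A)

/-- The natural map `V → B ⊗ V`. -/
noncomputable def inc : ρ.V →+ (ρ.baseChangeAlong φ hφ).V :=
  letI : Algebra A B := φ.toAlgebra
  { toFun := fun v => ((1 : B) ⊗ₜ[A] v : B ⊗[A] ρ.V)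
    map_zero' := TensorProduct.tmul_zero _ _
    map_add' := fun v w => TensorProduct.tmul_add _ _ _ }

theorem inc_def (v : ρ.V) :
    letI : Algebra A B := φ.toAlgebra
    inc φ hφ ρ v = ((1 : B) ⊗ₜ[A] v : B ⊗[A] ρ.V) := rfl

theorem inc_smul (a : A) (v : ρ.V) : inc φ hφ ρ (a • v) = φ a • inc φ hφ ρ v := by
  letI : Algebra A B := φ.toAlgebra
  change ((1 : B) ⊗ₜ[A] (a • v) : B ⊗[A] ρ.V) = φ a • ((1 : B) ⊗ₜ[A] v : B ⊗[A] ρ.V)
  rw [TensorProduct.tmul_smul, TensorProduct.smul_tmul', TensorProduct.smul_tmul',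
        smul_eq_mul, Algebra.smul_def]
  rfl

@[simp] theorem rho_inc (σ : Γℚ) (v : ρ.V) :
    (ρ.baseChangeAlong φ hφ).ρ σ (inc φ hφ ρ v) = inc φ hφ ρ (ρ.ρ σ v) := by
  letI : Algebra A B := φ.toAlgebra
  exact LinearMap.baseChange_tmul _ _ _

theorem span_range_inc : Submodule.span B (Set.range (inc φ hφ ρ)) = ⊤ := by
  letI : Algebra A B := φ.toAlgebra
  rw [eq_top_iff]
  intro w _
  change w ∈ Submodule.span B (Set.range fun v => ((1 : B) ⊗ₜ[A] v : B ⊗[A] ρ.V))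
  change B ⊗[A] ρ.V at w
  induction w using TensorProduct.induction_on with
  | zero => exact Submodule.zero_mem _
  | tmul b v =>
    have : (b ⊗ₜ[A] v : B ⊗[A] ρ.V) = b • ((1 : B) ⊗ₜ[A] v) := by
      rw [TensorProduct.smul_tmul', smul_eq_mul, mul_one]
    rw [this]
    exact (Submodule.span B (Set.range fun v => ((1 : B) ⊗ₜ[A] v : B ⊗[A] ρ.V))).smul_mem _
      (Submodule.subset_span ⟨v, rfl⟩)
  | add x y hx hy => exact Submodule.add_mem _ (hx trivial) (hy trivial)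

theorem det_baseChangeAlong (σ : Γℚ) :
    LinearMap.det ((ρ.baseChangeAlong φ hφ).ρ σ) = φ (LinearMap.det (ρ.ρ σ)) := by
  letI : Algebra A B := φ.toAlgebra
  exact LinearMap.det_baseChange _

theorem charpoly_baseChangeAlong (σ : Γℚ) :
    LinearMap.charpoly ((ρ.baseChangeAlong φ hφ).ρ σ) = (LinearMap.charpoly (ρ.ρ σ)).map φ := by
  letI : Algebra A B := φ.toAlgebra
  exact LinearMap.charpoly_baseChange (ρ.ρ σ) B

/-- Base change of a basis. -/
noncomputable def baseChangeBasis {ι : Type} (b : Module.Basis ι A ρ.V) :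
    Module.Basis ι B (ρ.baseChangeAlong φ hφ).V :=
  letI : Algebra A B := φ.toAlgebra
  b.baseChange B

theorem baseChangeBasis_apply {ι : Type} (b : Module.Basis ι A ρ.V) (i : ι) :
    baseChangeBasis φ hφ ρ b i = inc φ hφ ρ (b i) := by
  letI : Algebra A B := φ.toAlgebra
  exact Module.Basis.baseChange_apply _ _ _

theorem baseChangeBasis_repr_inc {ι : Type} (b : Module.Basis ι A ρ.V) (v : ρ.V) (i : ι) :
    (baseChangeBasis φ hφ ρ b).repr (inc φ hφ ρ v) i = φ (b.repr v i) := by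
  letI : Algebra A B := φ.toAlgebra
  refine (Module.Basis.baseChange_repr_tmul B b (1 : B) v i).trans ?_
  rw [Algebra.smul_def, mul_one]
  rfl

theorem exists_basis : Nonempty (Module.Basis (Fin 2) A ρ.V) :=
  ⟨Module.finBasisOfFinrankEq A ρ.V ρ.finrank_eq⟩

theorem inc_eq_zero_of_ker (v : ρ.V) {ι : Type} (b : Module.Basis ι A ρ.V) :
    inc φ hφ ρ v = 0 ↔ ∀ i, φ (b.repr v i) = 0 := by
  constructor
  · intro h i
    rw [← baseChangeBasis_repr_inc φ hφ ρ b v i, h]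
    simp
  · intro h
    refine (baseChangeBasis φ hφ ρ b).repr.injective ?_
    ext i
    rw [baseChangeBasis_repr_inc, h i]
    simp

end BaseChange

section Coeff

variable (𝒪 : Type) [CommRing 𝒪]

/-- Noetherian local `𝒪`-algebras with the same residue field. -/
structure IsCoeff (A : Type) [CommRing A] [IsLocalRing A] [Algebra 𝒪 A] : Prop where
  isLocalHom : IsLocalHom (algebraMap 𝒪 A)
  residue_surjective : Function.Surjective (residue A ∘ algebraMap 𝒪 A)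
  isNoetherianRing : IsNoetherianRing A

variable {𝒪}

theorem isCoeff_of_isArtinianTestAlgebra {A : Type} [CommRing A] [IsLocalRing A] [Algebra 𝒪 A]
    (h : IsArtinianTestAlgebra 𝒪 A) : IsCoeff 𝒪 A :=
  ⟨h.isLocalHom, h.residue_surjective, by
    have := h.isArtinian
    infer_instance⟩

/-- For a local homomorphism of coefficient rings the residue fields agree. -/
theorem finite_residueField_of_hom {A B : Type} [CommRing A] [IsLocalRing A] [Algebra 𝒪 A]
    [CommRing B] [IsLocalRing B] [Algebra 𝒪 B] (hB : Function.Surjective (residue B ∘ algebraMap 𝒪 B))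
    (φ : A →ₐ[𝒪] B) (hφ : IsLocalHom (φ : A →+* B)) (hk : Finite (ResidueField A)) :
    Finite (ResidueField B) := by
  refine Finite.of_surjective (ResidueField.map (φ : A →+* B)) ?_
  intro y
  obtain ⟨x, hx⟩ := hB y
  refine ⟨residue A (algebraMap 𝒪 A x), ?_⟩
  rw [ResidueField.map_residue]
  simpa using hx

theorem finite_residueField_of_hom' {A B : Type} [CommRing A] [IsLocalRing A]
    [CommRing B] [IsLocalRing B] (φ : A →+* B) (hφ : IsLocalHom φ)
    (hk : Finite (ResidueField B)) : Finite (ResidueField A) :=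
  Finite.of_injective (ResidueField.map φ) (ResidueField.map _).injective

theorem finite_quotient_pow {A : Type} [CommRing A] [IsLocalRing A] [IsNoetherianRing A]
    (hk : Finite (ResidueField A)) (n : ℕ) : Finite (A ⧸ maximalIdeal A ^ n) := by
  have : Finite (A ⧸ maximalIdeal A) := hk
  exact Ideal.finite_quotient_pow (IsNoetherian.noetherian _) n

theorem exists_pow_eq_bot {A : Type} [CommRing A] [IsLocalRing A] (h : IsArtinianRing A) :
    ∃ n, maximalIdeal A ^ n = ⊥ := by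
  have := IsArtinianRing.isNilpotent_jacobson_bot (R := A)
  rw [IsLocalRing.jacobson_eq_maximalIdeal ⊥ bot_ne_top] at this
  exact this

/-- Artinian local rings with finite residue field are finite. -/
theorem finite_of_isArtinianRing {A : Type} [CommRing A] [IsLocalRing A] (h : IsArtinianRing A)
    (hk : Finite (ResidueField A)) : Finite A := by
  obtain ⟨n, hn⟩ := exists_pow_eq_bot h
  have := finite_quotient_pow hk n
  rw [hn] at this
  exact Finite.of_equiv _ (RingEquiv.quotientBot A).toEquiv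

theorem isLocalRing_quotient {A : Type} [CommRing A] [IsLocalRing A] {I : Ideal A} (hI : I ≠ ⊤) :
    IsLocalRing (A ⧸ I) := by
  have : Nontrivial (A ⧸ I) := Ideal.Quotient.nontrivial_iff.mpr hI
  exact IsLocalRing.of_surjective' (Ideal.Quotient.mk _) Ideal.Quotient.mk_surjective

theorem pow_succ_ne_top (A : Type) [CommRing A] [IsLocalRing A] (n : ℕ) :
    maximalIdeal A ^ (n + 1) ≠ ⊤ :=
  fun h => (maximalIdeal.isMaximal A).ne_top (top_le_iff.mp (h ▸ Ideal.pow_le_self (by omega)))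

theorem isLocalRing_quotient_pow (A : Type) [CommRing A] [IsLocalRing A] (n : ℕ) :
    IsLocalRing (A ⧸ maximalIdeal A ^ (n + 1)) :=
  isLocalRing_quotient (pow_succ_ne_top A n)

theorem isArtinianRing_quotient {A : Type} [CommRing A] [IsLocalRing A] [IsNoetherianRing A]
    {I : Ideal A} {n : ℕ} (hI : maximalIdeal A ^ n ≤ I) : IsArtinianRing (A ⧸ I) := by
  by_cases hI' : I = ⊤
  · subst hI'
    have : Subsingleton (A ⧸ (⊤ : Ideal A)) := Ideal.Quotient.subsingleton_iff.mpr rfl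
    infer_instance
  · have := isLocalRing_quotient hI'
    rw [isArtinianRing_iff_isNilpotent_maximalIdeal]
    refine ⟨n, ?_⟩
    have h1 : maximalIdeal (A ⧸ I) = (maximalIdeal A).map (Ideal.Quotient.mk I) :=
      (IsLocalRing.eq_maximalIdeal (by
        refine (Ideal.map_eq_top_or_isMaximal_of_surjective _ Ideal.Quotient.mk_surjective
          (maximalIdeal.isMaximal A)).resolve_left fun h => ?_
        have h2 := congrArg (Ideal.comap (Ideal.Quotient.mk I)) h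
        rw [Ideal.comap_map_of_surjective _ Ideal.Quotient.mk_surjective, ← RingHom.ker_eq_comap_bot,
          Ideal.mk_ker, Ideal.comap_top, sup_eq_left.mpr (IsLocalRing.le_maximalIdeal hI')] at h2
        exact (maximalIdeal.isMaximal A).ne_top h2)).symm
    rw [h1, ← Ideal.map_pow, Ideal.zero_eq_bot, Ideal.map_eq_bot_iff_le_ker, Ideal.mk_ker]
    exact hI

/-- Quotients of coefficient rings by ideals containing a power of the maximal ideal are test
algebras. -/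
theorem IsCoeff.isArtinianTestAlgebra_quotient {A : Type} [CommRing A] [IsLocalRing A]
    [Algebra 𝒪 A] (h : IsCoeff 𝒪 A) {I : Ideal A} (hI' : I ≠ ⊤) {n : ℕ}
    (hI : maximalIdeal A ^ n ≤ I) :
    ∃ (_ : IsLocalRing (A ⧸ I)), IsArtinianTestAlgebra 𝒪 (A ⧸ I) ∧
      IsLocalHom ((Ideal.Quotient.mkₐ 𝒪 I : A →ₐ[𝒪] A ⧸ I) : A →+* A ⧸ I) := by
  have := h.isNoetherianRing
  have hl := isLocalRing_quotient hI'
  have hloc : IsLocalHom ((Ideal.Quotient.mkₐ 𝒪 I : A →ₐ[𝒪] A ⧸ I) : A →+* A ⧸ I) :=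
    IsLocalHom.of_surjective _ Ideal.Quotient.mk_surjective
  have e : algebraMap 𝒪 (A ⧸ I) = ((Ideal.Quotient.mkₐ 𝒪 I : A →ₐ[𝒪] A ⧸ I) : A →+* A ⧸ I).comp
      (algebraMap 𝒪 A) := rfl
  refine ⟨hl, ⟨?_, ?_, isArtinianRing_quotient hI⟩, hloc⟩
  · have := h.isLocalHom
    rw [e]
    exact RingHom.isLocalHom_comp _ _
  · intro y
    obtain ⟨a, rfl⟩ := IsLocalRing.residue_surjective y
    obtain ⟨a, rfl⟩ := Ideal.Quotient.mk_surjective a
    obtain ⟨x, hx⟩ := h.residue_surjective (residue A a)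
    refine ⟨x, ?_⟩
    have h2 := congrArg (ResidueField.map
      ((Ideal.Quotient.mkₐ 𝒪 I : A →ₐ[𝒪] A ⧸ I) : A →+* A ⧸ I)) hx
    rw [Function.comp_apply, ResidueField.map_residue, ResidueField.map_residue] at h2
    exact h2

end Coeff

section Good

variable (𝒪 : Type) [CommRing 𝒪]

/-- A sufficient criterion for being a deformation condition. -/
structure Good
    (𝒟 : ∀ ⦃A : Type⦄ [CommRing A] [IsLocalRing A] [Algebra 𝒪 A], GaloisRepAdic A → Prop) :
    Prop where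
  of_isEquiv : ∀ ⦃A : Type⦄ [CommRing A] [IsLocalRing A] [Algebra 𝒪 A],
    IsCoeff 𝒪 A → ∀ ⦃ρ ρ' : GaloisRepAdic A⦄, ρ.IsEquiv ρ' → 𝒟 ρ → 𝒟 ρ'
  baseChange : ∀ ⦃A B : Type⦄ [CommRing A] [IsLocalRing A] [Algebra 𝒪 A]
    [CommRing B] [IsLocalRing B] [Algebra 𝒪 B], IsCoeff 𝒪 A → IsCoeff 𝒪 B →
    ∀ (φ : A →ₐ[𝒪] B) (hφ : IsLocalHom (φ : A →+* B)) ⦃ρ : GaloisRepAdic A⦄,
      𝒟 ρ → 𝒟 (ρ.baseChangeAlong (φ : A →+* B) hφ)
  reflect : ∀ ⦃A B C : Type⦄ [CommRing A] [IsLocalRing A] [Algebra 𝒪 A]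
    [CommRing B] [IsLocalRing B] [Algebra 𝒪 B] [CommRing C] [IsLocalRing C] [Algebra 𝒪 C],
    IsArtinianTestAlgebra 𝒪 A → IsArtinianTestAlgebra 𝒪 B → IsArtinianTestAlgebra 𝒪 C →
    ∀ (f : A →ₐ[𝒪] B) (g : A →ₐ[𝒪] C) (hf : IsLocalHom (f : A →+* B))
      (hg : IsLocalHom (g : A →+* C)), (∀ a, f a = 0 → g a = 0 → a = 0) →
      ∀ ⦃ρ : GaloisRepAdic A⦄, 𝒟 (ρ.baseChangeAlong (f : A →+* B) hf) →
        𝒟 (ρ.baseChangeAlong (g : A →+* C) hg) → 𝒟 ρ
  limit : ∀ ⦃A : Type⦄ [CommRing A] [IsLocalRing A] [IsNoetherianRing A]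
    [IsAdicComplete (maximalIdeal A) A] [Algebra 𝒪 A], IsCoeff 𝒪 A → ∀ (ρ : GaloisRepAdic A),
      (∀ (I : Ideal A) (hl : IsLocalRing (A ⧸ I)) (n : ℕ), maximalIdeal A ^ n ≤ I →
        ∀ (hq : IsLocalHom ((Ideal.Quotient.mkₐ 𝒪 I : A →ₐ[𝒪] A ⧸ I) : A →+* A ⧸ I)),
          𝒟 (ρ.baseChangeAlong ((Ideal.Quotient.mkₐ 𝒪 I : A →ₐ[𝒪] A ⧸ I) : A →+* A ⧸ I) hq)) →
      𝒟 ρ

variable {𝒪}

theorem Good.isDeformationCondition
    {𝒟 : ∀ ⦃A : Type⦄ [CommRing A] [IsLocalRing A] [Algebra 𝒪 A], GaloisRepAdic A → Prop}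
    (h : Good 𝒪 𝒟) : IsDeformationCondition 𝒪 𝒟 where
  of_isEquiv _ _ _ _ hA _ _ e hρ := h.of_isEquiv (isCoeff_of_isArtinianTestAlgebra hA) e hρ
  baseChangeAlong _ _ _ _ _ _ _ _ hA hB φ hφ _ hρ :=
    h.baseChange (isCoeff_of_isArtinianTestAlgebra hA) (isCoeff_of_isArtinianTestAlgebra hB)
      φ hφ hρ
  of_baseChangeAlong_injective _ _ _ _ _ _ _ _ hA hB φ hφ hinj _ hρ :=
    h.reflect hA hB hB φ φ hφ hφ (fun a ha _ => hinj (ha.trans (map_zero φ).symm)) hρ hρ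
  of_fibreProduct _ _ _ _ _ _ _ _ _ _ _ _ _ _ _ _ hA hB _ hP _ _ pA pB hpA hpB _ hinj _ _ h1 h2 :=
    h.reflect hP hA hB pA pB hpA hpB
      (fun a ha hb => hinj (by simp only [ha, hb, map_zero])) h1 h2
  iff_forall_surjective A _ _ _ _ _ hloc hres ρ := by
    have hA : IsCoeff 𝒪 A := ⟨hloc, hres, inferInstance⟩
    constructor
    · intro hρ B _ _ _ hB q hq _
      exact h.baseChange hA (isCoeff_of_isArtinianTestAlgebra hB) q hq hρ
    · intro hρ
      refine h.limit hA ρ fun I hl n hI hq => ?_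
      have hI' : I ≠ ⊤ := Ideal.Quotient.nontrivial_iff.mp hl.toNontrivial
      obtain ⟨_, htest, -⟩ := hA.isArtinianTestAlgebra_quotient hI' hI
      exact hρ htest _ hq Ideal.Quotient.mk_surjective

theorem Good.and
    {𝒟 𝒟' : ∀ ⦃A : Type⦄ [CommRing A] [IsLocalRing A] [Algebra 𝒪 A], GaloisRepAdic A → Prop}
    (h : Good 𝒪 𝒟) (h' : Good 𝒪 𝒟') :
    Good 𝒪 (fun _A _ _ _ ρ => 𝒟 ρ ∧ 𝒟' ρ) where
  of_isEquiv _ _ _ _ hA _ _ e hρ := ⟨h.of_isEquiv hA e hρ.1, h'.of_isEquiv hA e hρ.2⟩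
  baseChange _ _ _ _ _ _ _ _ hA hB φ hφ _ hρ :=
    ⟨h.baseChange hA hB φ hφ hρ.1, h'.baseChange hA hB φ hφ hρ.2⟩
  reflect _ _ _ _ _ _ _ _ _ _ _ _ hA hB hC f g hf hg hfg _ h1 h2 :=
    ⟨h.reflect hA hB hC f g hf hg hfg h1.1 h2.1, h'.reflect hA hB hC f g hf hg hfg h1.2 h2.2⟩
  limit _ _ _ _ _ _ hA ρ hρ :=
    ⟨h.limit hA ρ fun I hl n hI hq => (hρ I hl n hI hq).1,
      h'.limit hA ρ fun I hl n hI hq => (hρ I hl n hI hq).2⟩

theorem Good.forall {ι : Sort*}
    {𝒟 : ι → ∀ ⦃A : Type⦄ [CommRing A] [IsLocalRing A] [Algebra 𝒪 A], GaloisRepAdic A → Prop}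
    (h : ∀ i, Good 𝒪 (𝒟 i)) :
    Good 𝒪 (fun _A _ _ _ ρ => ∀ i, 𝒟 i ρ) where
  of_isEquiv _ _ _ _ hA _ _ e hρ i := (h i).of_isEquiv hA e (hρ i)
  baseChange _ _ _ _ _ _ _ _ hA hB φ hφ _ hρ i := (h i).baseChange hA hB φ hφ (hρ i)
  reflect _ _ _ _ _ _ _ _ _ _ _ _ hA hB hC f g hf hg hfg _ h1 h2 i :=
    (h i).reflect hA hB hC f g hf hg hfg (h1 i) (h2 i)
  limit _ _ _ _ _ _ hA ρ hρ i := (h i).limit hA ρ fun I hl n hI hq => hρ I hl n hI hq i

theorem Good.congr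
    {𝒟 𝒟' : ∀ ⦃A : Type⦄ [CommRing A] [IsLocalRing A] [Algebra 𝒪 A], GaloisRepAdic A → Prop}
    (h : Good 𝒪 𝒟) (e : ∀ ⦃A : Type⦄ [CommRing A] [IsLocalRing A] [Algebra 𝒪 A]
      (ρ : GaloisRepAdic A), 𝒟 ρ ↔ 𝒟' ρ) : Good 𝒪 𝒟' where
  of_isEquiv _ _ _ _ hA _ _ f hρ := (e _).mp (h.of_isEquiv hA f ((e _).mpr hρ))
  baseChange _ _ _ _ _ _ _ _ hA hB φ hφ _ hρ := (e _).mp (h.baseChange hA hB φ hφ ((e _).mpr hρ))
  reflect _ _ _ _ _ _ _ _ _ _ _ _ hA hB hC f g hf hg hfg _ h1 h2 :=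
    (e _).mp (h.reflect hA hB hC f g hf hg hfg ((e _).mpr h1) ((e _).mpr h2))
  limit _ _ _ _ _ _ hA ρ hρ :=
    (e _).mp (h.limit hA ρ fun I hl n hI hq => (e _).mpr (hρ I hl n hI hq))

end Good

end Fermat.Agent.DefCond
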