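import Fermat.Agent.DefCond.Simple
import Fermat.Prelude.Def_GaloisRep_StrictOrdinary

/-!
# Ordinary and strictly ordinary conditions are deformation conditions
-/

set_option autoImplicit false
set_option linter.style.haveILetI false
set_option linter.unusedVariables false

open IsLocalRing GaloisRep Polynomial
open scoped TensorProduct

namespace Fermat.Agent.DefCond

local notation "Γℚ" => (AlgebraicClosure ℚ ≃ₐ[ℚ] AlgebraicClosure ℚ)

/-- For every place over `p` some element of inertia acts non trivially on `μ_p`. -/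
def InertiaCyc (p : ℕ) : Prop :=
  ∀ P : ValuationSubring (AlgebraicClosure ℚ), P.LiesOverPrime p →
    ∃ σ ∈ P.inertiaSubgroupIn ℚ, ∃ a : ℕ, (∀ μ : AlgebraicClosure ℚ, μ ^ p ^ 1 = 1 → σ μ = μ ^ a) ∧
      ¬ a ≡ 1 [MOD p]

theorem mem_decomposition_of_inertia {P : ValuationSubring (AlgebraicClosure ℚ)} {σ : Γℚ}
    (hσ : σ ∈ P.inertiaSubgroupIn ℚ) : σ ∈ P.decompositionSubgroup ℚ := by
  obtain ⟨τ, -, rfl⟩ := hσ
  exact τ.2

/-- A natural number prime to `p` is a unit in a local ring with `p` in the maximal ideal. -/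
theorem isUnit_natCast_sub_one {A : Type} [CommRing A] [IsLocalRing A] {p : ℕ} (hp : p.Prime)
    (hpA : (p : A) ∈ maximalIdeal A) {a : ℕ} (ha : ¬ a ≡ 1 [MOD p]) : IsUnit ((a : A) - 1) := by
  by_contra hu
  have hmem : (a : A) - 1 ∈ maximalIdeal A := (mem_maximalIdeal _).mpr hu
  have hcop : IsCoprime (p : ℤ) ((a : ℤ) - 1) := by
    rw [Prime.coprime_iff_not_dvd (Nat.prime_iff_prime_int.mp hp)]
    intro h
    apply ha
    rw [← Int.natCast_modEq_iff]
    exact ((Int.modEq_iff_dvd).mpr (by simpa using h)).symm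
  obtain ⟨u, v, huv⟩ := hcop
  have h1 : (u : A) * (p : A) + (v : A) * ((a : A) - 1) = 1 := by
    have := congrArg (Int.cast : ℤ → A) huv
    push_cast at this
    exact this
  have h2 : (1 : A) ∈ maximalIdeal A := by
    rw [← h1]
    exact Ideal.add_mem _ (Ideal.mul_mem_left _ _ hpA) (Ideal.mul_mem_left _ _ hmem)
  exact (maximalIdeal.isMaximal A).ne_top ((Ideal.eq_top_iff_one _).mpr h2)

theorem isUnit_det_sub_one {A : Type} [CommRing A] [IsLocalRing A] {ρ : GaloisRepAdic A} {p : ℕ}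
    (hp : p.Prime) (hdet : ρ.DetIsCyclotomic p) {σ : Γℚ} {a : ℕ}
    (hσ : ∀ μ : AlgebraicClosure ℚ, μ ^ p ^ 1 = 1 → σ μ = μ ^ a) (ha : ¬ a ≡ 1 [MOD p]) :
    IsUnit (LinearMap.det (ρ.ρ σ) - 1) := by
  have h1 := hdet.2 1 σ a hσ
  have h2 : LinearMap.det (ρ.ρ σ) - (a : A) ∈ maximalIdeal A := by
    refine (Ideal.span_singleton_le_iff_mem _).mpr ?_ h1
    rw [pow_one]
    exact hdet.1
  have h3 : LinearMap.det (ρ.ρ σ) - 1 = (LinearMap.det (ρ.ρ σ) - (a : A)) + ((a : A) - 1) := by ring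
  rw [h3]
  by_contra hu
  have hmem : (LinearMap.det (ρ.ρ σ) - (a : A)) + ((a : A) - 1) ∈ maximalIdeal A :=
    (mem_maximalIdeal _).mpr hu
  have h4 : (a : A) - 1 ∈ maximalIdeal A := by
    have := Ideal.sub_mem _ hmem h2
    rwa [add_sub_cancel_left] at this
  exact (mem_maximalIdeal _).mp h4 (isUnit_natCast_sub_one hp hdet.1 ha)

section Basis

variable {A : Type} [CommRing A] [IsLocalRing A] (ρ : GaloisRepAdic A)

/-- matrix coefficients in a basis. -/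
noncomputable def coef (b : Module.Basis (Fin 2) A ρ.V) (σ : Γℚ) (i j : Fin 2) : A :=
  b.repr (ρ.ρ σ (b j)) i

theorem apply_basis (b : Module.Basis (Fin 2) A ρ.V) (σ : Γℚ) (j : Fin 2) :
    ρ.ρ σ (b j) = coef ρ b σ 0 j • b 0 + coef ρ b σ 1 j • b 1 := by
  conv_lhs => rw [← b.sum_repr (ρ.ρ σ (b j))]
  rw [Fin.sum_univ_two]
  rfl

/-- `b 0` spans an ordinary line at `P`. -/
def OrdBasis (P : ValuationSubring (AlgebraicClosure ℚ)) (b : Module.Basis (Fin 2) A ρ.V) : Prop :=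
  (∀ σ ∈ P.decompositionSubgroup ℚ, coef ρ b σ 1 0 = 0) ∧
    ∀ σ ∈ P.inertiaSubgroupIn ℚ, coef ρ b σ 1 1 = 1

theorem mem_span_iff (b : Module.Basis (Fin 2) A ρ.V) (v : ρ.V) :
    v ∈ Submodule.span A {b 0} ↔ b.repr v 1 = 0 := by
  constructor
  · intro h
    obtain ⟨c, rfl⟩ := Submodule.mem_span_singleton.mp h
    simp
  · intro h
    rw [Submodule.mem_span_singleton]
    refine ⟨b.repr v 0, ?_⟩
    conv_rhs => rw [← b.sum_repr v]
    rw [Fin.sum_univ_two, h, zero_smul, add_zero]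

theorem repr_apply_one (b : Module.Basis (Fin 2) A ρ.V) (σ : Γℚ) (v : ρ.V) :
    b.repr (ρ.ρ σ v) 1 = b.repr v 0 * coef ρ b σ 1 0 + b.repr v 1 * coef ρ b σ 1 1 := by
  conv_lhs => rw [← b.sum_repr v]
  rw [Fin.sum_univ_two, map_add, map_smul, map_smul, map_add, map_smul, map_smul]
  rfl

theorem ordBasis_iff (P : ValuationSubring (AlgebraicClosure ℚ)) (b : Module.Basis (Fin 2) A ρ.V) :
    OrdBasis ρ P b ↔
      (∀ σ ∈ P.decompositionSubgroup ℚ, ∀ v ∈ Submodule.span A {b 0},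
        ρ.ρ σ v ∈ Submodule.span A {b 0}) ∧
      (∀ σ ∈ P.inertiaSubgroupIn ℚ, ∀ v : ρ.V, ρ.ρ σ v - v ∈ Submodule.span A {b 0}) := by
  constructor
  · rintro ⟨h1, h2⟩
    refine ⟨fun σ hσ v hv => ?_, fun σ hσ v => ?_⟩
    · rw [mem_span_iff] at hv ⊢
      rw [repr_apply_one, hv, h1 σ hσ, mul_zero, zero_mul, add_zero]
    · rw [mem_span_iff, map_sub, Finsupp.sub_apply, repr_apply_one,
        h1 σ (mem_decomposition_of_inertia hσ), h2 σ hσ, mul_zero, mul_one, zero_add, sub_self]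
  · rintro ⟨h1, h2⟩
    refine ⟨fun σ hσ => ?_, fun σ hσ => ?_⟩
    · exact (mem_span_iff ρ b _).mp (h1 σ hσ (b 0) (Submodule.mem_span_singleton_self _))
    · have := (mem_span_iff ρ b _).mp (h2 σ hσ (b 1))
      rw [map_sub, Finsupp.sub_apply, Module.Basis.repr_self, Finsupp.single_eq_same,
        sub_eq_zero] at this
      exact this

theorem isOrdinaryAt_iff (p : ℕ) :
    ρ.IsOrdinaryAt p ↔ ∀ P : ValuationSubring (AlgebraicClosure ℚ), P.LiesOverPrime p →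
      ∃ b : Module.Basis (Fin 2) A ρ.V, OrdBasis ρ P b := by
  constructor
  · intro h P hP
    obtain ⟨L, ⟨b, rfl⟩, h1, h2⟩ := h P hP
    exact ⟨b, (ordBasis_iff ρ P b).mpr ⟨h1, h2⟩⟩
  · intro h P hP
    obtain ⟨b, hb⟩ := h P hP
    obtain ⟨h1, h2⟩ := (ordBasis_iff ρ P b).mp hb
    exact ⟨_, ⟨b, rfl⟩, h1, h2⟩

/-- The cyclotomic condition on the ratio of the two characters at `P`. -/
def StrictBasis (p : ℕ) (P : ValuationSubring (AlgebraicClosure ℚ))
    (b : Module.Basis (Fin 2) A ρ.V) : Prop :=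
  ∀ σ ∈ P.decompositionSubgroup ℚ, ∀ (n a : ℕ),
    (∀ μ : AlgebraicClosure ℚ, μ ^ p ^ n = 1 → σ μ = μ ^ a) →
      coef ρ b σ 0 0 - (a : A) * coef ρ b σ 1 1 ∈ Ideal.span {((p ^ n : ℕ) : A)}

theorem coef_unique {P : ValuationSubring (AlgebraicClosure ℚ)} {b : Module.Basis (Fin 2) A ρ.V}
    {σ : Γℚ} {x z : A}
    (hx : ∀ w ∈ Submodule.span A {b 0}, ρ.ρ σ w = x • w)
    (hz : ∀ v : ρ.V, ρ.ρ σ v - z • v ∈ Submodule.span A {b 0}) :
    coef ρ b σ 0 0 = x ∧ coef ρ b σ 1 1 = z := by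
  constructor
  · rw [coef, hx (b 0) (Submodule.mem_span_singleton_self _), map_smul, Module.Basis.repr_self,
      Finsupp.smul_apply, Finsupp.single_eq_same, smul_eq_mul, mul_one]
  · have := (mem_span_iff ρ b _).mp (hz (b 1))
    rw [map_sub, map_smul, Module.Basis.repr_self, Finsupp.sub_apply, Finsupp.smul_apply,
      Finsupp.single_eq_same, smul_eq_mul, mul_one, sub_eq_zero] at this
    exact this

theorem isStrictOrdinaryAt_iff (p : ℕ) :
    ρ.IsStrictOrdinaryAt p ↔ (p : A) ∈ maximalIdeal A ∧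
      ∀ P : ValuationSubring (AlgebraicClosure ℚ), P.LiesOverPrime p →
        ∃ b : Module.Basis (Fin 2) A ρ.V, OrdBasis ρ P b ∧ StrictBasis ρ p P b := by
  refine and_congr_right fun _ => forall_congr' fun P => forall_congr' fun hP => ?_
  constructor
  · rintro ⟨L, ⟨b, rfl⟩, h1, h2, h3⟩
    refine ⟨b, (ordBasis_iff ρ P b).mpr ⟨h1, h2⟩, fun σ hσ n a ha => ?_⟩
    obtain ⟨x, z, hx, hz, hxz⟩ := h3 σ hσ
    obtain ⟨rfl, rfl⟩ := coef_unique ρ (P := P) hx hz
    exact hxz n a ha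
  · rintro ⟨b, hb, hs⟩
    obtain ⟨h1, h2⟩ := (ordBasis_iff ρ P b).mp hb
    refine ⟨_, ⟨b, rfl⟩, h1, h2, fun σ hσ => ⟨coef ρ b σ 0 0, coef ρ b σ 1 1, ?_, ?_, ?_⟩⟩
    · intro w hw
      obtain ⟨c, rfl⟩ := Submodule.mem_span_singleton.mp hw
      rw [map_smul, apply_basis, hb.1 σ hσ, zero_smul, add_zero, smul_comm]
    · intro v
      rw [mem_span_iff, map_sub, Finsupp.sub_apply, repr_apply_one, hb.1 σ hσ, mul_zero, zero_add,
        map_smul, Finsupp.smul_apply, smul_eq_mul, mul_comm, sub_self]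
    · exact fun n a ha => hs σ hσ n a ha

theorem det_eq_of_ordBasis {P : ValuationSubring (AlgebraicClosure ℚ)}
    {b : Module.Basis (Fin 2) A ρ.V} (hb : OrdBasis ρ P b) {σ : Γℚ}
    (hσ : σ ∈ P.decompositionSubgroup ℚ) :
    LinearMap.det (ρ.ρ σ) = coef ρ b σ 0 0 * coef ρ b σ 1 1 := by
  rw [← LinearMap.det_toMatrix b, Matrix.det_fin_two]
  simp only [LinearMap.toMatrix_apply]
  change coef ρ b σ 0 0 * coef ρ b σ 1 1 - coef ρ b σ 0 1 * coef ρ b σ 1 0 = _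
  rw [hb.1 σ hσ, mul_zero, sub_zero]

/-- Two ordinary bases have the same diagonal coefficients when some inertia element has
`det - 1` a unit. -/
theorem coef_eq_of_ordBasis {P : ValuationSubring (AlgebraicClosure ℚ)}
    {b b' : Module.Basis (Fin 2) A ρ.V} (hb : OrdBasis ρ P b) (hb' : OrdBasis ρ P b')
    {τ : Γℚ} (hτ : τ ∈ P.inertiaSubgroupIn ℚ) (hu : IsUnit (LinearMap.det (ρ.ρ τ) - 1))
    {σ : Γℚ} (hσ : σ ∈ P.decompositionSubgroup ℚ) :
    coef ρ b' σ 0 0 = coef ρ b σ 0 0 ∧ coef ρ b' σ 1 1 = coef ρ b σ 1 1 := by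
  obtain ⟨h1, h2⟩ := (ordBasis_iff ρ P b).mp hb
  obtain ⟨h1', h2'⟩ := (ordBasis_iff ρ P b').mp hb'
  have hline : Submodule.span A {b' 0} = Submodule.span A {b 0} := by
    ext v
    rw [FlatOrd.Glue.mem_line_iff b (ρ.ρ τ) (h1 τ (mem_decomposition_of_inertia hτ)) (h2 τ hτ) hu,
      FlatOrd.Glue.mem_line_iff b' (ρ.ρ τ) (h1' τ (mem_decomposition_of_inertia hτ)) (h2' τ hτ) hu]
  refine coef_unique ρ (P := P) ?_ ?_
  · intro w hw
    rw [hline] at hw
    obtain ⟨c, rfl⟩ := Submodule.mem_span_singleton.mp hw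
    rw [map_smul, apply_basis, hb.1 σ hσ, zero_smul, add_zero, smul_comm]
  · intro v
    rw [hline, mem_span_iff, map_sub, Finsupp.sub_apply, repr_apply_one, hb.1 σ hσ, mul_zero,
      zero_add, map_smul, Finsupp.smul_apply, smul_eq_mul, mul_comm, sub_self]

end Basis

section BaseChange

variable {A B : Type} [CommRing A] [IsLocalRing A] [CommRing B] [IsLocalRing B]
  (φ : A →+* B) (hφ : IsLocalHom φ) (ρ : GaloisRepAdic A)

theorem coef_baseChange (b : Module.Basis (Fin 2) A ρ.V) (σ : Γℚ) (i j : Fin 2) :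
    coef (ρ.baseChangeAlong φ hφ) (baseChangeBasis φ hφ ρ b) σ i j = φ (coef ρ b σ i j) := by
  rw [coef, baseChangeBasis_apply, rho_inc, baseChangeBasis_repr_inc]
  rfl

theorem ordBasis_baseChange {P : ValuationSubring (AlgebraicClosure ℚ)}
    {b : Module.Basis (Fin 2) A ρ.V} (hb : OrdBasis ρ P b) :
    OrdBasis (ρ.baseChangeAlong φ hφ) P (baseChangeBasis φ hφ ρ b) :=
  ⟨fun σ hσ => by rw [coef_baseChange, hb.1 σ hσ, map_zero],
    fun σ hσ => by rw [coef_baseChange, hb.2 σ hσ, map_one]⟩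

theorem strictBasis_baseChange {p : ℕ} {P : ValuationSubring (AlgebraicClosure ℚ)}
    {b : Module.Basis (Fin 2) A ρ.V} (hb : StrictBasis ρ p P b) :
    StrictBasis (ρ.baseChangeAlong φ hφ) p P (baseChangeBasis φ hφ ρ b) := by
  intro σ hσ n a ha
  rw [coef_baseChange, coef_baseChange]
  have h1 := Ideal.mem_map_of_mem φ (hb σ hσ n a ha)
  rw [Ideal.map_span, Set.image_singleton, map_sub, map_mul, map_natCast, map_natCast] at h1
  exact h1

end BaseChange

section Equiv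

variable {A : Type} [CommRing A] [IsLocalRing A] {ρ ρ' : GaloisRepAdic A}

theorem coef_equiv (e : GaloisRepAdic.Equiv ρ ρ') (b : Module.Basis (Fin 2) A ρ.V) (σ : Γℚ)
    (i j : Fin 2) : coef ρ' (b.map e.toLinearEquiv) σ i j = coef ρ b σ i j := by
  rw [coef, coef, Module.Basis.map_apply, ← e.map_apply, Module.Basis.map_repr]
  simp

theorem ordBasis_equiv (e : GaloisRepAdic.Equiv ρ ρ') {P : ValuationSubring (AlgebraicClosure ℚ)}
    {b : Module.Basis (Fin 2) A ρ.V} (hb : OrdBasis ρ P b) :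
    OrdBasis ρ' P (b.map e.toLinearEquiv) :=
  ⟨fun σ hσ => by rw [coef_equiv, hb.1 σ hσ], fun σ hσ => by rw [coef_equiv, hb.2 σ hσ]⟩

theorem strictBasis_equiv (e : GaloisRepAdic.Equiv ρ ρ') {p : ℕ}
    {P : ValuationSubring (AlgebraicClosure ℚ)}
    {b : Module.Basis (Fin 2) A ρ.V} (hb : StrictBasis ρ p P b) :
    StrictBasis ρ' p P (b.map e.toLinearEquiv) := by
  intro σ hσ n a ha
  rw [coef_equiv, coef_equiv]
  exact hb σ hσ n a ha

end Equiv

section Good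

variable (𝒪 : Type) [CommRing 𝒪]

/-- gluing for two rings. -/
theorem isOrdinaryAt_reflect {A B C : Type} [CommRing A] [IsLocalRing A] [CommRing B]
    [IsLocalRing B] [CommRing C] [IsLocalRing C]
    (f : A →+* B) (g : A →+* C) (hf : IsLocalHom f) (hg : IsLocalHom g)
    (hfg : ∀ a, f a = 0 → g a = 0 → a = 0) (ρ : GaloisRepAdic A) {p : ℕ}
    (h1 : (ρ.baseChangeAlong f hf).IsOrdinaryAt p) (h2 : (ρ.baseChangeAlong g hg).IsOrdinaryAt p)
    (hdet : ∀ P : ValuationSubring (AlgebraicClosure ℚ), P.LiesOverPrime p →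
      ∃ σ ∈ P.inertiaSubgroupIn ℚ, IsUnit (LinearMap.det (ρ.ρ σ) - 1)) :
    ρ.IsOrdinaryAt p := by
  let D : Bool → Type := fun i => match i with
    | true => B
    | false => C
  letI i1 : ∀ i, CommRing (D i) := fun i => match i with
    | true => (inferInstance : CommRing B)
    | false => (inferInstance : CommRing C)
  haveI i2 : ∀ i, IsLocalRing (D i) := fun i => match i with
    | true => (inferInstance : IsLocalRing B)
    | false => (inferInstance : IsLocalRing C)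
  let φ : ∀ i, A →+* D i := fun i => match i with
    | true => f
    | false => g
  have hφ : ∀ i, IsLocalHom (φ i) := fun i => match i with
    | true => hf
    | false => hg
  exact FlatOrd.Glue.isOrdinaryAt_of_forall_baseChange ρ p D φ hφ
    (fun a ha => hfg a (ha true) (ha false))
    (fun i => match i with
      | true => h1
      | false => h2) hdet

theorem good_ordinary {p : ℕ} (hp : p.Prime) (hin : InertiaCyc p) :
    Good 𝒪 (fun _A _ _ _ ρ => ρ.DetIsCyclotomic p ∧ ρ.IsOrdinaryAt p) where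
  of_isEquiv A _ _ _ hA ρ ρ' e h := by
    refine ⟨(good_detIsCyclotomic 𝒪 hp).of_isEquiv hA e h.1, ?_⟩
    obtain ⟨e⟩ := e
    rw [isOrdinaryAt_iff] at h ⊢
    intro P hP
    obtain ⟨b, hb⟩ := h.2 P hP
    exact ⟨_, ordBasis_equiv e hb⟩
  baseChange A B _ _ _ _ _ _ hA hB φ hφ ρ h := by
    refine ⟨(good_detIsCyclotomic 𝒪 hp).baseChange hA hB φ hφ h.1, ?_⟩
    rw [isOrdinaryAt_iff] at h ⊢
    intro P hP
    obtain ⟨b, hb⟩ := h.2 P hP
    exact ⟨_, ordBasis_baseChange _ hφ ρ hb⟩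
  reflect A B C _ _ _ _ _ _ _ _ _ hA hB hC f g hf hg hfg ρ h1 h2 := by
    have hd := (good_detIsCyclotomic 𝒪 hp).reflect hA hB hC f g hf hg hfg h1.1 h2.1
    refine ⟨hd, isOrdinaryAt_reflect _ _ hf hg hfg ρ h1.2 h2.2 fun P hP => ?_⟩
    obtain ⟨σ, hσ, a, ha, ha'⟩ := hin P hP
    exact ⟨σ, hσ, isUnit_det_sub_one hp hd ha ha'⟩
  limit A _ _ _ _ _ hA ρ h := by
    have hd := (good_detIsCyclotomic 𝒪 hp).limit hA ρ fun I hl n hI hq => (h I hl n hI hq).1
    refine ⟨hd, ?_⟩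
    choose hl ht hq using fun n => hA.quotient_pow n
    exact FlatOrd.Glue.isOrdinaryAt_of_forall_baseChange ρ p
      (fun n : ℕ => A ⧸ maximalIdeal A ^ (n + 1)) _ hq
      (fun a ha => eq_zero_of_forall_mem_pow a fun n => Ideal.Quotient.eq_zero_iff_mem.mp (ha n))
      (fun n => (h _ (hl n) (n + 1) le_rfl (hq n)).2) fun P hP => by
        obtain ⟨σ, hσ, a, ha, ha'⟩ := hin P hP
        exact ⟨σ, hσ, isUnit_det_sub_one hp hd ha ha'⟩

/-- If the base change is strictly ordinary, the diagonal coefficients in any ordinary basis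
satisfy the cyclotomic congruences after base change. -/
theorem strict_coef_baseChange {A B : Type} [CommRing A] [IsLocalRing A] [CommRing B]
    [IsLocalRing B] (φ : A →+* B) (hφ : IsLocalHom φ) (ρ : GaloisRepAdic A) {p : ℕ}
    {P : ValuationSubring (AlgebraicClosure ℚ)} (hP : P.LiesOverPrime p)
    {b : Module.Basis (Fin 2) A ρ.V} (hb : OrdBasis ρ P b)
    (hB : (ρ.baseChangeAlong φ hφ).IsStrictOrdinaryAt p)
    {τ : Γℚ} (hτ : τ ∈ P.inertiaSubgroupIn ℚ) (hu : IsUnit (LinearMap.det (ρ.ρ τ) - 1))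
    {σ : Γℚ} (hσ : σ ∈ P.decompositionSubgroup ℚ) (n a : ℕ)
    (ha : ∀ μ : AlgebraicClosure ℚ, μ ^ p ^ n = 1 → σ μ = μ ^ a) :
    φ (coef ρ b σ 0 0) - (a : B) * φ (coef ρ b σ 1 1) ∈ Ideal.span {((p ^ n : ℕ) : B)} := by
  obtain ⟨b', hb', hs'⟩ := ((isStrictOrdinaryAt_iff _ p).mp hB).2 P hP
  have hu' : IsUnit (LinearMap.det ((ρ.baseChangeAlong φ hφ).ρ τ) - 1) := by
    rw [det_baseChangeAlong, ← map_one φ, ← map_sub]
    exact hu.map φ
  have h1 := coef_eq_of_ordBasis _ (ordBasis_baseChange φ hφ ρ hb) hb' hτ hu' hσ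
  have h2 := hs' σ hσ n a ha
  rw [h1.1, h1.2, coef_baseChange, coef_baseChange] at h2
  exact h2

theorem good_strictOrdinary {p : ℕ} (hp : p.Prime) (hin : InertiaCyc p) :
    Good 𝒪 (fun _A _ _ _ ρ => ρ.DetIsCyclotomic p ∧ ρ.IsStrictOrdinaryAt p) where
  of_isEquiv A _ _ _ hA ρ ρ' e h := by
    refine ⟨(good_detIsCyclotomic 𝒪 hp).of_isEquiv hA e h.1, ?_⟩
    obtain ⟨e⟩ := e
    rw [isStrictOrdinaryAt_iff] at h ⊢
    refine ⟨h.2.1, fun P hP => ?_⟩
    obtain ⟨b, hb, hs⟩ := h.2.2 P hP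
    exact ⟨_, ordBasis_equiv e hb, strictBasis_equiv e hs⟩
  baseChange A B _ _ _ _ _ _ hA hB φ hφ ρ h := by
    refine ⟨(good_detIsCyclotomic 𝒪 hp).baseChange hA hB φ hφ h.1, ?_⟩
    rw [isStrictOrdinaryAt_iff] at h ⊢
    refine ⟨natCast_mem_maximalIdeal_of_hom' _ hφ h.2.1, fun P hP => ?_⟩
    obtain ⟨b, hb, hs⟩ := h.2.2 P hP
    exact ⟨_, ordBasis_baseChange _ hφ ρ hb, strictBasis_baseChange _ hφ ρ hs⟩
  reflect A B C _ _ _ _ _ _ _ _ _ hA hB hC f g hf hg hfg ρ h1 h2 := by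
    have hd := (good_detIsCyclotomic 𝒪 hp).reflect hA hB hC f g hf hg hfg h1.1 h2.1
    have ho := isOrdinaryAt_reflect _ _ hf hg hfg ρ h1.2.isOrdinaryAt h2.2.isOrdinaryAt
      fun P hP => by
        obtain ⟨σ, hσ, a, ha, ha'⟩ := hin P hP
        exact ⟨σ, hσ, isUnit_det_sub_one hp hd ha ha'⟩
    rw [isOrdinaryAt_iff] at ho
    refine ⟨hd, (isStrictOrdinaryAt_iff ρ p).mpr ⟨hd.1, fun P hP => ?_⟩⟩
    obtain ⟨b, hb⟩ := ho P hP
    obtain ⟨τ, hτ, c, hc, hc'⟩ := hin P hP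
    have hu := isUnit_det_sub_one hp hd hc hc'
    refine ⟨b, hb, fun σ hσ n a ha => ?_⟩
    exact sub_natCast_mul_mem_of_reflect hp hA.isArtinian hd.1 (f : A →+* B) (g : A →+* C) hfg σ
      _ _ (fun n a ha => strict_coef_baseChange _ hf ρ hP hb h1.2 hτ hu hσ n a ha)
      (fun n a ha => strict_coef_baseChange _ hg ρ hP hb h2.2 hτ hu hσ n a ha) n a ha
  limit A _ _ _ _ _ hA ρ h := by
    have hd := (good_detIsCyclotomic 𝒪 hp).limit hA ρ fun I hl n hI hq => (h I hl n hI hq).1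
    have ho := (good_ordinary 𝒪 hp hin).limit hA ρ fun I hl n hI hq =>
      ⟨(h I hl n hI hq).1, (h I hl n hI hq).2.isOrdinaryAt⟩
    refine ⟨hd, (isStrictOrdinaryAt_iff ρ p).mpr ⟨hd.1, fun P hP => ?_⟩⟩
    obtain ⟨b, hb⟩ := ((isOrdinaryAt_iff ρ p).mp ho.2) P hP
    obtain ⟨τ, hτ, c, hc, hc'⟩ := hin P hP
    have hu := isUnit_det_sub_one hp hd hc hc'
    refine ⟨b, hb, fun σ hσ n a ha => ?_⟩
    exact sub_natCast_mul_mem_of_limit (p := p) hA _ _ n a fun I hl n' hI hq =>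
      strict_coef_baseChange _ hq ρ hP hb (h I hl n' hI hq).2 hτ hu hσ n a ha

end Good

end Fermat.Agent.DefCond
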