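import Fermat.Agent.DefCond.Flat
import Fermat.Agent.DefCond.Ordinary
import Fermat.Agent.DefCond.InertiaCyc

/-!
# The local conditions of the prelude are deformation conditions
-/

set_option autoImplicit false
set_option linter.style.haveILetI false
set_option linter.unusedVariables false

open IsLocalRing GaloisRep

namespace Fermat.Agent.DefCond

local notation "Γℚ" => (AlgebraicClosure ℚ ≃ₐ[ℚ] AlgebraicClosure ℚ)

theorem inertiaCyc {p : ℕ} (hp : p.Prime) (hp2 : p ≠ 2) : InertiaCyc p := by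
  intro P hP
  have : NeZero (p ^ 1) := ⟨pow_ne_zero 1 hp.ne_zero⟩
  have : Fact p.Prime := ⟨hp⟩
  have hodd : Nat.Coprime 2 (p ^ 1) := by
    rw [pow_one]
    exact (Nat.coprime_primes Nat.prime_two hp).mpr (Ne.symm hp2)
  obtain ⟨σ, hσ, h⟩ := exists_inertia_cyc hp 1 P hP (ZMod.unitOfCoprime 2 hodd)
  refine ⟨σ, hσ, ((Cyclotomic.cyc (p ^ 1) σ : ZMod (p ^ 1))).val,
    fun μ hμ => Cyclotomic.cyc_spec (p ^ 1) σ hμ, ?_⟩
  rw [h, ZMod.coe_unitOfCoprime, ZMod.val_natCast, pow_one]
  intro h2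
  have h3 : 2 ≡ 1 [MOD p] := (Nat.mod_modEq 2 p).symm.trans h2
  have h4 : p ∣ 2 - 1 := (Nat.modEq_iff_dvd' (by norm_num)).mp h3.symm
  exact hp.one_lt.ne' (Nat.dvd_one.mp h4)

variable (𝒪 : Type) [CommRing 𝒪] (p : ℕ) (S : Finset ℕ)

theorem good_unramifiedOutside :
    Good 𝒪 (fun _A _ _ _ ρ => ∀ q : ℕ, q.Prime → q ∉ S → ρ.IsUnramifiedAt q) :=
  Good.forall fun q => Good.forall fun _ => Good.forall fun _ => good_isUnramifiedAt 𝒪 q

theorem good_unipotent :
    Good 𝒪 (fun _A _ _ _ ρ => ∀ q ∈ S, q.Prime → q ≠ p → ρ.IsUnipotentOnInertiaAt q) :=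
  Good.forall fun q => Good.forall fun _ => Good.forall fun _ => Good.forall fun _ =>
    good_isUnipotentOnInertiaAt 𝒪 q

variable {p}

theorem good_flatCondition (hp : p.Prime) : Good 𝒪 (flatCondition 𝒪 p S) :=
  (good_detIsCyclotomic 𝒪 hp).and ((good_isFlatAt 𝒪 p).and (good_unramifiedOutside 𝒪 S))

theorem good_minimalFlatCondition (hp : p.Prime) : Good 𝒪 (minimalFlatCondition 𝒪 p S) :=
  (good_flatCondition 𝒪 S hp).and (good_unipotent 𝒪 p S)

theorem good_ordinaryCondition (hp : p.Prime) (hp2 : p ≠ 2) : Good 𝒪 (ordinaryCondition 𝒪 p S) :=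
  ((good_ordinary 𝒪 hp (inertiaCyc hp hp2)).and (good_unramifiedOutside 𝒪 S)).congr
    fun _ _ _ _ _ => and_assoc

theorem good_minimalOrdinaryCondition (hp : p.Prime) (hp2 : p ≠ 2) :
    Good 𝒪 (minimalOrdinaryCondition 𝒪 p S) :=
  (good_ordinaryCondition 𝒪 S hp hp2).and (good_unipotent 𝒪 p S)

theorem good_strictOrdinaryCondition (hp : p.Prime) (hp2 : p ≠ 2) :
    Good 𝒪 (strictOrdinaryCondition 𝒪 p S) :=
  ((good_strictOrdinary 𝒪 hp (inertiaCyc hp hp2)).and (good_unramifiedOutside 𝒪 S)).congr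
    fun _ _ _ _ _ => and_assoc

theorem good_minimalStrictOrdinaryCondition (hp : p.Prime) (hp2 : p ≠ 2) :
    Good 𝒪 (minimalStrictOrdinaryCondition 𝒪 p S) :=
  (good_strictOrdinaryCondition 𝒪 S hp hp2).and (good_unipotent 𝒪 p S)

theorem isDeformationCondition_flatCondition (hp : p.Prime) :
    IsDeformationCondition 𝒪 (flatCondition 𝒪 p S) :=
  (good_flatCondition 𝒪 S hp).isDeformationCondition

theorem isDeformationCondition_minimalFlatCondition (hp : p.Prime) :
    IsDeformationCondition 𝒪 (minimalFlatCondition 𝒪 p S) :=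
  (good_minimalFlatCondition 𝒪 S hp).isDeformationCondition

theorem isDeformationCondition_ordinaryCondition (hp : p.Prime) (hp2 : p ≠ 2) :
    IsDeformationCondition 𝒪 (ordinaryCondition 𝒪 p S) :=
  (good_ordinaryCondition 𝒪 S hp hp2).isDeformationCondition

theorem isDeformationCondition_minimalOrdinaryCondition (hp : p.Prime) (hp2 : p ≠ 2) :
    IsDeformationCondition 𝒪 (minimalOrdinaryCondition 𝒪 p S) :=
  (good_minimalOrdinaryCondition 𝒪 S hp hp2).isDeformationCondition

theorem isDeformationCondition_strictOrdinaryCondition (hp : p.Prime) (hp2 : p ≠ 2) :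
    IsDeformationCondition 𝒪 (strictOrdinaryCondition 𝒪 p S) :=
  (good_strictOrdinaryCondition 𝒪 S hp hp2).isDeformationCondition

theorem isDeformationCondition_minimalStrictOrdinaryCondition (hp : p.Prime) (hp2 : p ≠ 2) :
    IsDeformationCondition 𝒪 (minimalStrictOrdinaryCondition 𝒪 p S) :=
  (good_minimalStrictOrdinaryCondition 𝒪 S hp hp2).isDeformationCondition

/-- The strictly ordinary condition with unipotent inertia at the primes of `Smin` (`S56`). -/
theorem isDeformationCondition_strictOrdinary_unipotent (hp : p.Prime) (hp2 : p ≠ 2)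
    (Smin : Finset ℕ) :
    IsDeformationCondition 𝒪 (fun _A _ _ _ ρ => strictOrdinaryCondition 𝒪 p S ρ ∧
      ∀ q ∈ Smin, q.Prime → q ≠ p → ρ.IsUnipotentOnInertiaAt q) :=
  ((good_strictOrdinaryCondition 𝒪 S hp hp2).and (good_unipotent 𝒪 p Smin)).isDeformationCondition

/-- The flat condition with unipotent inertia at the primes of `Smin` (`S56`). -/
theorem isDeformationCondition_flat_unipotent (hp : p.Prime) (Smin : Finset ℕ) :
    IsDeformationCondition 𝒪 (fun _A _ _ _ ρ => flatCondition 𝒪 p S ρ ∧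
      ∀ q ∈ Smin, q.Prime → q ≠ p → ρ.IsUnipotentOnInertiaAt q) :=
  ((good_flatCondition 𝒪 S hp).and (good_unipotent 𝒪 p Smin)).isDeformationCondition

end Fermat.Agent.DefCond
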