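import Fermat.Agent.DefCond.Simple
import Fermat.Agent.FlatModel.Adic

/-!
# Flatness at `p` is a deformation condition
-/

set_option autoImplicit false
set_option linter.style.haveILetI false
set_option linter.unusedVariables false

open IsLocalRing GaloisRep Fermat.FlatModel
open scoped TensorProduct

namespace Fermat.Agent.DefCond

local notation "Γℚ" => (AlgebraicClosure ℚ ≃ₐ[ℚ] AlgebraicClosure ℚ)

theorem finite_level {A : Type} [CommRing A] [IsLocalRing A] (ρ : GaloisRepAdic A) (I : Ideal A)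
    (hI : Finite (A ⧸ I)) : Finite (ρ.V ⧸ (I • (⊤ : Submodule A ρ.V))) := by
  have h1 : Module.Finite (A ⧸ I) (ρ.V ⧸ (I • (⊤ : Submodule A ρ.V))) := by
    exact Module.Finite.of_restrictScalars_finite A _ _
  exact Module.finite_of_finite (A ⧸ I)

theorem finite_quotient_bot {A : Type} [CommRing A] (h : Finite A) : Finite (A ⧸ (⊥ : Ideal A)) :=
  Finite.of_surjective _ (Ideal.Quotient.mk_surjective (I := (⊥ : Ideal A)))

section LevelMap

variable {A B : Type} [CommRing A] [IsLocalRing A] [CommRing B] [IsLocalRing B]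
  (φ : A →+* B) (hφ : IsLocalHom φ) (ρ : GaloisRepAdic A)

theorem inc_mem {I : Ideal A} {J : Ideal B} (hIJ : I ≤ J.comap φ) {v : ρ.V}
    (hv : v ∈ I • (⊤ : Submodule A ρ.V)) :
    inc φ hφ ρ v ∈ J • (⊤ : Submodule B (ρ.baseChangeAlong φ hφ).V) := by
  refine Submodule.smul_induction_on hv ?_ ?_
  · intro a ha w _
    rw [inc_smul]
    exact Submodule.smul_mem_smul (hIJ ha) Submodule.mem_top
  · intro x y hx hy
    rw [map_add]
    exact Submodule.add_mem _ hx hy

/-- `V / I V → V_B / J V_B`. -/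
noncomputable def levelMap (I : Ideal A) (J : Ideal B) (hIJ : I ≤ J.comap φ) :
    (ρ.V ⧸ (I • (⊤ : Submodule A ρ.V))) →+
      ((ρ.baseChangeAlong φ hφ).V ⧸ (J • (⊤ : Submodule B (ρ.baseChangeAlong φ hφ).V))) :=
  QuotientAddGroup.map (I • (⊤ : Submodule A ρ.V)).toAddSubgroup
    (J • (⊤ : Submodule B (ρ.baseChangeAlong φ hφ).V)).toAddSubgroup (inc φ hφ ρ)
    (fun _ hv => inc_mem φ hφ ρ hIJ hv)

theorem levelMap_mk (I : Ideal A) (J : Ideal B) (hIJ : I ≤ J.comap φ) (v : ρ.V) :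
    levelMap φ hφ ρ I J hIJ (Submodule.Quotient.mk v) = Submodule.Quotient.mk (inc φ hφ ρ v) := rfl

theorem levelMap_act (I : Ideal A) (J : Ideal B) (hIJ : I ≤ J.comap φ) (σ : Γℚ)
    (x : ρ.V ⧸ (I • (⊤ : Submodule A ρ.V))) :
    levelMap φ hφ ρ I J hIJ (levelAct ρ I σ x) =
      levelAct (ρ.baseChangeAlong φ hφ) J σ (levelMap φ hφ ρ I J hIJ x) := by
  obtain ⟨v, rfl⟩ := Submodule.Quotient.mk_surjective _ x
  rw [levelAct_apply, levelAct_apply, levelAction_mk, levelMap_mk, levelMap_mk, levelAction_mk,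
    rho_inc]

end LevelMap

theorem isFlatAt_of_isEquiv {A : Type} [CommRing A] [IsLocalRing A] {ρ ρ' : GaloisRepAdic A}
    (e : GaloisRepAdic.Equiv ρ ρ') {p : ℕ} (h : ρ.IsFlatAt p) : ρ'.IsFlatAt p := by
  rw [isFlatAt_iff] at h ⊢
  refine ⟨h.1, fun I hI => ?_⟩
  have := finite_level ρ I hI
  have hle : I • (⊤ : Submodule A ρ.V) ≤
      (I • (⊤ : Submodule A ρ'.V)).comap e.toLinearEquiv.toLinearMap := by
    rw [← Submodule.map_le_iff_le_comap, Submodule.map_smul'']
    exact Submodule.smul_mono le_rfl le_top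
  refine (h.2 I hI).of_surjective
    (Submodule.mapQ _ _ e.toLinearEquiv.toLinearMap hle).toAddMonoidHom ?_ ?_
  · intro y
    obtain ⟨v, rfl⟩ := Submodule.Quotient.mk_surjective _ y
    exact ⟨Submodule.Quotient.mk (e.toLinearEquiv.symm v), by
      show Submodule.Quotient.mk (e.toLinearEquiv (e.toLinearEquiv.symm v)) = _
      rw [LinearEquiv.apply_symm_apply]⟩
  · intro σ x
    obtain ⟨v, rfl⟩ := Submodule.Quotient.mk_surjective _ x
    show Submodule.Quotient.mk (e.toLinearEquiv (ρ.ρ σ v)) =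
      Submodule.Quotient.mk (ρ'.ρ σ (e.toLinearEquiv v))
    rw [e.map_apply]

theorem isFlatAt_baseChange {A B : Type} [CommRing A] [IsLocalRing A] [CommRing B] [IsLocalRing B]
    (φ : A →+* B) (hφ : IsLocalHom φ) (ρ : GaloisRepAdic A) {p : ℕ}
    (hk : Finite (ResidueField B)) (h : ρ.IsFlatAt p) : (ρ.baseChangeAlong φ hφ).IsFlatAt p := by
  rw [isFlatAt_iff] at h ⊢
  refine ⟨hk, fun J hJ => ?_⟩
  set I := J.comap φ with hIdef
  have hI : Finite (A ⧸ I) := by
    refine Finite.of_injective (Ideal.quotientMap J φ le_rfl) ?_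
    exact Ideal.quotientMap_injective
  have hfin := finite_level ρ I hI
  have hfin' : Finite ((B ⧸ J) → (ρ.V ⧸ (I • (⊤ : Submodule A ρ.V)))) := inferInstance
  have := Fintype.ofFinite (B ⧸ J)
  let j := levelMap φ hφ ρ I J le_rfl
  let s : B ⧸ J → B := Quotient.out
  have hs : ∀ b, Ideal.Quotient.mk J (s b) = b := fun b => Quotient.out_eq b
  let Ψ : ((B ⧸ J) → (ρ.V ⧸ (I • (⊤ : Submodule A ρ.V)))) →+
      ((ρ.baseChangeAlong φ hφ).V ⧸ (J • (⊤ : Submodule B (ρ.baseChangeAlong φ hφ).V))) :=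
    { toFun := fun f => ∑ b, s b • j (f b)
      map_zero' := by simp
      map_add' := fun f g => by
        simp only [Pi.add_apply, map_add, smul_add, Finset.sum_add_distrib] }
  have hΨ : ∀ f, Ψ f = ∑ b, s b • j (f b) := fun f => rfl
  refine ((h.2 I hI).pi (B ⧸ J)).of_surjective Ψ ?_ ?_
  · -- surjectivity
    classical
    have key : ∀ (b : B) (v : ρ.V), (Submodule.Quotient.mk (b • inc φ hφ ρ v) :
        ((ρ.baseChangeAlong φ hφ).V ⧸ (J • (⊤ : Submodule B (ρ.baseChangeAlong φ hφ).V)))) ∈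
        Ψ.range := by
      intro b v
      refine ⟨Pi.single (Ideal.Quotient.mk J b) (Submodule.Quotient.mk v), ?_⟩
      rw [hΨ, Finset.sum_eq_single (Ideal.Quotient.mk J b)]
      · rw [Pi.single_eq_same]
        change s _ • Submodule.Quotient.mk (inc φ hφ ρ v) = _
        rw [← Submodule.Quotient.mk_smul, Submodule.Quotient.eq, ← sub_smul]
        exact Submodule.smul_mem_smul (Ideal.Quotient.eq.mp (hs _)) Submodule.mem_top
      · intro c _ hc
        rw [Pi.single_eq_of_ne hc, map_zero, smul_zero]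
      · intro h
        exact absurd (Finset.mem_univ _) h
    intro y
    obtain ⟨w, rfl⟩ := Submodule.Quotient.mk_surjective _ y
    change _ ∈ Ψ.range
    have hw : w ∈ Submodule.span B (Set.range (inc φ hφ ρ)) := by
      rw [span_range_inc]; exact Submodule.mem_top
    induction hw using Submodule.span_induction with
    | mem x hx =>
      obtain ⟨v, rfl⟩ := hx
      have := key 1 v
      rwa [one_smul] at this
    | zero => exact Ψ.range.zero_mem
    | add x y _ _ hx hy =>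
      rw [Submodule.Quotient.mk_add]
      exact Ψ.range.add_mem hx hy
    | smul b x _ hx =>
      -- `b • Ψ f` is again in the range
      obtain ⟨f, hf⟩ := hx
      rw [Submodule.Quotient.mk_smul, ← hf, hΨ, Finset.smul_sum]
      refine AddSubgroup.sum_mem _ fun c _ => ?_
      obtain ⟨v, hv⟩ := Submodule.Quotient.mk_surjective _ (f c)
      rw [← hv]
      change b • s c • Submodule.Quotient.mk (inc φ hφ ρ v) ∈ _
      rw [smul_smul, ← Submodule.Quotient.mk_smul]
      exact key _ v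
  · intro σ f
    rw [hΨ, hΨ, map_sum]
    refine Finset.sum_congr rfl fun b _ => ?_
    rw [piAct_apply]
    change s b • levelMap φ hφ ρ I J le_rfl (levelAct ρ I σ (f b)) = _
    rw [levelMap_act]
    obtain ⟨v, hv⟩ := Submodule.Quotient.mk_surjective _ (j (f b))
    change s b • levelAct (ρ.baseChangeAlong φ hφ) J σ (j (f b)) = _
    rw [← hv, ← Submodule.Quotient.mk_smul, levelAct_apply, levelAct_apply, levelAction_mk,
      levelAction_mk, map_smul, Submodule.Quotient.mk_smul]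

theorem isFlatAt_reflect {A B C : Type} [CommRing A] [IsLocalRing A] [CommRing B]
    [IsLocalRing B] [CommRing C] [IsLocalRing C] (hA : Finite A) (hB : Finite B) (hC : Finite C)
    (f : A →+* B) (g : A →+* C) (hf : IsLocalHom f) (hg : IsLocalHom g)
    (hfg : ∀ a, f a = 0 → g a = 0 → a = 0) (ρ : GaloisRepAdic A) {p : ℕ}
    (h1 : (ρ.baseChangeAlong f hf).IsFlatAt p) (h2 : (ρ.baseChangeAlong g hg).IsFlatAt p) :
    ρ.IsFlatAt p := by
  rw [isFlatAt_iff] at h1 h2
  have hkA : Finite (ResidueField A) := Finite.of_surjective _ residue_surjective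
  have m1 := h1.2 ⊥ (finite_quotient_bot hB)
  have m2 := h2.2 ⊥ (finite_quotient_bot hC)
  have f1 := finite_level (ρ.baseChangeAlong f hf) ⊥ (finite_quotient_bot hB)
  have f2 := finite_level (ρ.baseChangeAlong g hg) ⊥ (finite_quotient_bot hC)
  have m3 : HasFlatModel p (levelAct ρ ⊥) := by
    refine (m1.prod m2).of_injective
      ((levelMap f hf ρ ⊥ ⊥ bot_le).prod (levelMap g hg ρ ⊥ ⊥ bot_le)) ?_ ?_
    · rw [injective_iff_map_eq_zero]
      intro x hx
      obtain ⟨v, rfl⟩ := Submodule.Quotient.mk_surjective _ x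
      have hx1 : levelMap f hf ρ ⊥ ⊥ bot_le (Submodule.Quotient.mk v) = 0 := congrArg Prod.fst hx
      have hx2 : levelMap g hg ρ ⊥ ⊥ bot_le (Submodule.Quotient.mk v) = 0 := congrArg Prod.snd hx
      rw [levelMap_mk, Submodule.Quotient.mk_eq_zero, Submodule.bot_smul, Submodule.mem_bot] at hx1 hx2
      rw [eq_zero_of_reflect f g hf hg hfg ρ v hx1 hx2, Submodule.Quotient.mk_zero]
    · intro σ x
      rw [prodAct_apply]
      exact Prod.ext (levelMap_act f hf ρ ⊥ ⊥ bot_le σ x) (levelMap_act g hg ρ ⊥ ⊥ bot_le σ x)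
  exact isFlatAt_of_cofinal ρ p hkA (fun _ => ⊥) (fun I _ => ⟨0, bot_le⟩)
    (fun _ => finite_quotient_bot hA) (fun _ => m3)

theorem exists_pow_le_of_finite {A : Type} [CommRing A] [IsLocalRing A] (I : Ideal A)
    (hI : Finite (A ⧸ I)) : ∃ n, maximalIdeal A ^ (n + 1) ≤ I := by
  by_cases hI' : I = ⊤
  · exact ⟨0, hI' ▸ le_top⟩
  · have := isLocalRing_quotient hI'
    have hart : IsArtinianRing (A ⧸ I) := inferInstance
    obtain ⟨n, hn⟩ := exists_pow_eq_bot hart
    have hloc : IsLocalHom (Ideal.Quotient.mk I) :=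
      IsLocalHom.of_surjective _ Ideal.Quotient.mk_surjective
    refine ⟨n, (Ideal.pow_le_pow_right (Nat.le_succ n)).trans ?_⟩
    have h1 : (maximalIdeal A).map (Ideal.Quotient.mk I) ≤ maximalIdeal (A ⧸ I) :=
      ((IsLocalRing.local_hom_TFAE (Ideal.Quotient.mk I)).out 0 2).mp hloc
    have h2 : (maximalIdeal A ^ n).map (Ideal.Quotient.mk I) = ⊥ := by
      rw [eq_bot_iff, ← hn, Ideal.map_pow]
      exact Ideal.pow_right_mono h1 n
    rwa [Ideal.map_eq_bot_iff_le_ker, Ideal.mk_ker] at h2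

theorem isFlatAt_limit {𝒪 : Type} [CommRing 𝒪] {A : Type} [CommRing A] [IsLocalRing A]
    [Algebra 𝒪 A] (hA : IsCoeff 𝒪 A) (ρ : GaloisRepAdic A) {p : ℕ}
    (h : ∀ (I : Ideal A) (hl : IsLocalRing (A ⧸ I)) (n : ℕ), maximalIdeal A ^ n ≤ I →
        ∀ (hq : IsLocalHom ((Ideal.Quotient.mkₐ 𝒪 I : A →ₐ[𝒪] A ⧸ I) : A →+* A ⧸ I)),
          (ρ.baseChangeAlong ((Ideal.Quotient.mkₐ 𝒪 I : A →ₐ[𝒪] A ⧸ I) : A →+* A ⧸ I)
            hq).IsFlatAt p) : ρ.IsFlatAt p := by
  have := hA.isNoetherianRing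
  have hk : Finite (ResidueField A) := by
    obtain ⟨hl, -, hq⟩ := hA.quotient_pow 0
    have h1 := (isFlatAt_iff _ _).mp (h _ hl 1 le_rfl hq)
    exact finite_residueField_of_hom' _ hq h1.1
  refine isFlatAt_of_cofinal ρ p hk (fun n => maximalIdeal A ^ (n + 1))
    (fun I hI => exists_pow_le_of_finite I hI) (fun n => finite_quotient_pow hk (n + 1)) fun n => ?_
  obtain ⟨hl, -, hq⟩ := hA.quotient_pow n
  set I := maximalIdeal A ^ (n + 1) with hI
  have hfin : Finite (A ⧸ I) := finite_quotient_pow hk (n + 1)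
  have h1 := (isFlatAt_iff _ _).mp (h I hl (n + 1) le_rfl hq)
  have m1 := h1.2 ⊥ (finite_quotient_bot hfin)
  have f1 := finite_level (ρ.baseChangeAlong _ hq) ⊥ (finite_quotient_bot hfin)
  have hker : I ≤ (⊥ : Ideal (A ⧸ I)).comap
      ((Ideal.Quotient.mkₐ 𝒪 I : A →ₐ[𝒪] A ⧸ I) : A →+* A ⧸ I) := by
    intro x hx
    rw [Ideal.mem_comap, Ideal.mem_bot]
    exact Ideal.Quotient.eq_zero_iff_mem.mpr hx
  refine m1.of_injective (levelMap _ hq ρ I ⊥ hker) ?_ ?_
  · rw [injective_iff_map_eq_zero]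
    intro x hx
    obtain ⟨v, rfl⟩ := Submodule.Quotient.mk_surjective _ x
    rw [levelMap_mk, Submodule.Quotient.mk_eq_zero, Submodule.bot_smul, Submodule.mem_bot] at hx
    obtain ⟨b⟩ := exists_basis ρ
    rw [inc_eq_zero_of_ker _ hq ρ v b] at hx
    rw [Submodule.Quotient.mk_eq_zero, ← b.sum_repr v]
    refine Submodule.sum_mem _ fun i _ => Submodule.smul_mem_smul ?_ Submodule.mem_top
    exact Ideal.Quotient.eq_zero_iff_mem.mp (hx i)
  · intro σ x
    exact levelMap_act _ hq ρ I ⊥ hker σ x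

theorem good_isFlatAt (𝒪 : Type) [CommRing 𝒪] (p : ℕ) :
    Good 𝒪 (fun _A _ _ _ ρ => ρ.IsFlatAt p) where
  of_isEquiv A _ _ _ hA ρ ρ' e h := by
    obtain ⟨e⟩ := e
    exact isFlatAt_of_isEquiv e h
  baseChange A B _ _ _ _ _ _ hA hB φ hφ ρ h :=
    isFlatAt_baseChange _ hφ ρ (finite_residueField_of_hom hB.residue_surjective φ hφ h.1) h
  reflect A B C _ _ _ _ _ _ _ _ _ hA hB hC f g hf hg hfg ρ h1 h2 := by
    have hkA : Finite (ResidueField A) := finite_residueField_of_hom' _ hf h1.1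
    exact isFlatAt_reflect (finite_of_isArtinianRing hA.isArtinian hkA)
      (finite_of_isArtinianRing hB.isArtinian h1.1) (finite_of_isArtinianRing hC.isArtinian h2.1)
      _ _ hf hg hfg ρ h1 h2
  limit A _ _ _ _ _ hA ρ h := isFlatAt_limit hA ρ h

end Fermat.Agent.DefCond
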