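import Fermat.Agent.TWP.TangentLift
import Fermat.Agent.DefCond.Flat

/-!
# Cocycles of a given type

For a deformation condition `𝒟` satisfied by the residual representation, the cocycles `a` such that
`(1 + ε a) ρbar` is of type `𝒟` form a `k`-subspace containing the coboundaries.
-/

set_option autoImplicit false
set_option linter.style.haveILetI false
set_option linter.unusedVariables false
set_option linter.unusedSectionVars false

open IsLocalRing Matrix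
open Fermat.Agent.UDef (GalQ IsModel IsModelR MCont ofMatrix isModel_ofMatrix mapRep Dual dmk dfst
  dsnd CoefAlg toK dual_ext FP fpFst fpSnd prodRep)
open Fermat.Agent.TWP

namespace Fermat.Agent.DefCond.CocycleSpace

variable {𝒪 : Type} [CommRing 𝒪] [IsLocalRing 𝒪]

/-- `k → k[ε]`. -/
noncomputable def inclK (𝒪 : Type) [CommRing 𝒪] [IsLocalRing 𝒪] :
    ResidueField 𝒪 →ₐ[𝒪] Dual 𝒪 where
  toFun x := dmk x 0
  map_one' := dual_ext (by simp) (by simp)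
  map_mul' x y := dual_ext (by simp) (by simp)
  map_zero' := dual_ext (by simp) (by simp)
  map_add' x y := dual_ext (by simp) (by simp)
  commutes' c := dual_ext (by simp) (by simp)

/-- `k[ε] → k[ε]`, `ε ↦ c ε`. -/
noncomputable def scale (c : ResidueField 𝒪) : Dual 𝒪 →ₐ[𝒪] Dual 𝒪 where
  toFun x := dmk (dfst x) (c * dsnd x)
  map_one' := dual_ext (by simp) (by simp)
  map_mul' x y := dual_ext (by simp) (by simp; ring)
  map_zero' := dual_ext (by simp) (by simp)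
  map_add' x y := dual_ext (by simp) (by simp; ring)
  commutes' c := dual_ext (by simp) (by simp)

/-- `k[ε] ×_k k[ε] → k[ε]`, the sum. -/
noncomputable def addHom (𝒪 : Type) [CommRing 𝒪] [IsLocalRing 𝒪] :
    FP 𝒪 (Dual 𝒪) (Dual 𝒪) →ₐ[𝒪] Dual 𝒪 where
  toFun x := dmk (dfst x.1.1) (dsnd x.1.1 + dsnd x.1.2)
  map_one' := dual_ext (by simp) (by simp)
  map_mul' x y := by
    have hx : dfst x.1.1 = dfst x.1.2 := by
      have := x.2
      rw [UDef.mem_FP, UDef.toK_dual, UDef.toK_dual] at this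
      exact this
    have hy : dfst y.1.1 = dfst y.1.2 := by
      have := y.2
      rw [UDef.mem_FP, UDef.toK_dual, UDef.toK_dual] at this
      exact this
    refine dual_ext (by simp) ?_
    simp only [UDef.dsnd_dmk, UDef.dsnd_mul, UDef.dfst_dmk, MulMemClass.coe_mul, Prod.fst_mul,
      Prod.snd_mul]
    rw [← hx, ← hy]
    ring
  map_zero' := dual_ext (by simp) (by simp)
  map_add' x y := dual_ext (by simp) (by simp; ring)
  commutes' c := by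
    refine dual_ext ?_ ?_
    · simp only [UDef.dfst_dmk]
      rfl
    · simp only [UDef.dsnd_dmk]
      change dsnd (algebraMap 𝒪 (Dual 𝒪) c) + dsnd (algebraMap 𝒪 (Dual 𝒪) c) = _
      simp

section

variable {𝒟 : ∀ ⦃A : Type⦄ [CommRing A] [IsLocalRing A] [Algebra 𝒪 A], GaloisRepAdic A → Prop}
  {Mbar : GalQ →* Matrix (Fin 2) (Fin 2) (ResidueField 𝒪)}
  {ρbar : ResidualGaloisRep (ResidueField 𝒪)}

theorem mapRep_toK_dualRep (a : adCocycle Mbar) :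
    mapRep (toK 𝒪 (Dual 𝒪) : Dual 𝒪 →+* ResidueField 𝒪) (dualRep Mbar a) = Mbar := by
  ext σ i j
  show toK 𝒪 (Dual 𝒪) (matMk (Mbar σ) _ i j) = Mbar σ i j
  rw [UDef.toK_dual]
  simp [matMk]

theorem good_residual (hbar : IsModelR ρbar Mbar)
    (h𝒟bar : 𝒟 (GaloisRepAdic.ofResidualGaloisRep ρbar)) :
    UDef.Good 𝒟 Mbar (A := ResidueField 𝒪) Mbar := by
  refine ⟨?_, GaloisRepAdic.ofResidualGaloisRep ρbar, hbar.toAdic, h𝒟bar⟩
  have h1 : toK 𝒪 (ResidueField 𝒪) = AlgHom.id 𝒪 (ResidueField 𝒪) :=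
    (UDef.toK_unique (AlgHom.id 𝒪 (ResidueField 𝒪))).symm
  ext σ i j
  show toK 𝒪 (ResidueField 𝒪) (Mbar σ i j) = Mbar σ i j
  rw [h1]
  rfl

variable [Finite (ResidueField 𝒪)]

theorem good_zero (h𝒟 : GaloisRep.IsDeformationCondition 𝒪 𝒟)
    (h0 : UDef.Good 𝒟 Mbar (A := ResidueField 𝒪) Mbar) :
    UDef.Good 𝒟 Mbar (dualRep Mbar (0 : adCocycle Mbar)) := by
  have h1 := h0.map h𝒟 (inclK 𝒪)
  have h2 : mapRep (inclK 𝒪 : ResidueField 𝒪 →+* Dual 𝒪) Mbar = dualRep Mbar 0 := by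
    ext σ i j
    show dmk (Mbar σ i j) 0 = _
    rw [dualRep_apply]
    simp [matMk]
  rwa [h2] at h1

theorem good_fp_map (h𝒟 : GaloisRep.IsDeformationCondition 𝒪 𝒟) {A B C : Type}
    [CommRing A] [IsLocalRing A] [Algebra 𝒪 A] [CoefAlg 𝒪 A] [Finite A]
    [CommRing B] [IsLocalRing B] [Algebra 𝒪 B] [CoefAlg 𝒪 B] [Finite B]
    [CommRing C] [IsLocalRing C] [Algebra 𝒪 C] [CoefAlg 𝒪 C] [Finite C]
    {M : GalQ →* Matrix (Fin 2) (Fin 2) A} {M' : GalQ →* Matrix (Fin 2) (Fin 2) B}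
    (h : mapRep (toK 𝒪 A : A →+* ResidueField 𝒪) M = mapRep (toK 𝒪 B : B →+* ResidueField 𝒪) M')
    (hM : UDef.Good 𝒟 Mbar M) (hM' : UDef.Good 𝒟 Mbar M') (f : FP 𝒪 A B →ₐ[𝒪] C) :
    UDef.Good 𝒟 Mbar (mapRep (f : FP 𝒪 A B →+* C) (prodRep M M' h)) :=
  (UDef.Good.of_fp (A := A) (B := B) h𝒟 (M := prodRep M M' h) (by rw [UDef.prodRep_fst]; exact hM)
    (by rw [UDef.prodRep_snd]; exact hM')).map h𝒟 f

theorem good_add (h𝒟 : GaloisRep.IsDeformationCondition 𝒪 𝒟) {a b : adCocycle Mbar}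
    (ha : UDef.Good 𝒟 Mbar (dualRep Mbar a)) (hb : UDef.Good 𝒟 Mbar (dualRep Mbar b)) :
    UDef.Good 𝒟 Mbar (dualRep Mbar (a + b)) := by
  have h2 := good_fp_map h𝒟 (by rw [mapRep_toK_dualRep, mapRep_toK_dualRep]) ha hb (addHom 𝒪)
  have h3 : mapRep (addHom 𝒪 : FP 𝒪 (Dual 𝒪) (Dual 𝒪) →+* Dual 𝒪)
      (prodRep (dualRep Mbar a) (dualRep Mbar b)
        (by rw [mapRep_toK_dualRep, mapRep_toK_dualRep])) = dualRep Mbar (a + b) := by
    ext σ i j
    show dmk (dfst (matMk (Mbar σ) (a.1 σ * Mbar σ) i j))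
      (dsnd (matMk (Mbar σ) (a.1 σ * Mbar σ) i j) + dsnd (matMk (Mbar σ) (b.1 σ * Mbar σ) i j)) = _
    rw [dualRep_apply]
    simp only [matMk, Matrix.of_apply, UDef.dfst_dmk, UDef.dsnd_dmk]
    congr 1
    rw [Submodule.coe_add, Pi.add_apply, add_mul, Matrix.add_apply]
  rwa [h3] at h2

theorem good_smul (h𝒟 : GaloisRep.IsDeformationCondition 𝒪 𝒟) (c : ResidueField 𝒪)
    {a : adCocycle Mbar} (ha : UDef.Good 𝒟 Mbar (dualRep Mbar a)) :
    UDef.Good 𝒟 Mbar (dualRep Mbar (c • a)) := by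
  have h2 := ha.map h𝒟 (scale c)
  have h3 : mapRep (scale c : Dual 𝒪 →+* Dual 𝒪) (dualRep Mbar a) = dualRep Mbar (c • a) := by
    ext σ i j
    show dmk (dfst (matMk (Mbar σ) (a.1 σ * Mbar σ) i j))
      (c * dsnd (matMk (Mbar σ) (a.1 σ * Mbar σ) i j)) = _
    rw [dualRep_apply]
    simp only [matMk, Matrix.of_apply, UDef.dfst_dmk, UDef.dsnd_dmk]
    congr 1
    rw [SetLike.val_smul, Pi.smul_apply, Matrix.smul_mul, Matrix.smul_apply, smul_eq_mul]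
  rwa [h3] at h2

/-- The space of cocycles of type `𝒟`. -/
noncomputable def typeCocycles (h𝒟 : GaloisRep.IsDeformationCondition 𝒪 𝒟)
    (h0 : UDef.Good 𝒟 Mbar (A := ResidueField 𝒪) Mbar) :
    Submodule (ResidueField 𝒪) (GalQ → Matrix (Fin 2) (Fin 2) (ResidueField 𝒪)) where
  carrier := {a | ∃ ha : a ∈ adCocycle Mbar, UDef.Good 𝒟 Mbar (dualRep Mbar ⟨a, ha⟩)}
  zero_mem' := by
    refine ⟨(adCocycle Mbar).zero_mem, ?_⟩
    have e : (⟨0, (adCocycle Mbar).zero_mem⟩ : adCocycle Mbar) = 0 := Subtype.ext rfl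
    rw [e]
    exact good_zero h𝒟 h0
  add_mem' := by
    rintro a b ⟨ha, hGa⟩ ⟨hb, hGb⟩
    refine ⟨(adCocycle Mbar).add_mem ha hb, ?_⟩
    have e : (⟨a + b, (adCocycle Mbar).add_mem ha hb⟩ : adCocycle Mbar) = ⟨a, ha⟩ + ⟨b, hb⟩ :=
      Subtype.ext rfl
    rw [e]
    exact good_add h𝒟 hGa hGb
  smul_mem' := by
    rintro c a ⟨ha, hGa⟩
    refine ⟨(adCocycle Mbar).smul_mem c ha, ?_⟩
    have e : (⟨c • a, (adCocycle Mbar).smul_mem c ha⟩ : adCocycle Mbar) = c • ⟨a, ha⟩ :=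
      Subtype.ext rfl
    rw [e]
    exact good_smul h𝒟 c hGa

theorem mem_typeCocycles_iff (h𝒟 : GaloisRep.IsDeformationCondition 𝒪 𝒟)
    (h0 : UDef.Good 𝒟 Mbar (A := ResidueField 𝒪) Mbar)
    (a : GalQ → Matrix (Fin 2) (Fin 2) (ResidueField 𝒪)) :
    a ∈ typeCocycles h𝒟 h0 ↔ ∃ ha : a ∈ adCocycle Mbar,
      UDef.Good 𝒟 Mbar (dualRep Mbar ⟨a, ha⟩) := Iff.rfl

/-- Membership in terms of the representation `ofMatrix`. -/
theorem mem_typeCocycles_iff_ofMatrix (h𝒟 : GaloisRep.IsDeformationCondition 𝒪 𝒟)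
    (h0 : UDef.Good 𝒟 Mbar (A := ResidueField 𝒪) Mbar)
    (a : GalQ → Matrix (Fin 2) (Fin 2) (ResidueField 𝒪)) :
    a ∈ typeCocycles h𝒟 h0 ↔ ∃ (ha : a ∈ adCocycle Mbar) (hc : MCont (dualRep Mbar ⟨a, ha⟩)),
      𝒟 (ofMatrix (dualRep Mbar ⟨a, ha⟩) hc) := by
  rw [mem_typeCocycles_iff]
  constructor
  · rintro ⟨ha, hG⟩
    exact ⟨ha, hG.mcont, hG.type h𝒟 (isModel_ofMatrix _ _)⟩
  · rintro ⟨ha, hc, hD⟩
    exact ⟨ha, mapRep_toK_dualRep _, _, isModel_ofMatrix _ hc, hD⟩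

theorem typeCocycles_le (h𝒟 : GaloisRep.IsDeformationCondition 𝒪 𝒟)
    (h0 : UDef.Good 𝒟 Mbar (A := ResidueField 𝒪) Mbar) :
    typeCocycles h𝒟 h0 ≤ adCocycle Mbar := fun _ ha => ha.1

/-- Coboundaries are of type `𝒟`. -/
theorem adCobound_le_typeCocycles (h𝒟 : GaloisRep.IsDeformationCondition 𝒪 𝒟)
    (h0 : UDef.Good 𝒟 Mbar (A := ResidueField 𝒪) Mbar) :
    adCobound Mbar ≤ typeCocycles h𝒟 h0 := by
  rintro a ⟨X, rfl⟩
  have ha : adBoundary Mbar X ∈ adCocycle Mbar := adCobound_le Mbar ⟨X, rfl⟩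
  refine ⟨ha, ?_⟩
  obtain ⟨hu, hconj⟩ := dualRep_conj Mbar ⟨_, ha⟩ 0 X (by
    change adBoundary Mbar X - 0 = _
    rw [sub_zero])
  exact (good_zero h𝒟 h0).conj _ hu hconj (mapRep_toK_dualRep _)

end

section Flat

variable [Finite (ResidueField 𝒪)]
  {Mbar : GalQ →* Matrix (Fin 2) (Fin 2) (ResidueField 𝒪)}
  {ρbar : ResidualGaloisRep (ResidueField 𝒪)}

variable (𝒪) in
/-- Flatness at `p` is a deformation condition. -/
theorem isDeformationCondition_isFlatAt (p : ℕ) :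
    GaloisRep.IsDeformationCondition 𝒪 (fun _A _ _ _ ρ => ρ.IsFlatAt p) :=
  (good_isFlatAt 𝒪 p).isDeformationCondition

/-- **The flat cocycles form a subspace containing the coboundaries.** -/
theorem exists_flat_submodule (p : ℕ) (hbar : IsModelR ρbar Mbar)
    (hflat : (GaloisRepAdic.ofResidualGaloisRep ρbar).IsFlatAt p) :
    ∃ Z : Submodule (ResidueField 𝒪) (GalQ → Matrix (Fin 2) (Fin 2) (ResidueField 𝒪)),
      adCobound Mbar ≤ Z ∧ Z ≤ adCocycle Mbar ∧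
      ∀ a : GalQ → Matrix (Fin 2) (Fin 2) (ResidueField 𝒪), a ∈ Z ↔
        ∃ (ha : a ∈ adCocycle Mbar) (hc : MCont (dualRep Mbar ⟨a, ha⟩)),
          (ofMatrix (dualRep Mbar ⟨a, ha⟩) hc).IsFlatAt p :=
  ⟨typeCocycles (isDeformationCondition_isFlatAt 𝒪 p) (good_residual hbar hflat),
    adCobound_le_typeCocycles _ _, typeCocycles_le _ _, mem_typeCocycles_iff_ofMatrix _ _⟩

end Flat

end Fermat.Agent.DefCond.CocycleSpace
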