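/-
Ramification of `p`-th roots: if `ζ_p ∈ K` and `c ∈ K` has valuation prime to `p` at the centre of
`A` on `K`, then some element of the inertia group of `A` fixing `K` moves a `p`-th root of `c`.
-/
import Mathlib
import Fermat.Agent.MW.QuadRam

set_option autoImplicit false
set_option linter.style.haveILetI false
set_option linter.unusedVariables false

open Pointwise NumberField
open Fermat.Agent.FrobExists Fermat.Agent.MW.Selmer Fermat.Agent.FlatOrd Fermat.Agent.MW.QuadRam
open IsDedekindDomain FractionalIdeal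
open scoped nonZeroDivisors

namespace Fermat.Agent.DefCond.KummerRam

/-- Ultrametric lemma: if a sum of elements with distinct values lies in `A`, each term does. -/
theorem mem_of_sum_mem {L : Type*} [Field L] (A : ValuationSubring L) {ι : Type*} (s : Finset ι)
    (t : ι → L)
    (hd : ∀ i ∈ s, ∀ j ∈ s, i ≠ j → t i ≠ 0 → A.valuation (t i) ≠ A.valuation (t j))
    (hs : ∑ i ∈ s, t i ∈ A) : ∀ i ∈ s, t i ∈ A := by
  classical
  by_contra hcon
  push Not at hcon
  obtain ⟨i₀, hi₀, hti₀⟩ := hcon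
  obtain ⟨i, hi, hmax⟩ := Finset.exists_max_image s (fun i => A.valuation (t i)) ⟨i₀, hi₀⟩
  have hgt : 1 < A.valuation (t i) := by
    refine lt_of_lt_of_le ?_ (hmax i₀ hi₀)
    rw [← not_le, ValuationSubring.valuation_le_one_iff]
    exact hti₀
  have hti : t i ≠ 0 := by
    intro h
    rw [h, map_zero] at hgt
    exact absurd hgt (not_lt.2 zero_le_one)
  have hlt : A.valuation (∑ j ∈ s.erase i, t j) < A.valuation (t i) := by
    refine Valuation.map_sum_lt' _ (lt_trans zero_lt_one hgt) fun j hj => ?_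
    rw [Finset.mem_erase] at hj
    refine lt_of_le_of_ne (hmax j hj.2) fun h => ?_
    exact hd i hi j hj.2 (Ne.symm hj.1) hti h.symm
  have hsum : A.valuation (∑ j ∈ s, t j) = A.valuation (t i) := by
    rw [← Finset.add_sum_erase s t hi]
    exact Valuation.map_add_eq_of_lt_left _ hlt
  rw [← ValuationSubring.valuation_le_one_iff, hsum] at hs
  exact absurd hs (not_le.2 hgt)

section Main

variable {L : Type} [Field L] [Algebra ℚ L] [IsGalois ℚ L] (K : IntermediateField ℚ L)
  [FiniteDimensional ℚ K]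

/-- If `ζ_p ∈ K`, `c ∈ K` has valuation prime to `p` at the place below `A` and `b ^ p = c`, then
some element of the inertia group of `A` fixing `K` moves `b`. -/
theorem exists_inertia_moving {p : ℕ} (hp : p.Prime) {ζ : L} (hζ : IsPrimitiveRoot ζ p)
    (hζK : ζ ∈ K) (A : ValuationSubring L) {ℓ : ℕ} (hℓ : ℓ.Prime)
    (hA : A.LiesOverPrime ℓ) (c : Kˣ) (hc : ¬ (p : ℤ) ∣ cnt (place K A hℓ hA) c)
    (b : L) (hb : b ^ p = ((c : K) : L)) :
    ∃ σ ∈ A.inertiaSubgroupIn ℚ, (∀ x ∈ K, σ x = x) ∧ σ b ≠ b := by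
  have hchar : CharZero L := algebraRat.charZero L
  have hpne : NeZero p := ⟨hp.ne_zero⟩
  set v := place K A hℓ hA with hv
  have hc0 : ((c : K) : L) ≠ 0 := by
    have := c.ne_zero
    exact fun h => this (Subtype.ext h)
  have hb0 : b ≠ 0 := by
    rintro rfl
    rw [zero_pow hp.ne_zero] at hb
    exact hc0 hb.symm
  -- `b ∉ K`
  have hbK : b ∉ K := by
    intro hbK
    let b' : Kˣ := Units.mk0 ⟨b, hbK⟩ (fun h => hb0 (congrArg Subtype.val h))
    have : c = b' ^ p := Units.ext (Subtype.ext hb.symm)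
    rw [this, cnt_pow] at hc
    exact hc ⟨_, rfl⟩
  -- an element `g` fixing `K` and moving `b`
  obtain ⟨g, hgK, hgb⟩ : ∃ g : L ≃ₐ[ℚ] L, (∀ x ∈ K, g x = x) ∧ g b ≠ b := by
    have h1 : b ∉ IntermediateField.fixedField K.fixingSubgroup := by
      rwa [InfiniteGalois.fixedField_fixingSubgroup]
    rw [IntermediateField.mem_fixedField_iff] at h1
    push Not at h1
    obtain ⟨g, hg, hgb⟩ := h1
    rw [IntermediateField.mem_fixingSubgroup_iff] at hg
    exact ⟨g, hg, hgb⟩
  have hroot : ∀ σ : L ≃ₐ[ℚ] L, (∀ x ∈ K, σ x = x) → (σ b / b) ^ p = 1 := by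
    intro σ hσ
    rw [div_pow, ← map_pow, hb, hσ _ (c : K).2, div_self hc0]
  obtain ⟨ω, hωdef⟩ : ∃ ω : L, ω = g b / b := ⟨_, rfl⟩
  have hωp : ω ^ p = 1 := hωdef ▸ hroot g hgK
  have hω1 : ω ≠ 1 := by
    rw [hωdef]
    intro h
    exact hgb ((div_eq_one_iff_eq hb0).1 h)
  have hω : IsPrimitiveRoot ω p := by
    have : Fact p.Prime := ⟨hp⟩
    rw [IsPrimitiveRoot.iff_orderOf]
    exact orderOf_eq_prime hωp hω1
  have hω0 : ω ≠ 0 := hω.ne_zero hp.ne_zero
  have hωK : ω ∈ K := by
    obtain ⟨i, -, hi⟩ := hζ.eq_pow_of_pow_eq_one hωp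
    rw [← hi]
    exact pow_mem hζK i
  have hgω : g ω = ω := hgK ω hωK
  have hgb' : g b = ω * b := by
    rw [hωdef, div_mul_cancel₀ _ hb0]
  have hgpow : ∀ j : ℕ, (g ^ j) b = ω ^ j * b := by
    intro j
    induction j with
    | zero => simp
    | succ j ih =>
      rw [pow_succ', AlgEquiv.mul_apply, ih, map_mul, map_pow, hgω, hgb', pow_succ]
      ring
  have hgpowK : ∀ (j : ℕ), ∀ x ∈ K, (g ^ j) x = x := by
    intro j
    induction j with
    | zero => intro x _; simp
    | succ j ih => intro x hx; rw [pow_succ', AlgEquiv.mul_apply, ih x hx, hgK x hx]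
  -- the stabiliser of `b`
  let H : Subgroup (L ≃ₐ[ℚ] L) := K.fixingSubgroup ⊓ (IntermediateField.adjoin ℚ {b}).fixingSubgroup
  have hH : IsClosed (H : Set (L ≃ₐ[ℚ] L)) :=
    (InfiniteGalois.fixingSubgroup_isClosed K).inter (InfiniteGalois.fixingSubgroup_isClosed _)
  have hHK : ∀ h ∈ H, ∀ x ∈ K, h x = x := fun h hh =>
    (IntermediateField.mem_fixingSubgroup_iff K h).1 hh.1
  have hHb : ∀ h ∈ H, h b = b := fun h hh =>
    (IntermediateField.mem_fixingSubgroup_iff _ h).1 hh.2 b
      (IntermediateField.mem_adjoin_simple_self ℚ b)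
  have hmemH : ∀ h : L ≃ₐ[ℚ] L, (∀ x ∈ K, h x = x) → h b = b → h ∈ H := by
    intro h hh hhb
    refine ⟨(IntermediateField.mem_fixingSubgroup_iff K h).2 hh, ?_⟩
    have hle : (IntermediateField.adjoin ℚ {b}) ≤
        IntermediateField.fixedField (Subgroup.zpowers h) := by
      rw [IntermediateField.adjoin_simple_le_iff, IntermediateField.mem_fixedField_iff]
      intro k hk
      obtain ⟨n, rfl⟩ := Subgroup.mem_zpowers_iff.1 hk
      have : h ∈ MulAction.stabilizer (L ≃ₐ[ℚ] L) b := hhb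
      exact (MulAction.stabilizer (L ≃ₐ[ℚ] L) b).zpow_mem this n
    have := (IntermediateField.le_iff_le (Subgroup.zpowers h) _).1 hle
    exact this (Subgroup.mem_zpowers h)
  have hinv : ∀ (τ : L ≃ₐ[ℚ] L) (w w' : L), τ w = w' → τ⁻¹ w' = w := fun τ w w' h => by
    rw [AlgEquiv.aut_inv, AlgEquiv.symm_apply_eq, h]
  -- values of terms are distinct
  have hne : ∀ (x y : K) (i j : ℕ), i < p → j < p → i ≠ j → x ≠ 0 →
      A.valuation ((x : L) * b ^ i) ≠ A.valuation ((y : L) * b ^ j) := by
    intro x y i j hi hj hij hx h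
    have hx' : (x : L) ≠ 0 := fun h => hx (Subtype.ext h)
    have hy' : (y : L) ≠ 0 := by
      intro hy
      rw [hy, zero_mul, map_zero, map_eq_zero] at h
      exact (mul_ne_zero hx' (pow_ne_zero _ hb0)) h
    have hy : y ≠ 0 := fun h => hy' (by rw [h]; rfl)
    let X : Kˣ := Units.mk0 x hx
    let Y : Kˣ := Units.mk0 y hy
    have h1 : A.valuation (((X ^ p * c ^ i * (Y ^ p * c ^ j)⁻¹ : Kˣ) : K) : L) = 1 := by
      have e : (((X ^ p * c ^ i * (Y ^ p * c ^ j)⁻¹ : Kˣ) : K) : L) =
          ((x : L) * b ^ i) ^ p * (((y : L) * b ^ j) ^ p)⁻¹ := by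
        rw [mul_pow, mul_pow, ← pow_mul, ← pow_mul, mul_comm i p, mul_comm j p, pow_mul, pow_mul,
          hb]
        push_cast
        rfl
      rw [e, map_mul, map_inv₀, map_pow, map_pow, h, mul_inv_cancel₀]
      refine pow_ne_zero _ ?_
      rw [Ne, map_eq_zero]
      exact mul_ne_zero hy' (pow_ne_zero _ hb0)
    have h2 := cnt_eq_zero_of_valuation_eq_one K A hℓ hA _ h1
    rw [cnt_mul, cnt_inv, cnt_mul, cnt_mul, cnt_pow, cnt_pow, cnt_pow, cnt_pow, ← hv] at h2
    have h3 : (p : ℤ) ∣ ((i : ℤ) - j) * cnt v c := by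
      refine ⟨cnt v Y - cnt v X, ?_⟩
      linear_combination h2
    have hpZ : Prime (p : ℤ) := Nat.prime_iff_prime_int.1 hp
    rcases hpZ.dvd_or_dvd h3 with h4 | h4
    · apply hij
      have h5 : |(i : ℤ) - j| < p := by
        rw [abs_lt]
        constructor <;> omega
      have h6 := Int.eq_zero_of_abs_lt_dvd h4 h5
      omega
    · exact hc h4
  -- decomposition of `H`-fixed elements
  have hpL : (p : L) ≠ 0 := by exact_mod_cast hp.ne_zero
  have hfix : ∀ w : L, (∀ σ : L ≃ₐ[ℚ] L, (∀ x ∈ K, σ x = x) → σ w = w) → w ∈ K := by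
    intro w hw
    have : w ∈ IntermediateField.fixedField K.fixingSubgroup := by
      rw [IntermediateField.mem_fixedField_iff]
      intro σ hσ
      exact hw σ ((IntermediateField.mem_fixingSubgroup_iff K σ).1 hσ)
    rwa [InfiniteGalois.fixedField_fixingSubgroup] at this
  have hdecomp : ∀ z : L, (∀ h ∈ H, h z = z) → ∃ y : ℕ → L, z = ∑ i ∈ Finset.range p, y i ∧
      (∀ i, g (y i) = ω ^ i * y i) ∧ (∀ i, ∃ x : K, y i = (x : L) * b ^ i) := by
    intro z hz
    have hgp : (g ^ p) z = z := by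
      refine hz _ (hmemH _ (hgpowK p) ?_)
      rw [hgpow, hωp, one_mul]
    let y : ℕ → L := fun i => (p : L)⁻¹ * ∑ j ∈ Finset.range p, (ω⁻¹) ^ (i * j) * (g ^ j) z
    have hy : ∀ i, y i = (p : L)⁻¹ * ∑ j ∈ Finset.range p, (ω⁻¹) ^ (i * j) * (g ^ j) z :=
      fun i => rfl
    have hgy : ∀ i, g (y i) = ω ^ i * y i := by
      intro i
      have hgωi : g ω⁻¹ = ω⁻¹ := by rw [map_inv₀, hgω]
      have h1 : g (y i) = (p : L)⁻¹ * ∑ j ∈ Finset.range p, (ω⁻¹) ^ (i * j) * (g ^ (j + 1)) z := by
        rw [hy, map_mul, map_inv₀, map_natCast, map_sum]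
        congr 1
        refine Finset.sum_congr rfl fun j _ => ?_
        rw [map_mul, map_pow, hgωi, pow_succ' g j, AlgEquiv.mul_apply]
      have h2 : ∑ j ∈ Finset.range p, (ω⁻¹) ^ (i * j) * (g ^ (j + 1)) z =
          ω ^ i * ∑ j ∈ Finset.range p, (ω⁻¹) ^ (i * (j + 1)) * (g ^ (j + 1)) z := by
        rw [Finset.mul_sum]
        refine Finset.sum_congr rfl fun j _ => ?_
        rw [← mul_assoc]
        congr 1
        rw [mul_add, mul_one, pow_add, mul_comm ((ω⁻¹) ^ (i * j)), ← mul_assoc, ← mul_pow,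
          mul_inv_cancel₀ hω0, one_pow, one_mul]
      have h3 : ∑ j ∈ Finset.range p, (ω⁻¹) ^ (i * (j + 1)) * (g ^ (j + 1)) z =
          ∑ j ∈ Finset.range p, (ω⁻¹) ^ (i * j) * (g ^ j) z := by
        have h4 := Finset.sum_range_succ' (fun j => (ω⁻¹) ^ (i * j) * (g ^ j) z) p
        have h5 := Finset.sum_range_succ (fun j => (ω⁻¹) ^ (i * j) * (g ^ j) z) p
        have h6 : (ω⁻¹) ^ (i * p) * (g ^ p) z = (ω⁻¹) ^ (i * 0) * (g ^ 0) z := by
          rw [hgp, mul_zero, pow_zero, pow_zero, mul_comm i p, pow_mul, inv_pow, hωp, inv_one,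
            one_pow]
          rfl
        rw [h5] at h4
        rw [h6] at h4
        exact (add_right_cancel h4).symm
      rw [h1, h2, h3, hy]
      ring
    -- every element fixing `K` multiplies `y i` by the right root of unity
    have hσy : ∀ σ : L ≃ₐ[ℚ] L, (∀ x ∈ K, σ x = x) → ∀ i, σ (y i) * b ^ i = y i * (σ b) ^ i := by
      intro σ hσ i
      obtain ⟨k, -, hk⟩ := hω.eq_pow_of_pow_eq_one (hroot σ hσ)
      have hσb : σ b = ω ^ k * b := by
        rw [hk, div_mul_cancel₀ _ hb0]
      have hgk : (g ^ k) (y i) = ω ^ (k * i) * y i := by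
        clear hσb hk
        induction k with
        | zero => simp
        | succ k ih =>
          rw [pow_succ', AlgEquiv.mul_apply, ih, map_mul, map_pow, hgω, hgy]
          ring
      have hσ2 : σ (y i) = (g ^ k) (y i) := by
        have h0 : ∀ j : ℕ, σ ((g ^ j) z) = (g ^ k) ((g ^ j) z) := by
          intro j
          have h3 : (g ^ (k + j))⁻¹ * σ * g ^ j ∈ H := by
            refine hmemH _ (fun x hx => ?_) ?_
            · change (g ^ (k + j))⁻¹ (σ ((g ^ j) x)) = x
              rw [hgpowK j x hx, hσ x hx]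
              exact hinv _ _ _ (hgpowK _ x hx)
            · change (g ^ (k + j))⁻¹ (σ ((g ^ j) b)) = b
              rw [hgpow, map_mul, map_pow, hσ ω hωK, hσb]
              refine hinv _ _ _ ?_
              rw [hgpow, pow_add]
              ring
          have h4 := hz _ h3
          change (g ^ (k + j))⁻¹ (σ ((g ^ j) z)) = z at h4
          rw [AlgEquiv.aut_inv, AlgEquiv.symm_apply_eq] at h4
          rw [h4, pow_add, AlgEquiv.mul_apply]
        rw [hy, map_mul, map_mul, map_sum, map_sum]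
        congr 1
        · rw [map_inv₀, map_natCast, map_inv₀, map_natCast]
        · refine Finset.sum_congr rfl fun j _ => ?_
          rw [map_mul, map_mul, h0 j]
          congr 1
          rw [map_pow, map_pow, map_inv₀, map_inv₀, hσ ω hωK, hgpowK k ω hωK]
      rw [hσ2, hgk, hσb]
      ring
    refine ⟨y, ?_, hgy, fun i => ?_⟩
    · -- `z = ∑ y i`
      have h1 : ∑ i ∈ Finset.range p, y i = (p : L)⁻¹ * ∑ j ∈ Finset.range p,
          (∑ i ∈ Finset.range p, ((ω⁻¹) ^ j) ^ i) * (g ^ j) z := by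
        simp only [hy]
        rw [← Finset.mul_sum, Finset.sum_comm]
        congr 1
        refine Finset.sum_congr rfl fun j _ => ?_
        rw [Finset.sum_mul]
        refine Finset.sum_congr rfl fun i _ => ?_
        rw [← pow_mul, mul_comm i j]
      have h2 : ∀ j ∈ Finset.range p, (∑ i ∈ Finset.range p, ((ω⁻¹) ^ j) ^ i) * (g ^ j) z =
          if j = 0 then (p : L) * z else 0 := by
        intro j hj
        rw [Finset.mem_range] at hj
        by_cases hj0 : j = 0
        · subst hj0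
          simp
        · rw [if_neg hj0]
          have h3 : (ω⁻¹) ^ j ≠ 1 := hω.inv.pow_ne_one_of_pos_of_lt hj0 hj
          have h4 : ∑ i ∈ Finset.range p, ((ω⁻¹) ^ j) ^ i = 0 := by
            rw [geom_sum_eq h3, ← pow_mul, mul_comm j p, pow_mul, inv_pow, hωp, inv_one, one_pow,
              sub_self, zero_div]
          rw [h4, zero_mul]
      rw [h1, Finset.sum_congr rfl h2, Finset.sum_ite_eq' (Finset.range p) 0,
        if_pos (Finset.mem_range.2 hp.pos), inv_mul_cancel_left₀ hpL]
    · have h1 : y i / b ^ i ∈ K := by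
        refine hfix _ fun σ hσ => ?_
        have h2 := hσy σ hσ i
        have hσb0 : σ b ≠ 0 := by
          rw [Ne, map_eq_zero]; exact hb0
        rw [map_div₀, map_pow, div_eq_div_iff (pow_ne_zero _ hσb0) (pow_ne_zero _ hb0)]
        exact h2
      exact ⟨⟨_, h1⟩, (div_mul_cancel₀ _ (pow_ne_zero _ hb0)).symm⟩
  obtain ⟨h, hh, hgh⟩ := InertiaLift.exists_mul_mem_inertia H hH A hℓ hA g (fun z hz => by
    obtain ⟨y, hzy, hgy, hyx⟩ := hdecomp (z : L) (fun h hh => congrArg Subtype.val (hz h hh))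
    choose x hx using hyx
    rw [mem_center]
    have hzA : ∑ i ∈ Finset.range p, y i ∈ A := by
      rw [← hzy]
      exact mem_of_isIntegral A z.2
    have h1 : ∀ i ∈ Finset.range p, y i ∈ A := by
      refine mem_of_sum_mem A _ y (fun i hi j hj hij hy0 => ?_) hzA
      rw [hx i, hx j]
      refine hne _ _ _ _ (Finset.mem_range.1 hi) (Finset.mem_range.1 hj) hij fun h0 => hy0 ?_
      rw [hx i, h0]
      simp
    have h2 : ((g • z - z : integralClosure ℤ L) : L) =
        ∑ i ∈ Finset.range p, (ω ^ i - 1) * y i := by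
      change g (z : L) - (z : L) = _
      rw [hzy, map_sum, ← Finset.sum_sub_distrib]
      refine Finset.sum_congr rfl fun i _ => ?_
      rw [hgy]
      ring
    rw [h2, ValuationSubring.mem_nonunits_iff]
    refine Valuation.map_sum_lt' _ zero_lt_one fun i hi => ?_
    rcases Nat.eq_zero_or_pos i with rfl | hi0
    · rw [pow_zero, sub_self, zero_mul, map_zero]
      exact zero_lt_one
    have h3 : A.valuation (y i) < 1 := by
      by_cases hy0 : x i = 0
      · rw [hx i, hy0]
        have : ((0 : K) : L) * b ^ i = 0 := by push_cast; ring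
        rw [this, map_zero]
        exact zero_lt_one
      · refine lt_of_le_of_ne ((ValuationSubring.valuation_le_one_iff _ _).2 (h1 i hi)) ?_
        have h4 := hne (x i) 1 i 0 (Finset.mem_range.1 hi) hp.pos hi0.ne' hy0
        rw [hx i]
        intro h5
        refine h4 ?_
        rw [h5]
        simp
    have h6 : A.valuation (ω ^ i - 1) ≤ 1 := by
      rw [ValuationSubring.valuation_le_one_iff]
      refine A.toSubring.sub_mem (A.toSubring.pow_mem ?_ _) A.toSubring.one_mem
      exact mem_of_isIntegral A (hω.isIntegral hp.pos)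
    rw [map_mul]
    calc A.valuation (ω ^ i - 1) * A.valuation (y i) ≤ 1 * A.valuation (y i) :=
          mul_le_mul_left h6 _
      _ = A.valuation (y i) := one_mul _
      _ < 1 := h3)
  refine ⟨g * h, hgh, fun x hx => ?_, ?_⟩
  · change g (h x) = x
    rw [hHK h hh x hx, hgK x hx]
  · change g (h b) ≠ b
    rw [hHb h hh]
    exact hgb

end Main

end Fermat.Agent.DefCond.KummerRam
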