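/-
Finiteness of the set of continuous homomorphisms from an open subgroup of `G_ℚ` to a finite
elementary abelian `p`-group, unramified outside a finite set of primes (any prime `p`).
-/
import Mathlib
import Fermat.Agent.MW.QuadFinite
import Fermat.Agent.DefCond.KummerRam

set_option autoImplicit false
set_option linter.style.haveILetI false
set_option linter.unusedVariables false

open Pointwise NumberField
open Fermat.Agent.FrobExists Fermat.Agent.MW.Selmer Fermat.Agent.FlatOrd Fermat.Agent.MW.QuadRam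
open Fermat.Agent.MW.QuadFinite
open IsDedekindDomain

namespace Fermat.Agent.DefCond.KummerFinite

variable {L : Type} [Field L] [Algebra ℚ L] [IsGalois ℚ L]

/-- A character of order `p` of a closed subgroup fixing `ζ_p` is given by a `p`-th root. -/
theorem exists_root {p : ℕ} (hp : p.Prime) {ζ : L} (hζ : IsPrimitiveRoot ζ p)
    (U : Subgroup (L ≃ₐ[ℚ] L)) (hζU : ∀ σ ∈ U, σ ζ = ζ)
    (χ : U →* Lˣ) (hχp : ∀ σ, χ σ ^ p = 1)
    (hχ : IsClosed ((χ.ker.map U.subtype : Subgroup (L ≃ₐ[ℚ] L)) : Set (L ≃ₐ[ℚ] L))) :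
    ∃ β : L, β ≠ 0 ∧ ∀ σ : U, (σ : L ≃ₐ[ℚ] L) β = ((χ σ : Lˣ) : L) * β := by
  classical
  have hpne : NeZero p := ⟨hp.ne_zero⟩
  have hfact : Fact p.Prime := ⟨hp⟩
  by_cases htriv : ∀ σ, χ σ = 1
  · refine ⟨1, one_ne_zero, fun σ => ?_⟩
    rw [htriv, map_one, Units.val_one, one_mul]
  push Not at htriv
  obtain ⟨σ₀, hσ₀⟩ := htriv
  obtain ⟨V, hV⟩ : ∃ V : Subgroup (L ≃ₐ[ℚ] L), V = χ.ker.map U.subtype := ⟨_, rfl⟩
  rw [← hV] at hχ
  have hVU : V ≤ U := by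
    rw [hV]
    rintro _ ⟨σ, -, rfl⟩
    exact σ.2
  have hmemV : ∀ τ : U, (τ : L ≃ₐ[ℚ] L) ∈ V ↔ χ τ = 1 := by
    intro τ
    rw [hV]
    constructor
    · rintro ⟨τ', hτ', h⟩
      have : τ' = τ := Subtype.ext h
      rw [← this]
      exact hτ'
    · intro h
      exact ⟨τ, h, rfl⟩
  set ω : L := ((χ σ₀ : Lˣ) : L) with hω
  have hωp : ω ^ p = 1 := by
    rw [hω, ← Units.val_pow_eq_pow_val, hχp, Units.val_one]
  have hω1 : ω ≠ 1 := fun h => hσ₀ (Units.ext h)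
  have hωprim : IsPrimitiveRoot ω p := by
    rw [IsPrimitiveRoot.iff_orderOf]
    exact orderOf_eq_prime hωp hω1
  have hω0 : ω ≠ 0 := hωprim.ne_zero hp.ne_zero
  have hfixroot : ∀ w : L, w ^ p = 1 → ∀ σ ∈ U, σ w = w := by
    intro w hw σ hσ
    obtain ⟨i, -, rfl⟩ := hζ.eq_pow_of_pow_eq_one hw
    rw [map_pow, hζU σ hσ]
  set g : L ≃ₐ[ℚ] L := (σ₀ : L ≃ₐ[ℚ] L) with hg
  have hgpowU : ∀ i : ℕ, g ^ i ∈ U := fun i => U.pow_mem σ₀.2 i
  have hgω : g ω = ω := hfixroot ω hωp g σ₀.2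
  -- the field cut out by `V`
  set M := IntermediateField.fixedField V with hM
  have hMV : M.fixingSubgroup = V := InfiniteGalois.fixingSubgroup_fixedField ⟨V, hχ⟩
  -- the characters
  let f : Fin p → (M →* L) := fun i =>
    ((g ^ (i : ℕ) : L ≃ₐ[ℚ] L) : L →* L).comp (algebraMap M L : M →* L)
  have hf : ∀ (i : Fin p) (x : M), f i x = (g ^ (i : ℕ)) (x : L) := fun i x => rfl
  have hfinj : Function.Injective f := by
    intro i j hij
    wlog hlt : (i : ℕ) < j generalizing i j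
    · rcases lt_trichotomy (i : ℕ) j with h | h | h
      · exact absurd h hlt
      · exact Fin.ext h
      · exact (this hij.symm h).symm
    exfalso
    have h1 : (g ^ ((j : ℕ) - i)) ∈ V := by
      rw [← hMV, IntermediateField.mem_fixingSubgroup_iff]
      intro x hx
      have h2 := DFunLike.congr_fun hij ⟨x, hx⟩
      rw [hf, hf] at h2
      have h3 : (g ^ (j : ℕ)) x = (g ^ (i : ℕ)) ((g ^ ((j : ℕ) - i)) x) := by
        rw [← AlgEquiv.mul_apply, ← pow_add]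
        congr 2
        omega
      rw [h3] at h2
      exact ((g ^ (i : ℕ)).injective h2).symm
    have h4 := (hmemV (σ₀ ^ ((j : ℕ) - i))).1 (by
      rw [Subgroup.coe_pow]; exact h1)
    rw [map_pow] at h4
    have h5 : ω ^ ((j : ℕ) - i) = 1 := by
      rw [hω, ← Units.val_pow_eq_pow_val, h4, Units.val_one]
    exact hωprim.pow_ne_one_of_pos_of_lt (by omega) (by have := j.2; omega) h5
  have hlin : LinearIndependent L (fun i : Fin p => (f i : M → L)) :=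
    (linearIndependent_monoidHom M L).comp f hfinj
  -- some resolvent is nonzero
  obtain ⟨x, hx⟩ : ∃ x : M, ∑ i : Fin p, (ω⁻¹) ^ (i : ℕ) * (g ^ (i : ℕ)) (x : L) ≠ 0 := by
    by_contra hcon
    push Not at hcon
    rw [Fintype.linearIndependent_iff] at hlin
    have h1 := hlin (fun i => (ω⁻¹) ^ (i : ℕ)) (by
      funext x
      rw [Finset.sum_apply]
      simpa [hf] using hcon x) ⟨0, hp.pos⟩
    simp at h1
  set β : L := ∑ i : Fin p, (ω⁻¹) ^ (i : ℕ) * (g ^ (i : ℕ)) (x : L) with hβ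
  have hβr : β = ∑ i ∈ Finset.range p, (ω⁻¹) ^ i * (g ^ i) (x : L) := by
    rw [hβ, Fin.sum_univ_eq_sum_range (fun i => (ω⁻¹) ^ i * (g ^ i) (x : L))]
  have hxV : ∀ τ ∈ V, τ (x : L) = x := fun τ hτ =>
    (IntermediateField.mem_fixedField_iff _ _).1 x.2 τ hτ
  have hgp : (g ^ p) (x : L) = x := by
    refine hxV _ ?_
    have := (hmemV (σ₀ ^ p)).2 (by rw [map_pow]; exact hχp σ₀)
    rwa [Subgroup.coe_pow] at this
  have hgβ : g β = ω * β := by
    have hgωi : g ω⁻¹ = ω⁻¹ := by rw [map_inv₀, hgω]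
    have h1 : g β = ∑ j ∈ Finset.range p, (ω⁻¹) ^ j * (g ^ (j + 1)) (x : L) := by
      rw [hβr, map_sum]
      refine Finset.sum_congr rfl fun j _ => ?_
      rw [map_mul, map_pow, hgωi, pow_succ' g j, AlgEquiv.mul_apply]
    have h2 : ∑ j ∈ Finset.range p, (ω⁻¹) ^ j * (g ^ (j + 1)) (x : L) =
        ω * ∑ j ∈ Finset.range p, (ω⁻¹) ^ (j + 1) * (g ^ (j + 1)) (x : L) := by
      rw [Finset.mul_sum]
      refine Finset.sum_congr rfl fun j _ => ?_
      rw [← mul_assoc]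
      congr 1
      rw [pow_succ, mul_comm ((ω⁻¹) ^ j), ← mul_assoc, mul_inv_cancel₀ hω0, one_mul]
    have h3 : ∑ j ∈ Finset.range p, (ω⁻¹) ^ (j + 1) * (g ^ (j + 1)) (x : L) =
        ∑ j ∈ Finset.range p, (ω⁻¹) ^ j * (g ^ j) (x : L) := by
      have h4 := Finset.sum_range_succ' (fun j => (ω⁻¹) ^ j * (g ^ j) (x : L)) p
      have h5 := Finset.sum_range_succ (fun j => (ω⁻¹) ^ j * (g ^ j) (x : L)) p
      have h6 : (ω⁻¹) ^ p * (g ^ p) (x : L) = (ω⁻¹) ^ 0 * (g ^ 0) (x : L) := by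
        rw [hgp, inv_pow, hωp, inv_one, pow_zero, pow_zero]
        rfl
      rw [h5] at h4
      rw [h6] at h4
      exact (add_right_cancel h4).symm
    rw [h1, h2, h3, ← hβr]
  have hVβ : ∀ τ ∈ V, τ β = β := by
    intro τ hτ
    rw [hβr, map_sum]
    refine Finset.sum_congr rfl fun j _ => ?_
    have hωi : (ω⁻¹) ^ p = 1 := by rw [inv_pow, hωp, inv_one]
    rw [map_mul, map_pow, hfixroot _ hωi τ (hVU hτ)]
    congr 1
    have h1 : (g ^ j)⁻¹ * τ * g ^ j ∈ V := by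
      have h2 := (hmemV ((σ₀ ^ j)⁻¹ * ⟨τ, hVU hτ⟩ * σ₀ ^ j)).2 (by
        rw [map_mul, map_mul, map_inv, (hmemV ⟨τ, hVU hτ⟩).1 hτ, mul_one, inv_mul_cancel])
      exact h2
    have h3 := hxV _ h1
    change (g ^ j)⁻¹ (τ ((g ^ j) (x : L))) = x at h3
    rwa [AlgEquiv.aut_inv, AlgEquiv.symm_apply_eq] at h3
  have hgkβ : ∀ k : ℕ, (g ^ k) β = ω ^ k * β := by
    intro k
    induction k with
    | zero => simp
    | succ k ih =>
      rw [pow_succ', AlgEquiv.mul_apply, ih, map_mul, map_pow, hgω, hgβ, pow_succ]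
      ring
  refine ⟨β, hx, fun ρ => ?_⟩
  have hχρ : ((χ ρ : Lˣ) : L) ^ p = 1 := by
    rw [← Units.val_pow_eq_pow_val, hχp, Units.val_one]
  obtain ⟨k, -, hk⟩ := hωprim.eq_pow_of_pow_eq_one hχρ
  have h1 : (((σ₀ ^ k)⁻¹ * ρ : U) : L ≃ₐ[ℚ] L) ∈ V := by
    rw [hmemV, map_mul, map_inv, map_pow, inv_mul_eq_one]
    apply Units.ext
    rw [Units.val_pow_eq_pow_val]
    exact hk
  have h2 := hVβ _ h1
  change (g ^ k)⁻¹ ((ρ : L ≃ₐ[ℚ] L) β) = β at h2
  rw [AlgEquiv.aut_inv, AlgEquiv.symm_apply_eq] at h2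
  rw [h2, hgkβ, hk]

/-- **Finiteness of characters of order `p` unramified outside `S`.** -/
theorem finite_characters {p : ℕ} (hp : p.Prime) {ζ : L} (hζ : IsPrimitiveRoot ζ p)
    (U : Subgroup (L ≃ₐ[ℚ] L)) (hU : IsOpen (U : Set (L ≃ₐ[ℚ] L)))
    (hζU : ∀ σ ∈ U, σ ζ = ζ) (S : Set ℕ) (hS : S.Finite) :
    {χ : U →* Lˣ | (∀ σ, χ σ ^ p = 1) ∧ OpenKer U χ ∧ UnramifiedOutside U S χ}.Finite := by
  classical
  have hchar : CharZero L := algebraRat.charZero L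
  have hpne : NeZero p := ⟨hp.ne_zero⟩
  have hUc : IsClosed (U : Set (L ≃ₐ[ℚ] L)) := U.isClosed_of_isOpen hU
  set K := IntermediateField.fixedField U with hK
  have hKU : K.fixingSubgroup = U := InfiniteGalois.fixingSubgroup_fixedField ⟨U, hUc⟩
  have hfd : FiniteDimensional ℚ K := by
    rw [← InfiniteGalois.isOpen_iff_finite, hKU]
    exact hU
  have hmemU : ∀ σ : L ≃ₐ[ℚ] L, (∀ x ∈ K, σ x = x) → σ ∈ U := fun σ hσ => by
    rw [← hKU, IntermediateField.mem_fixingSubgroup_iff]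
    exact hσ
  have hfixK : ∀ w : L, (∀ σ ∈ U, σ w = w) → w ∈ K := fun w hw =>
    (IntermediateField.mem_fixedField_iff _ _).2 hw
  have hζK : ζ ∈ K := hfixK ζ hζU
  -- the finite set of places
  set S' : Set (HeightOneSpectrum (𝓞 K)) :=
    {v | ∃ ℓ ∈ (S \ {0} : Set ℕ), (ℓ : 𝓞 K) ∈ v.asIdeal} with hS'
  have hS'fin : S'.Finite := finite_placesOver K _ (hS.subset Set.sdiff_subset)
    (fun ℓ hℓ => fun h => hℓ.2 h)
  have hFG : Group.FG (𝓞 K)ˣ := Group.fg_iff_monoid_fg.2 inferInstance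
  obtain ⟨T, hT⟩ := exists_finset_of_relIndex_ne_zero _ _
    (finite_selmer (R := 𝓞 K) (K := K) S' hS'fin p hp.ne_zero)
  -- data attached to a character
  have hdata : ∀ χ : U →* Lˣ, (∀ σ, χ σ ^ p = 1) → OpenKer U χ → UnramifiedOutside U S χ →
      ∃ t ∈ T, ∃ γ : L, γ ≠ 0 ∧ γ ^ p = ((t : K) : L) ∧
        ∀ σ : U, (σ : L ≃ₐ[ℚ] L) γ = ((χ σ : Lˣ) : L) * γ := by
    intro χ hχp hχ hunr
    obtain ⟨β, hβ0, hβ⟩ := exists_root hp hζ U hζU χ hχp (Subgroup.isClosed_of_isOpen _ hχ)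
    have hβ2 : β ^ p ∈ K := by
      refine hfixK _ fun σ hσ => ?_
      rw [map_pow, hβ ⟨σ, hσ⟩, mul_pow, ← Units.val_pow_eq_pow_val, hχp, Units.val_one, one_mul]
    let a : Kˣ := Units.mk0 ⟨β ^ p, hβ2⟩ (fun h => (pow_ne_zero p hβ0) (congrArg Subtype.val h))
    have ha : a ∈ E (𝓞 K) K S' p := by
      intro v hv
      by_contra hodd
      obtain ⟨ℓ, hℓ, A, hA, hℓv, rfl⟩ := exists_valuationSubring_place K v
      have hℓS : ℓ ∉ S := fun h => hv ⟨ℓ, ⟨h, hℓ.ne_zero⟩, hℓv⟩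
      obtain ⟨σ, hσI, hσK, hσβ⟩ :=
        KummerRam.exists_inertia_moving K hp hζ hζK A hℓ hA a hodd β rfl
      have h1 := hunr ℓ hℓ hℓS A hA ⟨σ, hmemU σ hσK⟩ hσI
      have h2 := hβ ⟨σ, hmemU σ hσK⟩
      rw [h1, Units.val_one, one_mul] at h2
      exact hσβ h2
    obtain ⟨t, htT, y, hy⟩ := hT a ha
    have hy' : y ^ p = t⁻¹ * a := hy
    refine ⟨t, htT, β * (((y⁻¹ : Kˣ) : K) : L), ?_, ?_, ?_⟩
    · refine mul_ne_zero hβ0 fun h => ?_
      exact (y⁻¹ : Kˣ).ne_zero (Subtype.ext h)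
    · have h1 : t = a * (y⁻¹) ^ p := by
        rw [inv_pow, hy', mul_inv, inv_inv, mul_comm t, mul_inv_cancel_left]
      rw [mul_pow]
      have h2 := congrArg (fun u : Kˣ => ((u : K) : L)) h1
      refine Eq.trans ?_ h2.symm
      push_cast
      rfl
    · intro σ
      have h1 : (σ : L ≃ₐ[ℚ] L) (((y⁻¹ : Kˣ) : K) : L) = (((y⁻¹ : Kˣ) : K) : L) :=
        (IntermediateField.mem_fixedField_iff _ _).1 ((y⁻¹ : Kˣ) : K).2 σ σ.2
      rw [map_mul, h1, hβ σ, mul_assoc]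
  -- injectivity
  refine Set.Finite.of_injOn (f := fun χ : U →* Lˣ =>
    if h : (∀ σ, χ σ ^ p = 1) ∧ OpenKer U χ ∧ UnramifiedOutside U S χ then
      (hdata χ h.1 h.2.1 h.2.2).choose else 1)
    (t := (T : Set Kˣ) ∪ {1}) ?_ ?_ (by exact (T.finite_toSet.union (Set.finite_singleton 1)))
  · intro χ hχ
    rw [Set.mem_ofPred_eq] at hχ
    dsimp only
    rw [dif_pos hχ]
    exact Or.inl (hdata χ hχ.1 hχ.2.1 hχ.2.2).choose_spec.1
  · intro χ hχ χ' hχ' heq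
    rw [Set.mem_ofPred_eq] at hχ hχ'
    dsimp only at heq
    rw [dif_pos hχ, dif_pos hχ'] at heq
    obtain ⟨-, γ, hγ0, hγ2, hγ⟩ := (hdata χ hχ.1 hχ.2.1 hχ.2.2).choose_spec
    obtain ⟨-, γ', hγ0', hγ2', hγ'⟩ := (hdata χ' hχ'.1 hχ'.2.1 hχ'.2.2).choose_spec
    have h1 : (γ / γ') ^ p = 1 := by
      rw [div_pow, hγ2, hγ2', heq, div_self]
      rw [← hγ2']
      exact pow_ne_zero _ hγ0'
    have h2 : ∀ σ : U, (σ : L ≃ₐ[ℚ] L) (γ / γ') = γ / γ' := by
      intro σ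
      obtain ⟨i, -, hi⟩ := hζ.eq_pow_of_pow_eq_one h1
      rw [← hi, map_pow, hζU σ σ.2]
    ext σ
    have h3 := h2 σ
    rw [map_div₀, hγ σ, hγ' σ] at h3
    have hχ0 : ((χ' σ : Lˣ) : L) ≠ 0 := (χ' σ).ne_zero
    field_simp at h3
    exact h3

theorem exists_dual_aux {p : ℕ} [hp : Fact p.Prime] {M : Type*} [AddCommGroup M]
    [Module (ZMod p) M] {m : M} (hm : m ≠ 0) : ∃ f : M →+ ZMod p, f m ≠ 0 := by
  obtain ⟨φ, hφ⟩ : ∃ φ : Module.Dual (ZMod p) M, φ m ≠ 0 := by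
    by_contra hcon
    push Not at hcon
    exact hm ((Module.forall_dual_apply_eq_zero_iff (ZMod p) m).1 hcon)
  exact ⟨φ.toAddMonoidHom, hφ⟩

theorem exists_dual {p : ℕ} (hp : p.Prime) {M : Type*} [AddCommGroup M]
    (hM : ∀ m : M, p • m = 0) {m : M} (hm : m ≠ 0) : ∃ f : M →+ ZMod p, f m ≠ 0 :=
  haveI : Fact p.Prime := ⟨hp⟩
  letI : Module (ZMod p) M := AddCommGroup.zmodModule hM
  exists_dual_aux hm

/-- A homomorphism from `ℤ/p` to `Lˣ` given by a primitive root of unity. -/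
noncomputable def zetaHom {p : ℕ} [NeZero p] {ζ : L} (hζ : IsPrimitiveRoot ζ p) :
    Multiplicative (ZMod p) →* Lˣ :=
  (Subgroup.subtype _).comp
    (AddMonoidHom.toMultiplicativeLeft
      ((hζ.isUnit_unit (NeZero.ne p)).zmodEquivZPowers.toAddMonoidHom))

omit [IsGalois ℚ L] [Algebra ℚ L] in
theorem zetaHom_injective {p : ℕ} [NeZero p] {ζ : L} (hζ : IsPrimitiveRoot ζ p) :
    Function.Injective (zetaHom hζ) :=
  Subtype.val_injective.comp
    ((hζ.isUnit_unit (NeZero.ne p)).zmodEquivZPowers.injective)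

/-- **Common kernel.** All homomorphisms from an open subgroup `U` of the Galois group to
`p`-torsion abelian groups, with open kernel and unramified outside `S`, are trivial on a common
open subgroup. -/
theorem exists_common_kernel {p : ℕ} (hp : p.Prime) {ζ : L} (hζ : IsPrimitiveRoot ζ p)
    (U : Subgroup (L ≃ₐ[ℚ] L)) (hU : IsOpen (U : Set (L ≃ₐ[ℚ] L))) (S : Set ℕ) (hS : S.Finite) :
    ∃ W : Subgroup (L ≃ₐ[ℚ] L), IsOpen (W : Set (L ≃ₐ[ℚ] L)) ∧ W ≤ U ∧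
      ∀ (M : Type) [AddCommGroup M], (∀ m : M, p • m = 0) → ∀ φ : U →* Multiplicative M,
        OpenKer U φ → UnramifiedOutside U S φ → ∀ σ : U, (σ : L ≃ₐ[ℚ] L) ∈ W → φ σ = 1 := by
  classical
  have hpne : NeZero p := ⟨hp.ne_zero⟩
  have hfact : Fact p.Prime := ⟨hp⟩
  let Z : Subgroup (L ≃ₐ[ℚ] L) := MulAction.stabilizer (L ≃ₐ[ℚ] L) ζ
  have hZ : IsOpen (Z : Set (L ≃ₐ[ℚ] L)) :=
    stabilizer_isOpen_of_isIntegral (K := ℚ) (x := ζ)
  let U' : Subgroup (L ≃ₐ[ℚ] L) := U ⊓ Z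
  have hU' : IsOpen (U' : Set (L ≃ₐ[ℚ] L)) := hU.inter hZ
  have hU'U : U' ≤ U := inf_le_left
  have hζU' : ∀ σ ∈ U', σ ζ = ζ := fun σ hσ => hσ.2
  have hfin := finite_characters hp hζ U' hU' hζU' S hS
  set X := {χ : U' →* Lˣ | (∀ σ, χ σ ^ p = 1) ∧ OpenKer U' χ ∧ UnramifiedOutside U' S χ} with hX
  have : Finite X := hfin
  let W : Subgroup (L ≃ₐ[ℚ] L) := U' ⊓ ⨅ χ : X, (χ.1.ker.map U'.subtype)
  refine ⟨W, ?_, inf_le_left.trans hU'U, ?_⟩
  · have hinf : IsOpen ((⨅ χ : X, (χ.1.ker.map U'.subtype) : Subgroup (L ≃ₐ[ℚ] L)) :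
        Set (L ≃ₐ[ℚ] L)) := by
      rw [Subgroup.coe_iInf]
      exact isOpen_iInter_of_finite fun χ => χ.2.2.1
    exact hU'.inter hinf
  · intro M _ hM φ hφ hunr σ hσW
    by_contra hne
    have hne' : Multiplicative.toAdd (φ σ) ≠ 0 := fun h => hne (Multiplicative.toAdd.injective h)
    obtain ⟨ψ, hψ⟩ := exists_dual hp hM hne'
    let c : Multiplicative M →* Lˣ :=
      (zetaHom hζ).comp (AddMonoidHom.toMultiplicative ψ)
    have hcp : ∀ m, c m ^ p = 1 := by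
      intro m
      rw [← map_pow]
      have : m ^ p = 1 := by
        apply Multiplicative.toAdd.injective
        rw [toAdd_pow, hM, toAdd_one]
      rw [this, map_one]
    let χ : U' →* Lˣ := c.comp (φ.comp (Subgroup.inclusion hU'U))
    have hχX : χ ∈ X := by
      refine ⟨fun τ => hcp _, ?_, ?_⟩
      · have h1 : U' ⊓ (φ.ker.map U.subtype) ≤ χ.ker.map U'.subtype := by
          rintro τ ⟨hτU', τ', hτ', hττ'⟩
          refine ⟨⟨τ, hτU'⟩, ?_, rfl⟩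
          change c (φ (Subgroup.inclusion hU'U ⟨τ, hτU'⟩)) = 1
          have : Subgroup.inclusion hU'U ⟨τ, hτU'⟩ = τ' := Subtype.ext hττ'.symm
          rw [this, show φ τ' = 1 from hτ', map_one]
        exact Subgroup.isOpen_mono h1 (hU'.inter hφ)
      · intro ℓ hℓ hℓS A hA τ hτ
        change c (φ (Subgroup.inclusion hU'U τ)) = 1
        rw [hunr ℓ hℓ hℓS A hA (Subgroup.inclusion hU'U τ) hτ, map_one]
    have h2 : (σ : L ≃ₐ[ℚ] L) ∈ χ.ker.map U'.subtype := (Subgroup.mem_iInf.1 hσW.2) ⟨χ, hχX⟩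
    obtain ⟨τ, hτ, hτσ⟩ := h2
    have h3 : c (φ (Subgroup.inclusion hU'U τ)) = 1 := hτ
    have h4 : Subgroup.inclusion hU'U τ = σ := Subtype.ext hτσ
    rw [h4] at h3
    have h5 : zetaHom hζ (Multiplicative.ofAdd (ψ (Multiplicative.toAdd (φ σ)))) = 1 := h3
    rw [map_eq_one_iff _ (zetaHom_injective hζ)] at h5
    exact hψ (Multiplicative.ofAdd.injective h5)

/-- **Finiteness of homomorphisms to a finite elementary `p`-group unramified outside `S`.** -/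
theorem finite_homs {p : ℕ} (hp : p.Prime) {ζ : L} (hζ : IsPrimitiveRoot ζ p)
    (U : Subgroup (L ≃ₐ[ℚ] L)) (hU : IsOpen (U : Set (L ≃ₐ[ℚ] L)))
    (S : Set ℕ) (hS : S.Finite) (M : Type) [AddCommGroup M] [Finite M]
    (hM : ∀ m : M, p • m = 0) :
    {φ : U →* Multiplicative M | OpenKer U φ ∧ UnramifiedOutside U S φ}.Finite := by
  obtain ⟨W, hW, hWU, hker⟩ := exists_common_kernel hp hζ U hU S hS
  have hGW : Finite ((L ≃ₐ[ℚ] L) ⧸ W) := Subgroup.quotient_finite_of_isOpen W hW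
  have hfin : Finite (U ⧸ W.subgroupOf U) := by
    have hfi : W.FiniteIndex := Subgroup.finiteIndex_of_finite_quotient
    have hfi2 : (W.subgroupOf U).FiniteIndex := inferInstance
    exact Subgroup.finite_quotient_of_finiteIndex
  refine Set.Finite.of_injOn
    (f := fun φ : U →* Multiplicative M => fun q : U ⧸ W.subgroupOf U => φ q.out)
    (t := Set.univ) (fun _ _ => Set.mem_univ _) ?_ Set.finite_univ
  intro φ hφ φ' hφ' h
  ext σ
  obtain ⟨w, hw⟩ := QuotientGroup.mk_out_eq_mul (W.subgroupOf U) σ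
  have h1 := congrFun h (QuotientGroup.mk σ)
  simp only at h1
  rw [hw, map_mul, map_mul, hker M hM φ hφ.1 hφ.2 w w.2, hker M hM φ' hφ'.1 hφ'.2 w w.2,
    mul_one, mul_one] at h1
  exact h1

end Fermat.Agent.DefCond.KummerFinite
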