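import Fermat.Agent.QbarInst
import Fermat.Agent.DefCond.Basic
import Fermat.Agent.DefCond.KummerFinite

/-!
# Finiteness of the tangent space

All deformations of bounded length with restricted ramification factor through a common finite
level; hence `GaloisRep.TangentFinite` for every condition bounding the ramification.
-/

set_option autoImplicit false
set_option linter.style.haveILetI false
set_option linter.unusedVariables false

open IsLocalRing GaloisRep
open scoped TensorProduct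
open Fermat.Agent.MW.QuadFinite

namespace Fermat.Agent.DefCond

local notation "Γℚ" => (AlgebraicClosure ℚ ≃ₐ[ℚ] AlgebraicClosure ℚ)

section CommonKernel

/-- **Common kernel over `ℚ`.** -/
theorem exists_common_kernel {p : ℕ} (hp : p.Prime) (U : Subgroup Γℚ) (hU : IsOpen (U : Set Γℚ))
    (S : Set ℕ) (hS : S.Finite) :
    ∃ W : Subgroup Γℚ, IsOpen (W : Set Γℚ) ∧ W ≤ U ∧
      ∀ (M : Type) [AddCommGroup M] (φ : U →* Multiplicative M), (∀ σ, φ σ ^ p = 1) →
        OpenKer U φ → UnramifiedOutside U S φ → ∀ σ : U, (σ : Γℚ) ∈ W → φ σ = 1 := by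
  have hpne : NeZero (p : AlgebraicClosure ℚ) := ⟨by exact_mod_cast hp.ne_zero⟩
  obtain ⟨ζ, hζ⟩ := HasEnoughRootsOfUnity.exists_primitiveRoot (AlgebraicClosure ℚ) p
  obtain ⟨W, hW, hWU, hker⟩ := KummerFinite.exists_common_kernel hp hζ U hU S hS
  refine ⟨W, hW, hWU, fun M _ φ hφp hφ hunr σ hσ => ?_⟩
  let M' : AddSubgroup M := (nsmulAddMonoidHom (α := M) p).ker
  have hmem : ∀ σ : U, Multiplicative.toAdd (φ σ) ∈ M' := by
    intro σ
    change p • Multiplicative.toAdd (φ σ) = 0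
    rw [← toAdd_pow, hφp, toAdd_one]
  let φ' : U →* Multiplicative M' :=
    { toFun := fun σ => Multiplicative.ofAdd ⟨Multiplicative.toAdd (φ σ), hmem σ⟩
      map_one' := by
        apply Multiplicative.toAdd.injective
        apply Subtype.ext
        change Multiplicative.toAdd (φ 1) = 0
        rw [map_one, toAdd_one]
      map_mul' := fun σ τ => by
        apply Multiplicative.toAdd.injective
        apply Subtype.ext
        change Multiplicative.toAdd (φ (σ * τ)) =
          Multiplicative.toAdd (φ σ) + Multiplicative.toAdd (φ τ)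
        rw [map_mul, toAdd_mul] }
  have hφ' : ∀ σ, φ' σ = 1 ↔ φ σ = 1 := by
    intro σ
    constructor
    · intro h
      have h1 := congrArg (fun z => ((Multiplicative.toAdd z : M') : M)) h
      exact Multiplicative.toAdd.injective h1
    · intro h
      apply Multiplicative.toAdd.injective
      apply Subtype.ext
      change Multiplicative.toAdd (φ σ) = 0
      rw [h, toAdd_one]
  rw [← hφ']
  refine hker M' (fun m => Subtype.ext m.2) φ' ?_ ?_ σ hσ
  · have : φ'.ker = φ.ker := by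
      ext τ
      rw [MonoidHom.mem_ker, MonoidHom.mem_ker, hφ']
    unfold OpenKer
    rw [this]
    exact hφ
  · intro ℓ hℓ hℓS A hA τ hτ
    rw [hφ']
    exact hunr ℓ hℓ hℓS A hA τ hτ

end CommonKernel

section Level

theorem sub_mem_pow_mul {A : Type} [CommRing A] [IsLocalRing A] (ρ : GaloisRepAdic A) {σ : Γℚ}
    {n : ℕ} (hσ : ∀ v, ρ.ρ σ v - v ∈ (maximalIdeal A ^ n) • (⊤ : Submodule A ρ.V)) (m : ℕ)
    {v : ρ.V} (hv : v ∈ (maximalIdeal A ^ m) • (⊤ : Submodule A ρ.V)) :
    ρ.ρ σ v - v ∈ (maximalIdeal A ^ (m + n)) • (⊤ : Submodule A ρ.V) := by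
  refine Submodule.smul_induction_on (p := fun v => ρ.ρ σ v - v ∈
    (maximalIdeal A ^ (m + n)) • (⊤ : Submodule A ρ.V)) hv ?_ ?_
  · intro a ha w _
    rw [map_smul, ← smul_sub, pow_add, mul_smul]
    exact Submodule.smul_mem_smul ha (hσ w)
  · intro x y hx hy
    rw [map_add, add_sub_add_comm]
    exact Submodule.add_mem _ hx hy

/-- **Common level.** Representations over local rings of residue characteristic `p`, unramified
outside a fixed finite set `S` and residually trivial on a fixed open subgroup `U`, are trivial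
modulo `𝔪 ^ (n + 1)` on a common open subgroup. -/
theorem exists_common_level {p : ℕ} (hp : p.Prime) (U : Subgroup Γℚ) (hU : IsOpen (U : Set Γℚ))
    (S : Set ℕ) (hS : S.Finite) (n : ℕ) :
    ∃ W : Subgroup Γℚ, IsOpen (W : Set Γℚ) ∧ W ≤ U ∧
      ∀ (A : Type) [CommRing A] [IsLocalRing A], (p : A) ∈ maximalIdeal A →
        ∀ ρ : GaloisRepAdic A, (∀ q : ℕ, q.Prime → q ∉ S → ρ.IsUnramifiedAt q) →
        (∀ σ ∈ U, ∀ v, ρ.ρ σ v - v ∈ (maximalIdeal A ^ 1) • (⊤ : Submodule A ρ.V)) →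
        ∀ σ ∈ W, ∀ v, ρ.ρ σ v - v ∈ (maximalIdeal A ^ (n + 1)) • (⊤ : Submodule A ρ.V) := by
  induction n with
  | zero => exact ⟨U, hU, le_rfl, fun A _ _ _ ρ _ h => h⟩
  | succ n ih =>
    obtain ⟨W₁, hW₁, hW₁U, h₁⟩ := ih
    obtain ⟨W, hW, hWW₁, hker⟩ := exists_common_kernel hp W₁ hW₁ S hS
    refine ⟨W, hW, hWW₁.trans hW₁U, ?_⟩
    intro A _ _ hpA ρ hunr hres σ hσ v
    have hn := h₁ A hpA ρ hunr hres
    let N : Submodule A ρ.V := (maximalIdeal A ^ (n + 2)) • (⊤ : Submodule A ρ.V)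
    have hle : ∀ k : ℕ, n + 2 ≤ k → (maximalIdeal A ^ k) • (⊤ : Submodule A ρ.V) ≤ N :=
      fun k hk => Submodule.smul_mono_left (Ideal.pow_le_pow_right hk)
    let φ : W₁ →* Multiplicative (ρ.V → ρ.V ⧸ N) :=
      { toFun := fun σ => Multiplicative.ofAdd fun v => Submodule.Quotient.mk (ρ.ρ σ v - v)
        map_one' := by
          apply Multiplicative.toAdd.injective
          funext v
          change (Submodule.Quotient.mk (ρ.ρ ((1 : W₁) : Γℚ) v - v) : ρ.V ⧸ N) = 0
          rw [OneMemClass.coe_one, map_one, Module.End.one_apply, sub_self,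
            Submodule.Quotient.mk_zero]
        map_mul' := fun σ τ => by
          apply Multiplicative.toAdd.injective
          funext v
          change (Submodule.Quotient.mk (ρ.ρ ((σ * τ : W₁) : Γℚ) v - v) : ρ.V ⧸ N) =
            Submodule.Quotient.mk (ρ.ρ σ v - v) + Submodule.Quotient.mk (ρ.ρ τ v - v)
          rw [Subgroup.coe_mul, map_mul, Module.End.mul_apply, ← Submodule.Quotient.mk_add,
            Submodule.Quotient.eq]
          have h1 := sub_mem_pow_mul ρ (hn σ σ.2) (n + 1) (hn τ τ.2 v)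
          have h2 := hle _ (by omega) h1
          have h3 : ρ.ρ (σ : Γℚ) (ρ.ρ (τ : Γℚ) v) - v -
              (ρ.ρ (σ : Γℚ) v - v + (ρ.ρ (τ : Γℚ) v - v)) =
              ρ.ρ (σ : Γℚ) (ρ.ρ (τ : Γℚ) v - v) - (ρ.ρ (τ : Γℚ) v - v) := by
            rw [map_sub]; abel
          rw [h3]
          exact h2 }
    have hφ : ∀ τ : W₁, φ τ = 1 ↔ ∀ v, ρ.ρ (τ : Γℚ) v - v ∈ N := by
      intro τ
      constructor
      · intro h v
        have h1 : (Submodule.Quotient.mk (ρ.ρ (τ : Γℚ) v - v) : ρ.V ⧸ N) = 0 :=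
          congrFun (congrArg Multiplicative.toAdd h) v
        rwa [Submodule.Quotient.mk_eq_zero] at h1
      · intro h
        apply Multiplicative.toAdd.injective
        funext v
        exact (Submodule.Quotient.mk_eq_zero N).2 (h v)
    have hone := hker _ φ ?_ ?_ ?_ ⟨σ, hWW₁ hσ⟩ hσ
    · exact (hφ ⟨σ, hWW₁ hσ⟩).1 hone v
    · intro τ
      apply Multiplicative.toAdd.injective
      funext v
      rw [toAdd_pow]
      change p • (Submodule.Quotient.mk (ρ.ρ (τ : Γℚ) v - v) : ρ.V ⧸ N) = 0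
      rw [← Nat.cast_smul_eq_nsmul A, ← Submodule.Quotient.mk_smul, Submodule.Quotient.mk_eq_zero]
      change _ ∈ (maximalIdeal A ^ (n + 2)) • (⊤ : Submodule A ρ.V)
      have e : n + 2 = 1 + (n + 1) := by omega
      rw [e, pow_add, mul_smul]
      refine Submodule.smul_mem_smul ?_ (hn τ τ.2 v)
      rw [pow_one]
      exact hpA
    · -- open kernel
      obtain ⟨F, hF, hF1⟩ := ρ.isAdicContinuous (n + 2)
      refine Subgroup.isOpen_mono (H₁ := W₁ ⊓ F.fixingSubgroup) ?_
        (hW₁.inter (IntermediateField.fixingSubgroup_isOpen F))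
      rintro τ ⟨hτW, hτF⟩
      refine ⟨⟨τ, hτW⟩, ?_, rfl⟩
      rw [SetLike.mem_coe, MonoidHom.mem_ker, hφ]
      exact hF1 τ ((IntermediateField.mem_fixingSubgroup_iff F τ).1 hτF)
    · intro q hq hqS P hP τ hτ
      rw [hφ]
      intro v
      rw [hunr q hq hqS P hP τ hτ, Module.End.one_apply, sub_self]
      exact Submodule.zero_mem _

/-- Representations over a finite local ring which are trivial on a fixed open subgroup fall into
finitely many isomorphism classes. -/
theorem exists_finite_invariant (A : Type) [CommRing A] [IsLocalRing A] [Finite A]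
    (W : Subgroup Γℚ) (hW : IsOpen (W : Set Γℚ)) :
    ∃ (X : Type) (_ : Finite X) (F : GaloisRepAdic A → X), ∀ ρ ρ' : GaloisRepAdic A,
      (∀ σ ∈ W, ρ.ρ σ = 1) → (∀ σ ∈ W, ρ'.ρ σ = 1) → F ρ = F ρ' → ρ.IsEquiv ρ' := by
  classical
  have hGW : Finite (Γℚ ⧸ W) := Subgroup.quotient_finite_of_isOpen W hW
  let b : ∀ ρ : GaloisRepAdic A, Module.Basis (Fin 2) A ρ.V := fun ρ => (exists_basis ρ).some
  refine ⟨Γℚ ⧸ W → Fin 2 → Fin 2 → A, inferInstance,
    fun ρ q i j => (b ρ).repr (ρ.ρ q.out (b ρ i)) j, ?_⟩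
  intro ρ ρ' hρ hρ' h
  have hout : ∀ (ρ : GaloisRepAdic A), (∀ σ ∈ W, ρ.ρ σ = 1) → ∀ σ : Γℚ,
      ρ.ρ (QuotientGroup.mk σ : Γℚ ⧸ W).out = ρ.ρ σ := by
    intro ρ hρ σ
    obtain ⟨w, hw⟩ := QuotientGroup.mk_out_eq_mul W σ
    rw [hw, map_mul, hρ w w.2, mul_one]
  let e : ρ.V ≃ₗ[A] ρ'.V := (b ρ).equiv (b ρ') (Equiv.refl _)
  refine ⟨⟨e, fun σ x => ?_⟩⟩
  have hlin : e.toLinearMap ∘ₗ (ρ.ρ σ) = (ρ'.ρ σ) ∘ₗ e.toLinearMap := by
    refine (b ρ).ext fun i => ?_
    refine (b ρ').repr.injective ?_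
    ext j
    have h1 := congrFun (congrFun (congrFun h (QuotientGroup.mk σ)) i) j
    simp only at h1
    rw [hout ρ hρ, hout ρ' hρ'] at h1
    rw [LinearMap.comp_apply, LinearMap.comp_apply]
    change (b ρ').repr (e (ρ.ρ σ (b ρ i))) j = (b ρ').repr (ρ'.ρ σ (e (b ρ i))) j
    have h2 : e (b ρ i) = b ρ' i := by
      rw [Module.Basis.equiv_apply]
      rfl
    rw [h2, ← h1]
    have h3 : ∀ v : ρ.V, (b ρ').repr (e v) j = (b ρ).repr v j := by
      intro v
      change (b ρ').repr (((b ρ).equiv (b ρ') (Equiv.refl _)) v) j = _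
      simp [Module.Basis.equiv]
    exact h3 _
  exact LinearMap.congr_fun hlin x

end Level

section Residual

/-- If the residual representation is trivial at `σ`, then `σ` acts trivially modulo `𝔪`. -/
theorem sub_mem_of_residual_eq_one {A : Type} [CommRing A] [IsLocalRing A] (ρ : GaloisRepAdic A)
    {σ : Γℚ} (h : ρ.residual.ρ σ = 1) (v : ρ.V) :
    ρ.ρ σ v - v ∈ (maximalIdeal A ^ 1) • (⊤ : Submodule A ρ.V) := by
  obtain ⟨b⟩ := exists_basis ρ
  have h1 : ((1 : ResidueField A) ⊗ₜ[A] (ρ.ρ σ v - v) : ResidueField A ⊗[A] ρ.V) = 0 := by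
    rw [TensorProduct.tmul_sub]
    have h2 : ρ.residual.ρ σ ((1 : ResidueField A) ⊗ₜ[A] v : ResidueField A ⊗[A] ρ.V) =
        ((1 : ResidueField A) ⊗ₜ[A] v : ResidueField A ⊗[A] ρ.V) := by rw [h]; rfl
    have h3 : ρ.residual.ρ σ ((1 : ResidueField A) ⊗ₜ[A] v : ResidueField A ⊗[A] ρ.V) =
        ((1 : ResidueField A) ⊗ₜ[A] (ρ.ρ σ v) : ResidueField A ⊗[A] ρ.V) :=
      LinearMap.baseChange_tmul _ _ _
    rw [← h3, h2, sub_self]
  have h4 : ∀ i, b.repr (ρ.ρ σ v - v) i ∈ maximalIdeal A := by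
    intro i
    have h5 := Module.Basis.baseChange_repr_tmul (ResidueField A) b (1 : ResidueField A)
      (ρ.ρ σ v - v) i
    rw [h1, Algebra.smul_def, mul_one, map_zero, Finsupp.zero_apply] at h5
    exact (IsLocalRing.residue_eq_zero_iff _).1 h5.symm
  rw [← b.sum_repr (ρ.ρ σ v - v), pow_one]
  exact Submodule.sum_mem _ fun i _ => Submodule.smul_mem_smul (h4 i) Submodule.mem_top

/-- Isomorphic residual representations have the same kernel. -/
theorem residual_rho_eq_one_of_isEquiv {k : Type} [Field k] {ρ ρ' : ResidualGaloisRep k}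
    (h : ρ.IsEquiv ρ') {σ : Γℚ} (hσ : ρ'.ρ σ = 1) : ρ.ρ σ = 1 := by
  obtain ⟨e⟩ := h
  refine LinearMap.ext fun v => e.toLinearEquiv.injective ?_
  rw [e.map_apply, hσ]
  rfl

end Residual

section Tangent

variable (𝒪 : Type) [CommRing 𝒪] [IsLocalRing 𝒪] [Finite (ResidueField 𝒪)]

/-- **Finiteness of the tangent space** for every condition which bounds the ramification. -/
theorem tangentFinite_of_unramifiedOutside (ρbar : ResidualGaloisRep (ResidueField 𝒪))
    (𝒟 : ∀ ⦃A : Type⦄ [CommRing A] [IsLocalRing A] [Algebra 𝒪 A], GaloisRepAdic A → Prop)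
    (S : Set ℕ) (hS : S.Finite)
    (h𝒟 : letI : Algebra 𝒪 (DualNumber (ResidueField 𝒪)) :=
        ((algebraMap (ResidueField 𝒪) (DualNumber (ResidueField 𝒪))).comp
          (algebraMap 𝒪 (ResidueField 𝒪))).toAlgebra
      ∀ ρ : GaloisRepAdic (DualNumber (ResidueField 𝒪)), 𝒟 ρ →
        ∀ q : ℕ, q.Prime → q ∉ S → ρ.IsUnramifiedAt q) :
    TangentFinite 𝒪 ρbar 𝒟 := by
  letI : Algebra 𝒪 (DualNumber (ResidueField 𝒪)) :=
    ((algebraMap (ResidueField 𝒪) (DualNumber (ResidueField 𝒪))).comp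
      (algebraMap 𝒪 (ResidueField 𝒪))).toAlgebra
  letI : Algebra (ResidueField 𝒪) (ResidueField (DualNumber (ResidueField 𝒪))) :=
    ((IsLocalRing.residue (DualNumber (ResidueField 𝒪))).comp
      (algebraMap (ResidueField 𝒪) (DualNumber (ResidueField 𝒪)))).toAlgebra
  set k := ResidueField 𝒪 with hk
  set A := DualNumber k with hA
  have hAfin : Finite A := inferInstanceAs (Finite (k × k))
  -- the residue characteristic
  obtain ⟨p, hpchar⟩ := CharP.exists k
  have hp : p.Prime := CharP.char_is_prime k p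
  have hpk : (p : k) = 0 := CharP.cast_eq_zero k p
  have hpA0 : (p : A) = 0 := by
    have h1 : (p : A) = algebraMap k A (p : k) := by rw [map_natCast]
    rw [h1, hpk, map_zero]
  have hpA : (p : A) ∈ maximalIdeal A := by rw [hpA0]; exact Ideal.zero_mem _
  -- `𝔪 ^ 2 = 0`
  have hm2 : maximalIdeal A ^ 2 = ⊥ := by
    have hfst : ∀ a ∈ maximalIdeal A, TrivSqZeroExt.fst a = 0 := by
      intro a ha
      rw [mem_maximalIdeal, mem_nonunits_iff, TrivSqZeroExt.isUnit_iff_isUnit_fst,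
        isUnit_iff_ne_zero, not_not] at ha
      exact ha
    rw [pow_two, eq_bot_iff, Ideal.mul_le]
    intro a ha b hb
    rw [Ideal.mem_bot]
    have h1 := hfst a ha
    have h2 := hfst b hb
    ext
    · rw [TrivSqZeroExt.fst_mul, h1, zero_mul, TrivSqZeroExt.fst_zero]
    · rw [TrivSqZeroExt.snd_mul, h1, h2]
      simp
  -- the residual kernel
  obtain ⟨F₀, hF₀, hF₀ρ⟩ := ρbar.factorsThroughFiniteLevel
  have hU : IsOpen (F₀.fixingSubgroup : Set Γℚ) := IntermediateField.fixingSubgroup_isOpen F₀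
  obtain ⟨W, hW, hWU, hlev⟩ := exists_common_level hp F₀.fixingSubgroup hU S hS 1
  obtain ⟨X, hX, F, hF⟩ := exists_finite_invariant A W hW
  have htriv : ∀ ρ : {ρ : GaloisRepAdic A //
      𝒟 ρ ∧ ρ.residual.IsEquiv (ρbar.baseChange (ResidueField A)) }, ∀ σ ∈ W, ρ.1.ρ σ = 1 := by
    rintro ⟨ρ, hρ, hres⟩ σ hσ
    have h1 := hlev A hpA ρ (h𝒟 ρ hρ) (fun τ hτ v => ?_) σ hσ
    · refine LinearMap.ext fun v => ?_
      have h2 := h1 v
      rw [hm2, Submodule.bot_smul, Submodule.mem_bot, sub_eq_zero] at h2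
      exact h2
    · refine sub_mem_of_residual_eq_one ρ (residual_rho_eq_one_of_isEquiv hres ?_) v
      change (ρbar.ρ τ).baseChange (ResidueField A) = 1
      rw [hF₀ρ τ ((IntermediateField.mem_fixingSubgroup_iff F₀ τ).1 hτ), LinearMap.baseChange_one]
  unfold TangentFinite
  refine Finite.of_injective (β := X) (fun q => F (Quotient.out q).1) ?_
  intro q q' h
  rw [← Quotient.out_eq q, ← Quotient.out_eq q']
  exact Quotient.sound (hF _ _ (htriv _) (htriv _) h)

end Tangent

end Fermat.Agent.DefCond
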