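import Fermat.Agent.DefCond.Main
import Fermat.Agent.DefCond.TangentFinite
import Fermat.Agent.S53

/-!
# Existence of the deformation rings for the conditions of the prelude
-/

set_option autoImplicit false
set_option linter.style.haveILetI false
set_option linter.unusedVariables false

open IsLocalRing GaloisRep

namespace Fermat.Agent.DefCond

section

variable (𝒪 : Type) [CommRing 𝒪] [IsLocalRing 𝒪] [Finite (ResidueField 𝒪)]
  (ρbar : ResidualGaloisRep (ResidueField 𝒪)) (p : ℕ) (S : Finset ℕ)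

/-- The conditions of the prelude are all of the form `P ∧ unramified outside S`. -/
theorem tangentFinite_of_imp
    (𝒟 : ∀ ⦃A : Type⦄ [CommRing A] [IsLocalRing A] [Algebra 𝒪 A], GaloisRepAdic A → Prop)
    (h𝒟 : ∀ ⦃A : Type⦄ [CommRing A] [IsLocalRing A] [Algebra 𝒪 A] (ρ : GaloisRepAdic A), 𝒟 ρ →
      ∀ q : ℕ, q.Prime → q ∉ S → ρ.IsUnramifiedAt q) :
    TangentFinite 𝒪 ρbar 𝒟 :=
  tangentFinite_of_unramifiedOutside 𝒪 ρbar 𝒟 (S : Set ℕ) S.finite_toSet
    (fun ρ hρ q hq hqS => @h𝒟 _ _ _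
      (((algebraMap (ResidueField 𝒪) (DualNumber (ResidueField 𝒪))).comp
        (algebraMap 𝒪 (ResidueField 𝒪))).toAlgebra) ρ hρ q hq (fun h => hqS h))

theorem tangentFinite_flatCondition : TangentFinite 𝒪 ρbar (flatCondition 𝒪 p S) :=
  tangentFinite_of_imp 𝒪 ρbar S _ fun _ _ _ _ _ h => h.2.2

theorem tangentFinite_minimalFlatCondition :
    TangentFinite 𝒪 ρbar (minimalFlatCondition 𝒪 p S) :=
  tangentFinite_of_imp 𝒪 ρbar S _ fun _ _ _ _ _ h => h.1.2.2

theorem tangentFinite_ordinaryCondition : TangentFinite 𝒪 ρbar (ordinaryCondition 𝒪 p S) :=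
  tangentFinite_of_imp 𝒪 ρbar S _ fun _ _ _ _ _ h => h.2.2

theorem tangentFinite_minimalOrdinaryCondition :
    TangentFinite 𝒪 ρbar (minimalOrdinaryCondition 𝒪 p S) :=
  tangentFinite_of_imp 𝒪 ρbar S _ fun _ _ _ _ _ h => h.1.2.2

theorem tangentFinite_strictOrdinaryCondition :
    TangentFinite 𝒪 ρbar (strictOrdinaryCondition 𝒪 p S) :=
  tangentFinite_of_imp 𝒪 ρbar S _ fun _ _ _ _ _ h => h.2.2

theorem tangentFinite_minimalStrictOrdinaryCondition :
    TangentFinite 𝒪 ρbar (minimalStrictOrdinaryCondition 𝒪 p S) :=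
  tangentFinite_of_imp 𝒪 ρbar S _ fun _ _ _ _ _ h => h.1.2.2

theorem tangentFinite_strictOrdinary_unipotent (Smin : Finset ℕ) :
    TangentFinite 𝒪 ρbar (fun _A _ _ _ ρ => strictOrdinaryCondition 𝒪 p S ρ ∧
      ∀ q ∈ Smin, q.Prime → q ≠ p → ρ.IsUnipotentOnInertiaAt q) :=
  tangentFinite_of_imp 𝒪 ρbar S _ fun _ _ _ _ _ h => h.1.2.2

theorem tangentFinite_flat_unipotent (Smin : Finset ℕ) :
    TangentFinite 𝒪 ρbar (fun _A _ _ _ ρ => flatCondition 𝒪 p S ρ ∧
      ∀ q ∈ Smin, q.Prime → q ≠ p → ρ.IsUnipotentOnInertiaAt q) :=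
  tangentFinite_of_imp 𝒪 ρbar S _ fun _ _ _ _ _ h => h.1.2.2

theorem tangentFinite_ordinary_unipotent (Smin : Finset ℕ) :
    TangentFinite 𝒪 ρbar (fun _A _ _ _ ρ => ordinaryCondition 𝒪 p S ρ ∧
      ∀ q ∈ Smin, q.Prime → q ≠ p → ρ.IsUnipotentOnInertiaAt q) :=
  tangentFinite_of_imp 𝒪 ρbar S _ fun _ _ _ _ _ h => h.1.2.2

end

/-- The ordinary condition with unipotent inertia at the primes of `Smin`. -/
theorem isDeformationCondition_ordinary_unipotent (𝒪 : Type) [CommRing 𝒪] {p : ℕ} (S : Finset ℕ)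
    (hp : p.Prime) (hp2 : p ≠ 2) (Smin : Finset ℕ) :
    IsDeformationCondition 𝒪 (fun _A _ _ _ ρ => ordinaryCondition 𝒪 p S ρ ∧
      ∀ q ∈ Smin, q.Prime → q ≠ p → ρ.IsUnipotentOnInertiaAt q) :=
  ((good_ordinaryCondition 𝒪 S hp hp2).and (good_unipotent 𝒪 p Smin)).isDeformationCondition

section Rings

variable (𝒪 : Type) [CommRing 𝒪] [IsDomain 𝒪] [IsDiscreteValuationRing 𝒪]
  [IsAdicComplete (maximalIdeal 𝒪) 𝒪] [Finite (ResidueField 𝒪)]
  (ρbar : ResidualGaloisRep (ResidueField 𝒪)) (habs : ρbar.IsAbsolutelyIrreducible)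
  {p : ℕ} (S : Finset ℕ)

include habs

/-- Existence of the flat deformation ring. -/
theorem nonempty_ringData_flat (hp : p.Prime)
    (hbar : flatCondition 𝒪 p S (GaloisRepAdic.ofResidualGaloisRep ρbar)) :
    Nonempty (DeformationRingData 𝒪 ρbar (flatCondition 𝒪 p S)) :=
  Fermat.Agent.S53.result 𝒪 ρbar _ habs (isDeformationCondition_flatCondition 𝒪 S hp) hbar
    (tangentFinite_flatCondition 𝒪 ρbar p S)

theorem nonempty_ringData_minimalFlat (hp : p.Prime)
    (hbar : minimalFlatCondition 𝒪 p S (GaloisRepAdic.ofResidualGaloisRep ρbar)) :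
    Nonempty (DeformationRingData 𝒪 ρbar (minimalFlatCondition 𝒪 p S)) :=
  Fermat.Agent.S53.result 𝒪 ρbar _ habs (isDeformationCondition_minimalFlatCondition 𝒪 S hp) hbar
    (tangentFinite_minimalFlatCondition 𝒪 ρbar p S)

theorem nonempty_ringData_ordinary (hp : p.Prime) (hp2 : p ≠ 2)
    (hbar : ordinaryCondition 𝒪 p S (GaloisRepAdic.ofResidualGaloisRep ρbar)) :
    Nonempty (DeformationRingData 𝒪 ρbar (ordinaryCondition 𝒪 p S)) :=
  Fermat.Agent.S53.result 𝒪 ρbar _ habs (isDeformationCondition_ordinaryCondition 𝒪 S hp hp2) hbar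
    (tangentFinite_ordinaryCondition 𝒪 ρbar p S)

theorem nonempty_ringData_minimalOrdinary (hp : p.Prime) (hp2 : p ≠ 2)
    (hbar : minimalOrdinaryCondition 𝒪 p S (GaloisRepAdic.ofResidualGaloisRep ρbar)) :
    Nonempty (DeformationRingData 𝒪 ρbar (minimalOrdinaryCondition 𝒪 p S)) :=
  Fermat.Agent.S53.result 𝒪 ρbar _ habs
    (isDeformationCondition_minimalOrdinaryCondition 𝒪 S hp hp2) hbar
    (tangentFinite_minimalOrdinaryCondition 𝒪 ρbar p S)

theorem nonempty_ringData_strictOrdinary (hp : p.Prime) (hp2 : p ≠ 2)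
    (hbar : strictOrdinaryCondition 𝒪 p S (GaloisRepAdic.ofResidualGaloisRep ρbar)) :
    Nonempty (DeformationRingData 𝒪 ρbar (strictOrdinaryCondition 𝒪 p S)) :=
  Fermat.Agent.S53.result 𝒪 ρbar _ habs
    (isDeformationCondition_strictOrdinaryCondition 𝒪 S hp hp2) hbar
    (tangentFinite_strictOrdinaryCondition 𝒪 ρbar p S)

theorem nonempty_ringData_minimalStrictOrdinary (hp : p.Prime) (hp2 : p ≠ 2)
    (hbar : minimalStrictOrdinaryCondition 𝒪 p S (GaloisRepAdic.ofResidualGaloisRep ρbar)) :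
    Nonempty (DeformationRingData 𝒪 ρbar (minimalStrictOrdinaryCondition 𝒪 p S)) :=
  Fermat.Agent.S53.result 𝒪 ρbar _ habs
    (isDeformationCondition_minimalStrictOrdinaryCondition 𝒪 S hp hp2) hbar
    (tangentFinite_minimalStrictOrdinaryCondition 𝒪 ρbar p S)

/-- The strictly ordinary deformation ring of `S56`. -/
theorem nonempty_ringData_strictOrdinary_unipotent (hp : p.Prime) (hp2 : p ≠ 2)
    (Smin : Finset ℕ)
    (hbar : strictOrdinaryCondition 𝒪 p S (GaloisRepAdic.ofResidualGaloisRep ρbar) ∧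
      ∀ q ∈ Smin, q.Prime → q ≠ p →
        (GaloisRepAdic.ofResidualGaloisRep ρbar).IsUnipotentOnInertiaAt q) :
    Nonempty (DeformationRingData 𝒪 ρbar (fun _A _ _ _ ρ => strictOrdinaryCondition 𝒪 p S ρ ∧
      ∀ q ∈ Smin, q.Prime → q ≠ p → ρ.IsUnipotentOnInertiaAt q)) :=
  Fermat.Agent.S53.result 𝒪 ρbar _ habs
    (isDeformationCondition_strictOrdinary_unipotent 𝒪 S hp hp2 Smin) hbar
    (tangentFinite_strictOrdinary_unipotent 𝒪 ρbar p S Smin)

/-- The flat deformation ring of `S56`. -/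
theorem nonempty_ringData_flat_unipotent (hp : p.Prime) (Smin : Finset ℕ)
    (hbar : flatCondition 𝒪 p S (GaloisRepAdic.ofResidualGaloisRep ρbar) ∧
      ∀ q ∈ Smin, q.Prime → q ≠ p →
        (GaloisRepAdic.ofResidualGaloisRep ρbar).IsUnipotentOnInertiaAt q) :
    Nonempty (DeformationRingData 𝒪 ρbar (fun _A _ _ _ ρ => flatCondition 𝒪 p S ρ ∧
      ∀ q ∈ Smin, q.Prime → q ≠ p → ρ.IsUnipotentOnInertiaAt q)) :=
  Fermat.Agent.S53.result 𝒪 ρbar _ habs
    (isDeformationCondition_flat_unipotent 𝒪 S hp Smin) hbar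
    (tangentFinite_flat_unipotent 𝒪 ρbar p S Smin)

/-- The ordinary deformation ring with unipotent inertia at `Smin`. -/
theorem nonempty_ringData_ordinary_unipotent (hp : p.Prime) (hp2 : p ≠ 2) (Smin : Finset ℕ)
    (hbar : ordinaryCondition 𝒪 p S (GaloisRepAdic.ofResidualGaloisRep ρbar) ∧
      ∀ q ∈ Smin, q.Prime → q ≠ p →
        (GaloisRepAdic.ofResidualGaloisRep ρbar).IsUnipotentOnInertiaAt q) :
    Nonempty (DeformationRingData 𝒪 ρbar (fun _A _ _ _ ρ => ordinaryCondition 𝒪 p S ρ ∧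
      ∀ q ∈ Smin, q.Prime → q ≠ p → ρ.IsUnipotentOnInertiaAt q)) :=
  Fermat.Agent.S53.result 𝒪 ρbar _ habs
    (isDeformationCondition_ordinary_unipotent 𝒪 S hp hp2 Smin) hbar
    (tangentFinite_ordinary_unipotent 𝒪 ρbar p S Smin)

end Rings

end Fermat.Agent.DefCond
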