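import Fermat.Agent.DefCond.Basic
import Fermat.Agent.Lib.Cyclotomic

/-!
# Unramified, unipotent and cyclotomic determinant conditions are deformation conditions
-/

set_option autoImplicit false
set_option linter.style.haveILetI false
set_option linter.unusedVariables false

open IsLocalRing GaloisRep Polynomial
open scoped TensorProduct

namespace Fermat.Agent.DefCond

local notation "Γℚ" => (AlgebraicClosure ℚ ≃ₐ[ℚ] AlgebraicClosure ℚ)

section Tools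

variable {𝒪 : Type} [CommRing 𝒪]

/-- Krull: ideals of noetherian local rings are closed. -/
theorem mem_of_forall_mem_sup_pow {A : Type} [CommRing A] [IsLocalRing A] [IsNoetherianRing A]
    (J : Ideal A) (x : A) (h : ∀ n, x ∈ J ⊔ maximalIdeal A ^ (n + 1)) : x ∈ J := by
  have hbot := Ideal.iInf_pow_smul_eq_bot_of_isLocalRing (M := A ⧸ J) (maximalIdeal A)
    (maximalIdeal.isMaximal A).ne_top
  rw [← Ideal.Quotient.eq_zero_iff_mem, ← Submodule.mem_bot A, ← hbot, Submodule.mem_iInf]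
  intro n
  obtain ⟨j, hj, y, hy, rfl⟩ := Submodule.mem_sup.mp (h n)
  rw [map_add, Ideal.Quotient.eq_zero_iff_mem.mpr hj, zero_add]
  have : (Ideal.Quotient.mk J) y = y • (1 : A ⧸ J) := by
    rw [Algebra.smul_def, mul_one]; rfl
  rw [this]
  exact Submodule.smul_mem_smul (Ideal.pow_le_pow_right (Nat.le_succ n) hy) Submodule.mem_top

theorem eq_zero_of_forall_mem_pow {A : Type} [CommRing A] [IsLocalRing A] [IsNoetherianRing A]
    (x : A) (h : ∀ n, x ∈ maximalIdeal A ^ (n + 1)) : x = 0 := by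
  rw [← Submodule.mem_bot A]
  exact mem_of_forall_mem_sup_pow ⊥ x fun n => by rw [bot_sup_eq]; exact h n

/-- The Artinian quotients `A / m ^ (n+1)`. -/
theorem IsCoeff.quotient_pow {A : Type} [CommRing A] [IsLocalRing A] [Algebra 𝒪 A]
    (h : IsCoeff 𝒪 A) (n : ℕ) :
    ∃ (_ : IsLocalRing (A ⧸ maximalIdeal A ^ (n + 1))),
      IsArtinianTestAlgebra 𝒪 (A ⧸ maximalIdeal A ^ (n + 1)) ∧
      IsLocalHom ((Ideal.Quotient.mkₐ 𝒪 (maximalIdeal A ^ (n + 1)) :
        A →ₐ[𝒪] A ⧸ maximalIdeal A ^ (n + 1)) : A →+* A ⧸ maximalIdeal A ^ (n + 1)) :=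
  h.isArtinianTestAlgebra_quotient (pow_succ_ne_top A n) le_rfl

theorem eq_zero_of_reflect {A B C : Type} [CommRing A] [IsLocalRing A] [CommRing B]
    [IsLocalRing B] [CommRing C] [IsLocalRing C] (f : A →+* B) (g : A →+* C)
    (hf : IsLocalHom f) (hg : IsLocalHom g) (hfg : ∀ a, f a = 0 → g a = 0 → a = 0)
    (ρ : GaloisRepAdic A) (v : ρ.V) (h1 : inc f hf ρ v = 0) (h2 : inc g hg ρ v = 0) : v = 0 := by
  obtain ⟨b⟩ := exists_basis ρ
  rw [inc_eq_zero_of_ker f hf ρ v b] at h1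
  rw [inc_eq_zero_of_ker g hg ρ v b] at h2
  refine b.repr.injective ?_
  ext i
  rw [map_zero, Finsupp.zero_apply]
  exact hfg _ (h1 i) (h2 i)

theorem eq_zero_of_limit {A : Type} [CommRing A] [IsLocalRing A] [Algebra 𝒪 A]
    (hA : IsCoeff 𝒪 A) (ρ : GaloisRepAdic A) (v : ρ.V)
    (h : ∀ (I : Ideal A) (hl : IsLocalRing (A ⧸ I)) (n : ℕ), maximalIdeal A ^ n ≤ I →
        ∀ (hq : IsLocalHom ((Ideal.Quotient.mkₐ 𝒪 I : A →ₐ[𝒪] A ⧸ I) : A →+* A ⧸ I)),
          inc ((Ideal.Quotient.mkₐ 𝒪 I : A →ₐ[𝒪] A ⧸ I) : A →+* A ⧸ I) hq ρ v = 0) : v = 0 := by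
  have := hA.isNoetherianRing
  obtain ⟨b⟩ := exists_basis ρ
  refine b.repr.injective ?_
  ext i
  rw [map_zero, Finsupp.zero_apply]
  refine eq_zero_of_forall_mem_pow _ fun n => ?_
  obtain ⟨hl, -, hq⟩ := hA.quotient_pow n
  have h1 := h _ hl (n + 1) le_rfl hq
  rw [inc_eq_zero_of_ker _ hq ρ v b] at h1
  exact Ideal.Quotient.eq_zero_iff_mem.mp (h1 i)

theorem poly_eq_of_reflect {A B C : Type} [CommRing A] [CommRing B]
    [CommRing C] (f : A →+* B) (g : A →+* C)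
    (hfg : ∀ a, f a = 0 → g a = 0 → a = 0)
    (P Q : A[X]) (h1 : P.map f = Q.map f) (h2 : P.map g = Q.map g) : P = Q := by
  ext i
  rw [← sub_eq_zero]
  refine hfg _ ?_ ?_
  · rw [map_sub, ← coeff_map, ← coeff_map, h1, sub_self]
  · rw [map_sub, ← coeff_map, ← coeff_map, h2, sub_self]

theorem poly_eq_of_limit {A : Type} [CommRing A] [IsLocalRing A] [Algebra 𝒪 A]
    (hA : IsCoeff 𝒪 A) (P Q : A[X])
    (h : ∀ (I : Ideal A) (hl : IsLocalRing (A ⧸ I)) (n : ℕ), maximalIdeal A ^ n ≤ I →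
        ∀ (hq : IsLocalHom ((Ideal.Quotient.mkₐ 𝒪 I : A →ₐ[𝒪] A ⧸ I) : A →+* A ⧸ I)),
          P.map ((Ideal.Quotient.mkₐ 𝒪 I : A →ₐ[𝒪] A ⧸ I) : A →+* A ⧸ I) =
          Q.map ((Ideal.Quotient.mkₐ 𝒪 I : A →ₐ[𝒪] A ⧸ I) : A →+* A ⧸ I)) : P = Q := by
  have := hA.isNoetherianRing
  ext i
  rw [← sub_eq_zero]
  refine eq_zero_of_forall_mem_pow _ fun n => ?_
  obtain ⟨hl, -, hq⟩ := hA.quotient_pow n
  have h1 := congrArg (fun R => R.coeff i) (h _ hl (n + 1) le_rfl hq)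
  simp only [coeff_map] at h1
  rw [← Ideal.Quotient.eq]
  exact h1

/-- Compatibility of base change with composition is not needed: we only need the action on
`inc`. -/
theorem ext_inc {A B : Type} [CommRing A] [IsLocalRing A] [CommRing B] [IsLocalRing B]
    (φ : A →+* B) (hφ : IsLocalHom φ) (ρ : GaloisRepAdic A)
    (x y : Module.End B (ρ.baseChangeAlong φ hφ).V)
    (h : ∀ v, x (inc φ hφ ρ v) = y (inc φ hφ ρ v)) : x = y :=
  LinearMap.ext_on_range (span_range_inc φ hφ ρ) h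

end Tools

section Equiv

variable {A : Type} [CommRing A] [IsLocalRing A] {ρ ρ' : GaloisRepAdic A}

theorem equiv_conj (e : GaloisRepAdic.Equiv ρ ρ') (σ : Γℚ) :
    ρ'.ρ σ = e.toLinearEquiv.toLinearMap ∘ₗ ρ.ρ σ ∘ₗ e.toLinearEquiv.symm.toLinearMap := by
  refine LinearMap.ext fun y => ?_
  simp [e.map_apply]

theorem charpoly_equiv (e : GaloisRepAdic.Equiv ρ ρ') (σ : Γℚ) :
    LinearMap.charpoly (ρ'.ρ σ) = LinearMap.charpoly (ρ.ρ σ) := by
  have := LinearEquiv.charpoly_conj e.toLinearEquiv (ρ.ρ σ)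
  rw [← this]
  congr 1
  exact equiv_conj e σ

theorem det_equiv (e : GaloisRepAdic.Equiv ρ ρ') (σ : Γℚ) :
    LinearMap.det (ρ'.ρ σ) = LinearMap.det (ρ.ρ σ) := by
  rw [equiv_conj e σ]
  exact LinearMap.det_conj _ _

end Equiv

section Unramified

variable (𝒪 : Type) [CommRing 𝒪]

theorem good_isUnramifiedAt (q : ℕ) :
    Good 𝒪 (fun _A _ _ _ ρ => ρ.IsUnramifiedAt q) where
  of_isEquiv A _ _ _ hA ρ ρ' e h P hP σ hσ := by
    obtain ⟨e⟩ := e
    rw [equiv_conj e σ, h P hP σ hσ]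
    ext y
    simp
  baseChange A B _ _ _ _ _ _ hA hB φ hφ ρ h P hP σ hσ := by
    refine ext_inc _ hφ ρ _ _ fun v => ?_
    rw [rho_inc, h P hP σ hσ]
    rfl
  reflect A B C _ _ _ _ _ _ _ _ _ hA hB hC f g hf hg hfg ρ h1 h2 P hP σ hσ := by
    refine LinearMap.ext fun v => ?_
    rw [← sub_eq_zero]
    refine eq_zero_of_reflect _ _ hf hg hfg ρ _ ?_ ?_
    · rw [map_sub, ← rho_inc, h1 P hP σ hσ]
      exact sub_self _
    · rw [map_sub, ← rho_inc, h2 P hP σ hσ]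
      exact sub_self _
  limit A _ _ _ _ _ hA ρ h P hP σ hσ := by
    refine LinearMap.ext fun v => ?_
    rw [← sub_eq_zero]
    refine eq_zero_of_limit hA ρ _ fun I hl n hI hq => ?_
    rw [map_sub, ← rho_inc, h I hl n hI hq P hP σ hσ]
    exact sub_self _

end Unramified

section Unipotent

variable (𝒪 : Type) [CommRing 𝒪]

theorem good_isUnipotentOnInertiaAt (q : ℕ) :
    Good 𝒪 (fun _A _ _ _ ρ => ρ.IsUnipotentOnInertiaAt q) where
  of_isEquiv A _ _ _ hA ρ ρ' e h P hP σ hσ := by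
    obtain ⟨e⟩ := e
    rw [charpoly_equiv e, h P hP σ hσ]
  baseChange A B _ _ _ _ _ _ hA hB φ hφ ρ h P hP σ hσ := by
    rw [charpoly_baseChangeAlong, h P hP σ hσ]
    simp
  reflect A B C _ _ _ _ _ _ _ _ _ hA hB hC f g hf hg hfg ρ h1 h2 P hP σ hσ := by
    refine poly_eq_of_reflect (f : A →+* B) (g : A →+* C) hfg _ _ ?_ ?_
    · rw [← charpoly_baseChangeAlong _ hf, h1 P hP σ hσ]
      simp
    · rw [← charpoly_baseChangeAlong _ hg, h2 P hP σ hσ]
      simp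
  limit A _ _ _ _ _ hA ρ h P hP σ hσ := by
    refine poly_eq_of_limit hA _ _ fun I hl n hI hq => ?_
    rw [← charpoly_baseChangeAlong _ hq, h I hl n hI hq P hP σ hσ]
    simp

end Unipotent

section Det

variable (𝒪 : Type) [CommRing 𝒪]

theorem exists_cyc {p : ℕ} (hp : p.Prime) (n : ℕ) (σ : Γℚ) :
    ∃ a : ℕ, ∀ μ : AlgebraicClosure ℚ, μ ^ p ^ n = 1 → σ μ = μ ^ a := by
  have : NeZero (p ^ n) := ⟨pow_ne_zero n hp.ne_zero⟩
  exact ⟨_, fun μ hμ => Cyclotomic.cyc_spec (p ^ n) σ hμ⟩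

theorem modEq_of_cyc {p : ℕ} (hp : p.Prime) {n m : ℕ} (hnm : n ≤ m) {σ : Γℚ} {a b : ℕ}
    (ha : ∀ μ : AlgebraicClosure ℚ, μ ^ p ^ n = 1 → σ μ = μ ^ a)
    (hb : ∀ μ : AlgebraicClosure ℚ, μ ^ p ^ m = 1 → σ μ = μ ^ b) : a ≡ b [MOD p ^ n] := by
  have : NeZero (p ^ n) := ⟨pow_ne_zero n hp.ne_zero⟩
  obtain ⟨ζ, hζ⟩ := Cyclotomic.exists_primitiveRoot (p ^ n)
  have h1 := ha ζ hζ.pow_eq_one
  have h2 := hb ζ (by
    obtain ⟨k, rfl⟩ := Nat.exists_eq_add_of_le hnm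
    rw [pow_add, pow_mul, hζ.pow_eq_one, one_pow])
  rw [h1] at h2
  obtain ⟨u, rfl⟩ := hζ.isUnit (pow_ne_zero n hp.ne_zero)
  have h3 : u ^ a = u ^ b := Units.ext (by simpa using h2)
  rw [hζ.eq_orderOf, orderOf_units]
  exact pow_eq_pow_iff_modEq.mp h3

theorem natCast_sub_mem_span {A : Type} [CommRing A] {m a b : ℕ} (h : a ≡ b [MOD m]) :
    ((a : A) - (b : A)) ∈ Ideal.span {((m : ℕ) : A)} := by
  rw [Ideal.mem_span_singleton]
  obtain ⟨c, hc⟩ := (Nat.modEq_iff_dvd.mp h.symm)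
  refine ⟨(c : A), ?_⟩
  have := congrArg (Int.cast : ℤ → A) hc
  push_cast at this
  exact this

theorem natCast_mem_maximalIdeal_of_hom {A B : Type} [CommRing A] [IsLocalRing A] [CommRing B]
    [IsLocalRing B] (φ : A →+* B) (hφ : IsLocalHom φ) {p : ℕ}
    (h : (p : B) ∈ maximalIdeal B) : (p : A) ∈ maximalIdeal A := by
  rw [mem_maximalIdeal, mem_nonunits_iff] at h ⊢
  intro hu
  exact h (by simpa using hu.map φ)

theorem natCast_mem_maximalIdeal_of_hom' {A B : Type} [CommRing A] [IsLocalRing A] [CommRing B]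
    [IsLocalRing B] (φ : A →+* B) (hφ : IsLocalHom φ) {p : ℕ}
    (h : (p : A) ∈ maximalIdeal A) : (p : B) ∈ maximalIdeal B := by
  rw [mem_maximalIdeal, mem_nonunits_iff] at h ⊢
  intro hu
  exact h (hφ.map_nonunit _ (by simpa using hu))

theorem exists_natCast_pow_eq_zero {A : Type} [CommRing A] [IsLocalRing A] (h : IsArtinianRing A)
    {p : ℕ} (hp : (p : A) ∈ maximalIdeal A) : ∃ N, ∀ M, N ≤ M → ((p ^ M : ℕ) : A) = 0 := by
  obtain ⟨N, hN⟩ := exists_pow_eq_bot h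
  refine ⟨N, fun M hM => ?_⟩
  rw [← Submodule.mem_bot A, ← hN]
  push_cast
  exact Ideal.pow_le_pow_right hM (Ideal.pow_mem_pow hp M)

/-- Reflection of congruence conditions. We are given `x : Γℚ → ℕ → A`... -/
theorem sub_natCast_mul_mem_of_reflect {p : ℕ} (hp : p.Prime) {A B C : Type} [CommRing A]
    [IsLocalRing A] [CommRing B] [CommRing C] (hA : IsArtinianRing A)
    (hpA : (p : A) ∈ maximalIdeal A) (f : A →+* B) (g : A →+* C)
    (hfg : ∀ a, f a = 0 → g a = 0 → a = 0) (σ : Γℚ) (x z : A)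
    (h1 : ∀ (n a : ℕ), (∀ μ : AlgebraicClosure ℚ, μ ^ p ^ n = 1 → σ μ = μ ^ a) →
      f x - (a : B) * f z ∈ Ideal.span {((p ^ n : ℕ) : B)})
    (h2 : ∀ (n a : ℕ), (∀ μ : AlgebraicClosure ℚ, μ ^ p ^ n = 1 → σ μ = μ ^ a) →
      g x - (a : C) * g z ∈ Ideal.span {((p ^ n : ℕ) : C)})
    (n a : ℕ) (ha : ∀ μ : AlgebraicClosure ℚ, μ ^ p ^ n = 1 → σ μ = μ ^ a) :
    x - (a : A) * z ∈ Ideal.span {((p ^ n : ℕ) : A)} := by
  obtain ⟨N, hN⟩ := exists_natCast_pow_eq_zero hA hpA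
  set M := max N n with hM
  obtain ⟨b, hb⟩ := exists_cyc hp M σ
  have h0 : x - (b : A) * z = 0 := by
    have hM0 : ((p ^ M : ℕ) : A) = 0 := hN M (le_max_left _ _)
    refine hfg _ ?_ ?_
    · have h3 := h1 M b hb
      have h4 : ((p ^ M : ℕ) : B) = 0 := by rw [← map_natCast f, hM0, map_zero]
      rw [h4, Ideal.span_singleton_eq_bot.mpr rfl, Ideal.mem_bot] at h3
      simpa using h3
    · have h3 := h2 M b hb
      have h4 : ((p ^ M : ℕ) : C) = 0 := by rw [← map_natCast g, hM0, map_zero]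
      rw [h4, Ideal.span_singleton_eq_bot.mpr rfl, Ideal.mem_bot] at h3
      simpa using h3
  have h5 := modEq_of_cyc hp (le_max_right N n) ha hb
  have h6 : x - (a : A) * z = (x - (b : A) * z) + ((b : A) - (a : A)) * z := by ring
  rw [h6, h0, zero_add]
  exact Ideal.mul_mem_right _ _ (natCast_sub_mem_span h5.symm)

theorem sub_natCast_mul_mem_of_limit {𝒪 : Type} [CommRing 𝒪] {p : ℕ} {A : Type} [CommRing A]
    [IsLocalRing A] [Algebra 𝒪 A] (hA : IsCoeff 𝒪 A) (x z : A) (n a : ℕ)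
    (h : ∀ (I : Ideal A) (hl : IsLocalRing (A ⧸ I)) (n' : ℕ), maximalIdeal A ^ n' ≤ I →
        ∀ (hq : IsLocalHom ((Ideal.Quotient.mkₐ 𝒪 I : A →ₐ[𝒪] A ⧸ I) : A →+* A ⧸ I)),
      Ideal.Quotient.mk I x - (a : A ⧸ I) * Ideal.Quotient.mk I z ∈
        Ideal.span {((p ^ n : ℕ) : A ⧸ I)}) :
    x - (a : A) * z ∈ Ideal.span {((p ^ n : ℕ) : A)} := by
  have := hA.isNoetherianRing
  refine mem_of_forall_mem_sup_pow _ _ fun k => ?_
  obtain ⟨hl, -, hq⟩ := hA.quotient_pow k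
  have h1 := h _ hl (k + 1) le_rfl hq
  rw [Ideal.mem_span_singleton] at h1
  obtain ⟨c, hc⟩ := h1
  obtain ⟨c, rfl⟩ := Ideal.Quotient.mk_surjective c
  have h2 : Ideal.Quotient.mk (maximalIdeal A ^ (k + 1)) (x - a * z - ((p ^ n : ℕ) : A) * c) = 0 := by
    rw [map_sub, map_sub, map_mul, map_mul, map_natCast, map_natCast, hc, sub_self]
  rw [Ideal.Quotient.eq_zero_iff_mem] at h2
  have h3 : x - a * z = ((p ^ n : ℕ) : A) * c + (x - a * z - ((p ^ n : ℕ) : A) * c) := by ring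
  rw [h3]
  exact Submodule.add_mem_sup (Ideal.mul_mem_right _ _ (Ideal.mem_span_singleton_self _)) h2

theorem good_detIsCyclotomic {p : ℕ} (hp : p.Prime) :
    Good 𝒪 (fun _A _ _ _ ρ => ρ.DetIsCyclotomic p) where
  of_isEquiv A _ _ _ hA ρ ρ' e h := by
    obtain ⟨e⟩ := e
    refine ⟨h.1, fun n σ a ha => ?_⟩
    rw [det_equiv e]
    exact h.2 n σ a ha
  baseChange A B _ _ _ _ _ _ hA hB φ hφ ρ h := by
    refine ⟨natCast_mem_maximalIdeal_of_hom' _ hφ h.1, fun n σ a ha => ?_⟩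
    rw [det_baseChangeAlong]
    have h1 := Ideal.mem_map_of_mem (φ : A →+* B) (h.2 n σ a ha)
    rw [Ideal.map_span, Set.image_singleton, map_sub, map_natCast, map_natCast] at h1
    exact h1
  reflect A B C _ _ _ _ _ _ _ _ _ hA hB hC f g hf hg hfg ρ h1 h2 := by
    have hpA : (p : A) ∈ maximalIdeal A := natCast_mem_maximalIdeal_of_hom _ hf h1.1
    refine ⟨hpA, fun n σ a ha => ?_⟩
    have := sub_natCast_mul_mem_of_reflect hp hA.isArtinian hpA (f : A →+* B) (g : A →+* C) hfg σ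
      (LinearMap.det (ρ.ρ σ)) 1
      (fun n a ha => by
        rw [← det_baseChangeAlong _ hf, map_one, mul_one]; exact h1.2 n σ a ha)
      (fun n a ha => by
        rw [← det_baseChangeAlong _ hg, map_one, mul_one]; exact h2.2 n σ a ha) n a ha
    rwa [mul_one] at this
  limit A _ _ _ _ _ hA ρ h := by
    refine ⟨?_, fun n σ a ha => ?_⟩
    · obtain ⟨hl, -, hq⟩ := hA.quotient_pow 0
      exact natCast_mem_maximalIdeal_of_hom _ hq (h _ hl 1 le_rfl hq).1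
    · have := sub_natCast_mul_mem_of_limit (p := p) hA (LinearMap.det (ρ.ρ σ)) 1 n a
        (fun I hl n' hI hq => by
          have h1 := (h I hl n' hI hq).2 n σ a ha
          rw [det_baseChangeAlong] at h1
          rw [map_one, mul_one]
          exact h1)
      rwa [mul_one] at this

end Det

end Fermat.Agent.DefCond
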